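/-
P-CFT / WP2 (local theory), row LOC-1: interface of the local norm index theorem.
Mathlib only.

`LocalNormDatum K L v` is an elementary "henselian discretely valued field with finite
residue field" package for a valuation `v` on `L` (with values in any linearly ordered
commutative group with zero, e.g. `ℝ≥0` or `ℤᵐ⁰`), where `L / K` is a finite Galois extension:

* `v` is invariant under `Gal(L/K)`;
* `v` is discrete on `L` and on `K` (uniformizers whose values generate the value groups);
* the residue field of `L` is finite (finitely many representatives);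
* `K` satisfies Hensel's lemma for monic polynomials with a simple root in the residue field.

`NormIndexStatement` says that for a *cyclic* such extension the norm group has index
`[L : K]` in `Kˣ`.
-/
import Mathlib

set_option autoImplicit false

namespace Fermat.Agent.H78.CFT

open Polynomial

/-- Elementary henselian / discrete / finite-residue-field package (see the file header). -/
structure LocalNormDatum (K L : Type*) [Field K] [Field L] [Algebra K L]
    {Γ₀ : Type*} [LinearOrderedCommGroupWithZero Γ₀] (v : Valuation L Γ₀) : Prop where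
  /-- `v` is Galois invariant. -/
  galois_inv : ∀ (σ : L ≃ₐ[K] L) (x : L), v (σ x) = v x
  /-- `v` is discrete on `L`. -/
  unifL : ∃ ϖ : L, ϖ ≠ 0 ∧ v ϖ < 1 ∧ ∀ x : L, x ≠ 0 → ∃ n : ℤ, v x = v ϖ ^ n
  /-- `v` is discrete (and nontrivial) on `K`. -/
  unifK : ∃ π : K, π ≠ 0 ∧ v (algebraMap K L π) < 1 ∧
    ∀ x : K, x ≠ 0 → ∃ n : ℤ, v (algebraMap K L x) = v (algebraMap K L π) ^ n
  /-- the residue field of `L` is finite. -/
  res_finite : ∃ R : Finset L, ∀ x : L, v x ≤ 1 → ∃ r ∈ R, v (x - r) < 1
  /-- Hensel's lemma in `K` (monic polynomial, simple root modulo the maximal ideal). -/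
  hensel : ∀ f : K[X], f.Monic → (∀ i, v (algebraMap K L (f.coeff i)) ≤ 1) →
    ∀ a₀ : K, v (algebraMap K L a₀) ≤ 1 → v (algebraMap K L (f.eval a₀)) < 1 →
      v (algebraMap K L (f.derivative.eval a₀)) = 1 →
        ∃ a : K, f.eval a = 0 ∧ v (algebraMap K L (a - a₀)) < 1

/-- The norm subgroup `N_{L/K}(Lˣ) ≤ Kˣ`. -/
noncomputable def normSubgroup (K L : Type*) [Field K] [Field L] [Algebra K L] : Subgroup Kˣ :=
  (Units.map (Algebra.norm K : L →* K)).range

/-- **Local norm index theorem** (statement): for a finite cyclic Galois extension `L / K`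
carrying a `LocalNormDatum`, the norm group has index `[L : K]` in `Kˣ`. -/
def NormIndexStatement : Prop :=
  ∀ (K L : Type) [Field K] [Field L] [Algebra K L] [FiniteDimensional K L] [IsGalois K L]
    [IsCyclic (L ≃ₐ[K] L)] (Γ₀ : Type) [LinearOrderedCommGroupWithZero Γ₀]
    (v : Valuation L Γ₀), LocalNormDatum K L v →
      (normSubgroup K L).index = Module.finrank K L

end Fermat.Agent.H78.CFT
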