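/-
P-CFT / LOCAL (sub-lead helper78): the Prop-statements of the LOCAL rows (interfaces only).

Currency: `E : IntermediateField ℚ ℚ̄`, `G_E := ↥E.fixingSubgroup` with the level system
`lvlE E := pullbackLevelSys E.fixingSubgroup.subtype`; multiplicative cochains with values in
`ℚ̄ˣ` (action `actU`), finite level cochains on `Gal(F/E) = F ≃ₐ[E] F` with values in `Fˣ` in
Mathlib's `IsMulCocycle₂ / IsMulCoboundary₂` language.
-/
import Fermat.Agent.H78.CFT.LocalTarget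
import Fermat.Agent.H78.CFT.LocalDefs

set_option autoImplicit false

namespace Fermat.Agent.H78.CFT

open Fermat.Agent.H13.Cft groupCohomology

/-- `ℚ̄`. -/
abbrev Qb : Type := AlgebraicClosure ℚ

/-- The level system of `Gal(ℚ̄/E)`. -/
noncomputable abbrev lvlE (E : IntermediateField ℚ Qb) : LevelSys E.fixingSubgroup :=
  pullbackLevelSys E.fixingSubgroup.subtype

/-- The action of `G_ℚ` on `ℚ̄ˣ`. -/
noncomputable def actU (σ : Qb ≃ₐ[ℚ] Qb) : Qbˣ →* Qbˣ := Units.map (σ : Qb →* Qb)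

@[simp] lemma coe_actU (σ : Qb ≃ₐ[ℚ] Qb) (u : Qbˣ) : ((actU σ u : Qbˣ) : Qb) = σ (u : Qb) := rfl

/-- Right invariance of a function on `G` under a level (any target type). -/
def IsLvlFun₁ {G : Type} [Group G] (𝒰 : LevelSys G) {M : Type} (x : G → M) : Prop :=
  ∃ N ∈ 𝒰.sets, ∀ g, ∀ n ∈ N, x (g * n) = x g

/-- Right invariance of a function on `G × G` under a level (any target type). -/
def IsLvlFun₂ {G : Type} [Group G] (𝒰 : LevelSys G) {M : Type} (c : G × G → M) : Prop :=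
  ∃ N ∈ 𝒰.sets, ∀ g h, ∀ n ∈ N, ∀ m ∈ N, c (g * n, h * m) = c (g, h)

variable (E : IntermediateField ℚ Qb)

/-- Multiplicative 1-cocycles of `G_E` with values in `ℚ̄ˣ`. -/
def IsMulCocycle₁E (x : E.fixingSubgroup → Qbˣ) : Prop :=
  ∀ g h : E.fixingSubgroup, x (g * h) = actU (g : Qb ≃ₐ[ℚ] Qb) (x h) * x g

/-- The coboundary of a multiplicative 1-cochain of `G_E` with values in `ℚ̄ˣ`. -/
noncomputable def mulD₁E (x : E.fixingSubgroup → Qbˣ) : E.fixingSubgroup × E.fixingSubgroup → Qbˣ :=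
  fun gh => actU (gh.1 : Qb ≃ₐ[ℚ] Qb) (x gh.2) * x gh.1 / x (gh.1 * gh.2)

/-- `c` is the coboundary of a LEVEL 1-cochain of `G_E` with values in `ℚ̄ˣ`. -/
def IsLvlMulCoboundary₂E (c : E.fixingSubgroup × E.fixingSubgroup → Qbˣ) : Prop :=
  ∃ x : E.fixingSubgroup → Qbˣ, IsLvlFun₁ (lvlE E) x ∧ ∀ gh, mulD₁E E x gh = c gh

/-- **[LOC-H90]** Hilbert 90 for level cocycles of `Gal(ℚ̄/E)` with values in `ℚ̄ˣ`
(`E` arbitrary). -/
def H90LvlStatement : Prop :=
  ∀ (E : IntermediateField ℚ Qb) (x : E.fixingSubgroup → Qbˣ), IsLvlFun₁ (lvlE E) x →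
    IsMulCocycle₁E E x → ∃ z : Qbˣ, ∀ g : E.fixingSubgroup, x g = actU (g : Qb ≃ₐ[ℚ] Qb) z / z

/-- The `μ_p`-valued cochain `ζ ^ c` attached to a `ZMod p`-valued cochain. -/
noncomputable def zetaPow {p : ℕ} {X : Type} (ζ : Qbˣ) (c : X → ZMod p) : X → Qbˣ :=
  fun x => ζ ^ (c x).val

/-- **[LOC-MU]** descent from `ℚ̄ˣ` to `μ_p`: a level `ZMod p`-valued 2-cochain `c` such that
`ζ ^ c` is the coboundary of a level `ℚ̄ˣ`-valued 1-cochain is a level coboundary.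
(Injectivity of `H²(G_E, μ_p) → H²(G_E, ℚ̄ˣ)`; from Hilbert 90 and `p`-th roots in `ℚ̄`.) -/
def MuDescentStatement : Prop :=
  ∀ (p : ℕ) [Fact p.Prime] (E : IntermediateField ℚ Qb) (ζ : Qbˣ),
    IsPrimitiveRoot (ζ : Qb) p → (ζ : Qb) ∈ E →
    ∀ c : E.fixingSubgroup × E.fixingSubgroup → ZMod p,
      IsLvlMulCoboundary₂E E (zetaPow ζ c) → IsLvlCoboundary₂ (lvlE E) c

/-- Restriction `G_E → Gal(F/E)` for a normal intermediate field `F` of `ℚ̄/E`. -/
noncomputable def resEF (F : IntermediateField E Qb) [Normal E F] :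
    E.fixingSubgroup →* (F ≃ₐ[E] F) :=
  (AlgEquiv.restrictNormalHom F).comp (IntermediateField.fixingSubgroupEquiv E).toMonoidHom

/-- Inflation of a finite level 2-cochain to `G_E`. -/
noncomputable def inflE (F : IntermediateField E Qb) [Normal E F]
    (c : (F ≃ₐ[E] F) × (F ≃ₐ[E] F) → Fˣ) : E.fixingSubgroup × E.fixingSubgroup → Qbˣ :=
  fun gh => Units.map (algebraMap F Qb : F →* Qb) (c (resEF E F gh.1, resEF E F gh.2))

/-- **[LOC-INF2]** inflation `H²(Gal(F/E), Fˣ) → H²_lvl(G_E, ℚ̄ˣ)` is injective. -/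
def Inf2LvlStatement : Prop :=
  ∀ (E : IntermediateField ℚ Qb) (F : IntermediateField E Qb) [FiniteDimensional E F]
    [IsGalois E F] (c : (F ≃ₐ[E] F) × (F ≃ₐ[E] F) → Fˣ), IsMulCocycle₂ c →
    IsLvlMulCoboundary₂E E (inflE E F c) → IsMulCoboundary₂ c

/-- **[LOC-FIN]** every level 2-cocycle of `G_E` with values in `ℚ̄ˣ` is inflated from a finite
Galois extension `F / E`. -/
def Lvl2FiniteStatement : Prop :=
  ∀ (E : IntermediateField ℚ Qb) (c : E.fixingSubgroup × E.fixingSubgroup → Qbˣ),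
    IsLvlFun₂ (lvlE E) c →
    (∀ g h j : E.fixingSubgroup,
      c (g * h, j) * c (g, h) = actU (g : Qb ≃ₐ[ℚ] Qb) (c (h, j)) * c (g, h * j)) →
    ∃ (F : IntermediateField E Qb) (_ : FiniteDimensional E F) (_ : IsGalois E F)
      (c' : (F ≃ₐ[E] F) × (F ≃ₐ[E] F) → Fˣ), IsMulCocycle₂ c' ∧ inflE E F c' = c

/-- `α` is a Kummer generator of the character `χ` of `G_E`. -/
def IsKummerGenE {p : ℕ} (ζ : Qbˣ) (χ : E.fixingSubgroup → ZMod p) (α : Qbˣ) : Prop :=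
  ∀ g : E.fixingSubgroup, actU (g : Qb ≃ₐ[ℚ] Qb) α = ζ ^ (χ g).val * α

/-- **[LOC-KUM]** Kummer theory for `G_E` (`E` arbitrary containing `ζ_p`): level characters
`G_E → ZMod p` are exactly the Kummer characters of elements of `Eˣ`. -/
def KummerEStatement : Prop :=
  ∀ (p : ℕ) [Fact p.Prime] (E : IntermediateField ℚ Qb) (ζ : Qbˣ),
    IsPrimitiveRoot (ζ : Qb) p → (ζ : Qb) ∈ E →
    (∀ χ : E.fixingSubgroup → ZMod p, IsLvlHom (lvlE E) χ → ∃ α : Qbˣ, IsKummerGenE E ζ χ α) ∧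
    (∀ α : Qbˣ, ((α : Qb) ^ p ∈ E) →
      ∃ χ : E.fixingSubgroup → ZMod p, IsLvlHom (lvlE E) χ ∧ IsKummerGenE E ζ χ α) ∧
    (∀ (χ : E.fixingSubgroup → ZMod p) (α : Qbˣ), IsKummerGenE E ζ χ α →
      ((α : Qb) ^ p ∈ E ∧ (χ = 0 ↔ (α : Qb) ∈ E)))

/-- `b` is a norm from `E(α)`. -/
def IsNormFromAdjoin (α b : Qb) : Prop :=
  ∃ y : IntermediateField.adjoin E {α},
    (algebraMap E Qb (Algebra.norm E y) : Qb) = b

/-- **[LOC-8]** the cup product of two Kummer characters versus norms (`E` arbitrary containing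
`ζ_p`): for `χ ≠ 0` with Kummer generator `α` and `ψ` with Kummer generator `β`,
`ψ ∪ χ` is a level coboundary iff `β ^ p` is a norm from `E(α)`. -/
def CupNormStatement : Prop :=
  ∀ (p : ℕ) [Fact p.Prime] (E : IntermediateField ℚ Qb) (ζ : Qbˣ),
    IsPrimitiveRoot (ζ : Qb) p → (ζ : Qb) ∈ E →
    ∀ (χ ψ : E.fixingSubgroup → ZMod p) (α β : Qbˣ), IsLvlHom (lvlE E) χ →
      IsLvlHom (lvlE E) ψ → IsKummerGenE E ζ χ α → IsKummerGenE E ζ ψ β → χ ≠ 0 →
      (IsLvlCoboundary₂ (lvlE E) (fun x => ψ x.1 * χ x.2) ↔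
        IsNormFromAdjoin E (α : Qb) ((β : Qb) ^ p))

/-- **[LOC-6]** the `p`-torsion of the Brauer group of a local field, at finite level:
there are a finite Galois `F₀ / E` and a 2-cocycle `u` on `Gal(F₀/E)` such that every
2-cocycle `c` on any finite Galois `Gal(F/E)` whose `p`-th power is a coboundary becomes,
after inflation to `G_E`, cohomologous (through level cochains) to a power of `u`; moreover
`u ^ p` is a coboundary.  (`u` = the class of invariant `1/p`, living on the unramified extension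
of degree `p`.) -/
def BrauerPStatement : Prop :=
  ∀ (p : ℕ) [Fact p.Prime] (q : ℕ) [Fact q.Prime] (E : IntermediateField ℚ Qb),
    Fermat.Agent.H81.Local.IsLocalFinite q E →
    ∃ (F₀ : IntermediateField E Qb) (_ : FiniteDimensional E F₀) (_ : IsGalois E F₀)
      (u : (F₀ ≃ₐ[E] F₀) × (F₀ ≃ₐ[E] F₀) → F₀ˣ), IsMulCocycle₂ u ∧
      IsMulCoboundary₂ (fun x => u x ^ p) ∧
      ∀ (F : IntermediateField E Qb) [FiniteDimensional E F] [IsGalois E F]
        (c : (F ≃ₐ[E] F) × (F ≃ₐ[E] F) → Fˣ), IsMulCocycle₂ c →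
        IsMulCoboundary₂ (fun x => c x ^ p) →
        ∃ j : ℕ, IsLvlMulCoboundary₂E E (fun x => inflE E F c x / inflE E F₀ u x ^ j)

/-- **[LOC-7]** `Eˣ / (Eˣ)^p` is finite for a local field `E`. -/
def PowFiniteStatement : Prop :=
  ∀ (p : ℕ) [Fact p.Prime] (q : ℕ) [Fact q.Prime] (E : IntermediateField ℚ Qb),
    Fermat.Agent.H81.Local.IsLocalFinite q E →
    ∃ R : Finset Eˣ, ∀ a : Eˣ, ∃ r ∈ R, ∃ b : Eˣ, a = r * b ^ p

/-- the three parts of `FieldCoreStatement` -/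
def FieldCupStatement : Prop :=
  ∀ (p : ℕ) [Fact p.Prime], p ≠ 2 → ∀ (q : ℕ) [Fact q.Prime]
    (E : IntermediateField ℚ Qb), Fermat.Agent.H81.Local.IsLocalFinite q E →
    (∃ ζ ∈ E, IsPrimitiveRoot ζ p) → CupNondeg (lvlE E) p

def FieldH2Statement : Prop :=
  ∀ (p : ℕ) [Fact p.Prime], p ≠ 2 → ∀ (q : ℕ) [Fact q.Prime]
    (E : IntermediateField ℚ Qb), Fermat.Agent.H81.Local.IsLocalFinite q E →
    (∃ ζ ∈ E, IsPrimitiveRoot ζ p) → H2OneDim (lvlE E) p

def FieldH1FiniteStatement : Prop :=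
  ∀ (p : ℕ) [Fact p.Prime], p ≠ 2 → ∀ (q : ℕ) [Fact q.Prime]
    (E : IntermediateField ℚ Qb), Fermat.Agent.H81.Local.IsLocalFinite q E →
    (∃ ζ ∈ E, IsPrimitiveRoot ζ p) → H1Finite (lvlE E) p

theorem fieldCore_of_parts (h1 : FieldCupStatement) (h2 : FieldH2Statement)
    (h3 : FieldH1FiniteStatement) : FieldCoreStatement :=
  fun p _ hp q _ E hE hζ => ⟨h2 p hp q E hE hζ, h1 p hp q E hE hζ, h3 p hp q E hE hζ⟩

end Fermat.Agent.H78.CFT
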