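/-
P-CFT / LOCAL (sub-lead helper78): THE CANONICAL LOCAL INVARIANT (shared currency of the LOCAL
block, RECIP-Q, REAL, HASSE and the trace of the FRAME).  Definitions + the formal lemmas;
the arithmetic statements about it are the Props of `LocalInvRows.lean`.

Currency (`LocalRows`): `E : IntermediateField ℚ ℚ̄`, `G_E = ↥E.fixingSubgroup`, multiplicative
level 2-cochains `c : G_E × G_E → ℚ̄ˣ`.  NO `ζ_p` assumed.

* `unramExt q E m = E(μ_{Q^m - 1})` (helper49), `IsFrobE q E m φ` : `φ` is THE Frobenius of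
  `unramExt q E m / E` (helper49's `IsUnramCyclic`; it is unique, `IsFrobE.unique`);
* `unramCocycle q E m φ a` : the inflation to `G_E` of helper61's `stdCocycle φ a`, `a ∈ Eˣ`:
  `(φ^i, φ^j) ↦ a ^ ⌊(i + j) / m⌋`, `0 ≤ i, j < m`;
* `HasInv q E c j m` : "`inv_E(c) = j / m`": `c` is cohomologous, through LEVEL cochains, to
  `unramCocycle q E m φ π ^ j` for some uniformizer `π` of `E` and the Frobenius `φ`.
  NORMALISATION: the unramified class of a uniformizer, w.r.t. the ARITHMETIC Frobenius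
  (`φ x ≡ x ^ Q`), has invariant `1 / m`.
-/
import Fermat.Agent.H78.CFT.LocalRows
import Fermat.Agent.H49.CFT.UnramQbar
import Fermat.Agent.H61.CFT.CyclicCocycle
import Fermat.Agent.H81.Local.EF

set_option autoImplicit false
set_option synthInstance.maxHeartbeats 400000

namespace Fermat.Agent.H78.CFT

open Fermat.Agent.H13.Cft groupCohomology
open Fermat.Agent.H49.Unram Fermat.Agent.H61.CFT Fermat.Agent.H81.Local

/-- `E(μ_N) / E` is normal (inside `ℚ̄`). -/
instance normal_cyclo (E : IntermediateField ℚ Qb) (N : ℕ) : Normal E (cyclo E Qb N) := by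
  have : Algebra.IsAlgebraic E Qb := isAlgebraic_qbar_over E
  have : Normal E Qb := normal_of_isAlgClosed E Qb
  rw [IntermediateField.normal_iff_forall_map_le']
  intro σ
  unfold cyclo
  rw [IntermediateField.adjoin_map]
  apply IntermediateField.adjoin.mono
  rintro _ ⟨x, hx, rfl⟩
  show (σ x) ^ N = 1
  have hx' : x ^ N = 1 := hx
  have : (σ : Qb →ₐ[E] Qb) x = σ x := rfl
  rw [← map_pow, hx', map_one]

/-- `unramExt q E m / E` is normal. -/
instance normal_unramExt (q : ℕ) [Fact q.Prime] (E : IntermediateField ℚ Qb) (m : ℕ) :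
    Normal E (unramExt q E m) :=
  normal_cyclo E _

/-- The unit of `unramExt q E m` attached to a unit of `E`. -/
noncomputable def unitOfE (q : ℕ) [Fact q.Prime] (E : IntermediateField ℚ Qb) (m : ℕ) :
    Eˣ →* (unramExt q E m)ˣ :=
  Units.map ((algebraMap E (unramExt q E m) : E →+* unramExt q E m) : E →* unramExt q E m)

/-- `φ` is the Frobenius of `unramExt q E m / E` (helper49's `IsUnramCyclic`). -/
def IsFrobE (q : ℕ) [Fact q.Prime] (E : IntermediateField ℚ Qb) (m : ℕ)
    (φ : unramExt q E m ≃ₐ[E] unramExt q E m) : Prop :=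
  IsUnramCyclic (qVal q) (resCard q E) (unramExt q E m) m φ

/-- The Frobenius exists (`m > 0`, `E` local). -/
theorem exists_isFrobE {q : ℕ} [Fact q.Prime] {E : IntermediateField ℚ Qb}
    (hE : IsLocalFinite q E) {m : ℕ} (hm : 0 < m) : ∃ φ, IsFrobE q E m φ :=
  exists_frob_unramExt hE hm

/-- The Frobenius is unique. -/
theorem IsFrobE.unique {q : ℕ} [Fact q.Prime] {E : IntermediateField ℚ Qb} {m : ℕ}
    {φ φ' : unramExt q E m ≃ₐ[E] unramExt q E m} (h : IsFrobE q E m φ)
    (h' : IsFrobE q E m φ') : φ = φ' := by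
  apply IsUnramCyclic.unique h
  intro x hx
  have h1 := IsUnramCyclic.frob h x hx
  have h2 := IsUnramCyclic.frob h' x hx
  have h3 : ((φ x : unramExt q E m) : Qb) - (φ' x : unramExt q E m) =
      ((φ x : unramExt q E m) - (x : Qb) ^ resCard q E) -
        ((φ' x : unramExt q E m) - (x : Qb) ^ resCard q E) := by ring
  rw [h3]
  exact lt_of_le_of_lt (Valuation.map_sub _ _ _) (max_lt h1 h2)

/-- The unramified 2-cocycle of `G_E` attached to `a ∈ Eˣ`, the degree `m` and the generator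
`φ` of `Gal(unramExt q E m / E)`: the inflation of `(φ^i, φ^j) ↦ a ^ ⌊(i + j) / m⌋`. -/
noncomputable def unramCocycle (q : ℕ) [Fact q.Prime] (E : IntermediateField ℚ Qb) (m : ℕ)
    (φ : unramExt q E m ≃ₐ[E] unramExt q E m) (a : Eˣ) :
    E.fixingSubgroup × E.fixingSubgroup → Qbˣ :=
  inflE E (unramExt q E m) (stdCocycle φ (unitOfE q E m a))

/-- **The canonical local invariant**: `HasInv q E c j m` means `inv_E(c) = j / m` in `ℚ/ℤ`,
i.e. the level 2-cochain `c` of `G_E` with values in `ℚ̄ˣ` is cohomologous (through level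
cochains) to the `j`-th power of the unramified cocycle of degree `m` of a uniformizer. -/
def HasInv (q : ℕ) [Fact q.Prime] (E : IntermediateField ℚ Qb)
    (c : E.fixingSubgroup × E.fixingSubgroup → Qbˣ) (j : ℤ) (m : ℕ) : Prop :=
  ∃ (π : Eˣ) (φ : unramExt q E m ≃ₐ[E] unramExt q E m),
    IsUnif q E ((π : E) : Qb) ∧ IsFrobE q E m φ ∧
      IsLvlMulCoboundary₂E E (fun x => c x / unramCocycle q E m φ π x ^ j)

/-- Restriction of 2-cochains from `G_E` to `G_{E'}`, `E ≤ E'`. -/
noncomputable def resCochain₂ {E E' : IntermediateField ℚ Qb} (h : E ≤ E') {M : Type}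
    (c : E.fixingSubgroup × E.fixingSubgroup → M) :
    E'.fixingSubgroup × E'.fixingSubgroup → M :=
  fun x => c (Subgroup.inclusion (IntermediateField.fixingSubgroup_le h) x.1,
    Subgroup.inclusion (IntermediateField.fixingSubgroup_le h) x.2)

/-- A uniformizer of `E` as a unit of `E`. -/
theorem exists_unif_unit {q : ℕ} [Fact q.Prime] {E : IntermediateField ℚ Qb}
    (hE : IsLocalFinite q E) : ∃ π : Eˣ, IsUnif q E ((π : E) : Qb) := by
  obtain ⟨π, hπ⟩ := exists_isUnif hE
  have h0 : (⟨π, hπ.1⟩ : E) ≠ 0 := fun h => hπ.2.1 (congrArg Subtype.val h)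
  exact ⟨Units.mk0 ⟨π, hπ.1⟩ h0, hπ⟩

/-- The trivial cochain is a level coboundary. -/
theorem isLvlMulCoboundary₂E_one (E : IntermediateField ℚ Qb) :
    IsLvlMulCoboundary₂E E (fun _ => 1) := by
  obtain ⟨N, hN⟩ := (lvlE E).nonempty
  refine ⟨fun _ => 1, ⟨N, hN, fun _ _ _ => rfl⟩, fun gh => ?_⟩
  simp [mulD₁E]

/-- Level coboundaries are closed under products. -/
theorem IsLvlMulCoboundary₂E.mul {E : IntermediateField ℚ Qb}
    {c c' : E.fixingSubgroup × E.fixingSubgroup → Qbˣ} (h : IsLvlMulCoboundary₂E E c)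
    (h' : IsLvlMulCoboundary₂E E c') : IsLvlMulCoboundary₂E E (fun x => c x * c' x) := by
  obtain ⟨x, ⟨N, hN, hxN⟩, hx⟩ := h
  obtain ⟨x', ⟨N', hN', hxN'⟩, hx'⟩ := h'
  obtain ⟨N'', hN'', hle⟩ := (lvlE E).directed N hN N' hN'
  refine ⟨fun g => x g * x' g, ⟨N'', hN'', fun g n hn => ?_⟩, fun gh => ?_⟩
  · show x (g * n) * x' (g * n) = x g * x' g
    rw [hxN g n (hle hn).1, hxN' g n (hle hn).2]
  · show mulD₁E E (fun g => x g * x' g) gh = c gh * c' gh
    rw [← hx gh, ← hx' gh]
    simp only [mulD₁E, map_mul]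
    rw [div_mul_div_comm]
    congr 1
    ac_rfl

/-- Level coboundaries are closed under inverses. -/
theorem IsLvlMulCoboundary₂E.inv {E : IntermediateField ℚ Qb}
    {c : E.fixingSubgroup × E.fixingSubgroup → Qbˣ} (h : IsLvlMulCoboundary₂E E c) :
    IsLvlMulCoboundary₂E E (fun x => (c x)⁻¹) := by
  obtain ⟨x, ⟨N, hN, hxN⟩, hx⟩ := h
  refine ⟨fun g => (x g)⁻¹, ⟨N, hN, fun g n hn => ?_⟩, fun gh => ?_⟩
  · show (x (g * n))⁻¹ = (x g)⁻¹
    rw [hxN g n hn]
  · show mulD₁E E (fun g => (x g)⁻¹) gh = (c gh)⁻¹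
    rw [← hx gh]
    simp only [mulD₁E, map_inv]
    rw [← mul_inv, inv_div_inv, inv_div]

/-- `inv(c) = 0 / m` iff `c` is a level coboundary (`E` local, `m > 0`). -/
theorem hasInv_zero_iff {q : ℕ} [Fact q.Prime] {E : IntermediateField ℚ Qb}
    (hE : IsLocalFinite q E) {m : ℕ} (hm : 0 < m)
    (c : E.fixingSubgroup × E.fixingSubgroup → Qbˣ) :
    HasInv q E c 0 m ↔ IsLvlMulCoboundary₂E E c := by
  constructor
  · rintro ⟨π, φ, -, -, h⟩
    simpa using h
  · intro h
    obtain ⟨π, hπ⟩ := exists_unif_unit hE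
    obtain ⟨φ, hφ⟩ := exists_isFrobE hE hm
    exact ⟨π, φ, hπ, hφ, by simpa using h⟩

end Fermat.Agent.H78.CFT
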