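/-
P-CFT / LOCAL (sub-lead helper78): the Prop-statements about the canonical local invariant
`HasInv` (`LocalInv.lean`) - the rows INV-* - and the local statements needed by Step D v2
(rows LC-*).  INTERFACES ONLY.

`E` always denotes a finite extension of `K_v = ℚ̄^{D_q}` inside `ℚ̄` (`IsLocalFinite q E`);
NO `ζ_p` is assumed unless stated.
-/
import Fermat.Agent.H78.CFT.LocalInv
import Fermat.Agent.H24.Brauer.Interfaces

set_option autoImplicit false
set_option synthInstance.maxHeartbeats 400000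

namespace Fermat.Agent.H78.CFT

open Fermat.Agent.H13.Cft groupCohomology ExtCitation
open Fermat.Agent.H49.Unram Fermat.Agent.H61.CFT Fermat.Agent.H81.Local

/-- Multiplicative 2-cocycles of `G_E` with values in `ℚ̄ˣ`. -/
def IsMulCocycle₂E (E : IntermediateField ℚ Qb)
    (c : E.fixingSubgroup × E.fixingSubgroup → Qbˣ) : Prop :=
  ∀ g h j : E.fixingSubgroup,
    c (g * h, j) * c (g, h) = actU (g : Qb ≃ₐ[ℚ] Qb) (c (h, j)) * c (g, h * j)

/-! ### The rows about the invariant -/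

/-- **[INV-STD]** (= L3 + L4 for the unramified extensions) the unramified cocycle of `a ∈ Eˣ`
of degree `m` is a level coboundary iff `m ∣ ord_E(a)`. -/
def UnramCocycleStatement : Prop :=
  ∀ (q : ℕ) [Fact q.Prime] (E : IntermediateField ℚ Qb), IsLocalFinite q E →
    ∀ (m : ℕ) (φ : unramExt q E m ≃ₐ[E] unramExt q E m), IsFrobE q E m φ →
    ∀ (π a : Eˣ) (k : ℤ), IsUnif q E ((π : E) : Qb) →
      qVal q ((a : E) : Qb) = qVal q ((π : E) : Qb) ^ k →
      (IsLvlMulCoboundary₂E E (unramCocycle q E m φ a) ↔ (m : ℤ) ∣ k)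

/-- **[INV-EX]** (L1, existence) every level 2-cocycle of `G_E` with values in `ℚ̄ˣ` whose
`p^n`-th power is a level coboundary has an invariant `j / p^n`. -/
def InvExistsStatement : Prop :=
  ∀ (p : ℕ) [Fact p.Prime] (q : ℕ) [Fact q.Prime] (E : IntermediateField ℚ Qb),
    IsLocalFinite q E → ∀ (n : ℕ) (c : E.fixingSubgroup × E.fixingSubgroup → Qbˣ),
      IsLvlFun₂ (lvlE E) c → IsMulCocycle₂E E c →
      IsLvlMulCoboundary₂E E (fun x => c x ^ (p ^ n)) → ∃ j : ℤ, HasInv q E c j (p ^ n)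

/-- **[INV-UNIQ]** (L1, uniqueness) the invariant is unique modulo `m`. -/
def InvUniqueStatement : Prop :=
  ∀ (q : ℕ) [Fact q.Prime] (E : IntermediateField ℚ Qb), IsLocalFinite q E →
    ∀ (m : ℕ) (c : E.fixingSubgroup × E.fixingSubgroup → Qbˣ) (j j' : ℤ),
      HasInv q E c j m → HasInv q E c j' m → (m : ℤ) ∣ j - j'

/-- **[INV-PER]** the invariant only depends on `j` modulo `m`. -/
def InvPeriodStatement : Prop :=
  ∀ (q : ℕ) [Fact q.Prime] (E : IntermediateField ℚ Qb), IsLocalFinite q E →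
    ∀ (m : ℕ) (c : E.fixingSubgroup × E.fixingSubgroup → Qbˣ) (j j' : ℤ),
      HasInv q E c j m → (m : ℤ) ∣ j - j' → HasInv q E c j' m

/-- **[INV-INDEP]** (L1) independence of the uniformizer (and of the Frobenius, which is
unique). -/
def InvIndepStatement : Prop :=
  ∀ (q : ℕ) [Fact q.Prime] (E : IntermediateField ℚ Qb), IsLocalFinite q E →
    ∀ (m : ℕ) (c : E.fixingSubgroup × E.fixingSubgroup → Qbˣ) (j : ℤ), HasInv q E c j m →
    ∀ (π : Eˣ) (φ : unramExt q E m ≃ₐ[E] unramExt q E m), IsUnif q E ((π : E) : Qb) →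
      IsFrobE q E m φ → IsLvlMulCoboundary₂E E (fun x => c x / unramCocycle q E m φ π x ^ j)

/-- **[INV-MUL]** (L1) additivity. -/
def InvMulStatement : Prop :=
  ∀ (q : ℕ) [Fact q.Prime] (E : IntermediateField ℚ Qb), IsLocalFinite q E →
    ∀ (m : ℕ) (c c' : E.fixingSubgroup × E.fixingSubgroup → Qbˣ) (j j' : ℤ),
      HasInv q E c j m → HasInv q E c' j' m → HasInv q E (fun x => c x * c' x) (j + j') m

/-- **[INV-COMPAT]** (L1) `j / m = j m' / (m m')`: the inflation of the unramified class of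
degree `m` is the `m'`-th multiple of the unramified class of degree `m m'`. -/
def InvCompatStatement : Prop :=
  ∀ (q : ℕ) [Fact q.Prime] (E : IntermediateField ℚ Qb), IsLocalFinite q E →
    ∀ (m m' : ℕ), 0 < m' → ∀ (c : E.fixingSubgroup × E.fixingSubgroup → Qbˣ) (j : ℤ),
      HasInv q E c j m → HasInv q E c (j * m') (m * m')

/-- **[INV-DESC]** (L1) converse of compatibility: an invariant `j m' / (m m')` is an invariant
`j / m`. -/
def InvDescendStatement : Prop :=
  ∀ (q : ℕ) [Fact q.Prime] (E : IntermediateField ℚ Qb), IsLocalFinite q E →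
    ∀ (m m' : ℕ), 0 < m → ∀ (c : E.fixingSubgroup × E.fixingSubgroup → Qbˣ) (j : ℤ),
      HasInv q E c (j * m') (m * m') → HasInv q E c j m

/-- **[INV-NORM]** (L4) the inflation of the standard cocycle `stdCocycle σ a` of a cyclic
extension `F / E` with generator `σ` is a level coboundary iff `a` is a norm from `F`. -/
def CyclicNormStatement : Prop :=
  ∀ (E : IntermediateField ℚ Qb) (F : IntermediateField E Qb) [FiniteDimensional E F]
    [IsGalois E F] (σ : F ≃ₐ[E] F), (∀ τ : F ≃ₐ[E] F, τ ∈ Subgroup.zpowers σ) →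
    ∀ a : Eˣ,
      (IsLvlMulCoboundary₂E E
          (inflE E F (stdCocycle σ (Units.map ((algebraMap E F : E →+* F) : E →* F) a))) ↔
        ∃ y : F, Algebra.norm E y = (a : E))

/-- **[INV-RES]** (L2) restriction multiplies the invariant by the degree. -/
def InvResStatement : Prop :=
  ∀ (q : ℕ) [Fact q.Prime] (E E' : IntermediateField ℚ Qb) (h : E ≤ E'),
    IsLocalFinite q E → IsLocalFinite q E' →
    ∀ (m : ℕ) (c : E.fixingSubgroup × E.fixingSubgroup → Qbˣ) (j : ℤ), HasInv q E c j m →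
      HasInv q E' (resCochain₂ h c) ((IntermediateField.relfinrank E E' : ℤ) * j) m

/-- **[INV-COR]** (L5', formal) any "corestriction" - a multiplicative map on 2-cochains
preserving level cocycles and level coboundaries with `cor (res c) ~ c ^ [E' : E]` - preserves
the invariant of `p`-primary classes. -/
def InvCorStatement : Prop :=
  ∀ (p : ℕ) [Fact p.Prime] (q : ℕ) [Fact q.Prime] (E E' : IntermediateField ℚ Qb) (h : E ≤ E'),
    IsLocalFinite q E → IsLocalFinite q E' →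
    ∀ cor : (E'.fixingSubgroup × E'.fixingSubgroup → Qbˣ) →
        (E.fixingSubgroup × E.fixingSubgroup → Qbˣ),
      (∀ c c', cor (fun x => c x * c' x) = fun x => cor c x * cor c' x) →
      (∀ c, IsLvlFun₂ (lvlE E') c → IsMulCocycle₂E E' c →
        IsLvlFun₂ (lvlE E) (cor c) ∧ IsMulCocycle₂E E (cor c)) →
      (∀ c, IsLvlMulCoboundary₂E E' c → IsLvlMulCoboundary₂E E (cor c)) →
      (∀ c, IsLvlFun₂ (lvlE E) c → IsMulCocycle₂E E c →
        IsLvlMulCoboundary₂E E
          (fun x => cor (resCochain₂ h c) x / c x ^ IntermediateField.relfinrank E E')) →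
      ∀ (n : ℕ) (c' : E'.fixingSubgroup × E'.fixingSubgroup → Qbˣ) (j : ℤ),
        IsLvlFun₂ (lvlE E') c' → IsMulCocycle₂E E' c' →
        HasInv q E' c' j (p ^ n) → HasInv q E (cor c') j (p ^ n)

/-! ### `μ_p`-coefficients with the twisted action (no `ζ_p` in `E`) -/

/-- The exponent of the action of `g` on `ζ`: `g ζ = ζ ^ (cycE ζ g)`; a function
`G_E → ZMod p` (the mod `p` cyclotomic character when `ζ` is a primitive `p`-th root). -/
def IsCycE {p : ℕ} (E : IntermediateField ℚ Qb) (ζ : Qbˣ) (χ : E.fixingSubgroup → ZMod p) :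
    Prop :=
  ∀ g : E.fixingSubgroup, actU (g : Qb ≃ₐ[ℚ] Qb) ζ = ζ ^ (χ g).val

/-- Twisted 2-cocycles `G_E × G_E → ZMod p` (coefficients `μ_p`, written additively). -/
def IsTwCocycle₂ {p : ℕ} (E : IntermediateField ℚ Qb) (χ : E.fixingSubgroup → ZMod p)
    (c : E.fixingSubgroup × E.fixingSubgroup → ZMod p) : Prop :=
  ∀ g h j : E.fixingSubgroup, c (g * h, j) + c (g, h) = χ g * c (h, j) + c (g, h * j)

/-- `c` is the twisted coboundary of a level 1-cochain `G_E → ZMod p`. -/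
def IsLvlTwCoboundary₂ {p : ℕ} (E : IntermediateField ℚ Qb) (χ : E.fixingSubgroup → ZMod p)
    (c : E.fixingSubgroup × E.fixingSubgroup → ZMod p) : Prop :=
  ∃ x : E.fixingSubgroup → ZMod p, IsLvl₁ (lvlE E) x ∧
    ∀ g h, χ g * x h - x (g * h) + x g = c (g, h)

/-- **[INV-MU]** (L6) descent from `ℚ̄ˣ` to `μ_p` with the twisted action, `E` ARBITRARY (no
`ζ_p` in `E`): a level twisted `ZMod p`-valued 2-cochain `c` such that `ζ ^ c` is the coboundary
of a level `ℚ̄ˣ`-valued 1-cochain is a level twisted coboundary.  (Hilbert 90 + `p`-th roots;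
for `χ = 1` this is `MuDescentStatement`.) -/
def MuDescentTwStatement : Prop :=
  ∀ (p : ℕ) [Fact p.Prime] (E : IntermediateField ℚ Qb) (ζ : Qbˣ),
    IsPrimitiveRoot (ζ : Qb) p → ∀ χ : E.fixingSubgroup → ZMod p, IsCycE E ζ χ →
    ∀ c : E.fixingSubgroup × E.fixingSubgroup → ZMod p,
      IsLvlMulCoboundary₂E E (zetaPow ζ c) → IsLvlTwCoboundary₂ E χ c

/-! ### Step D v2: the local statements `[LC]` in elementary language -/

section generic

variable {G : Type} [Group G] (𝒰 : LevelSys G) {A : Type} [AddCommGroup A]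

/-- `c : G × G × G → A` is right-invariant under a level in all variables. -/
def IsLvl₃ (c : G × G × G → A) : Prop :=
  ∃ N ∈ 𝒰.sets, ∀ g h j, ∀ n ∈ N, ∀ m ∈ N, ∀ l ∈ N, c (g * n, h * m, j * l) = c (g, h, j)

/-- 3-cocycles for the trivial action. -/
def IsTrivCocycle₃ (c : G × G × G → A) : Prop :=
  ∀ g h j k, c (h, j, k) - c (g * h, j, k) + c (g, h * j, k) - c (g, h, j * k) + c (g, h, j) = 0

/-- `c` is the coboundary of a level 2-cochain (trivial action). -/
def IsLvlCoboundary₃ (c : G × G × G → A) : Prop :=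
  ∃ b : G × G → A, IsLvl₂ 𝒰 b ∧
    ∀ g h j, b (h, j) - b (g * h, j) + b (g, h * j) - b (g, h) = c (g, h, j)

variable (p : ℕ)

/-- `dim H²(𝒰, ZMod p) ≤ 1`. -/
def H2LeOne : Prop :=
  ∃ c₀ : G × G → ZMod p, IsLvl₂ 𝒰 c₀ ∧ IsTrivCocycle₂ c₀ ∧
    ∀ c : G × G → ZMod p, IsLvl₂ 𝒰 c → IsTrivCocycle₂ c →
      ∃ j : ZMod p, IsLvlCoboundary₂ 𝒰 (fun x => c x - j * c₀ x)

/-- `H³(𝒰, ZMod p) = 0`. -/
def H3Zero : Prop :=
  ∀ c : G × G × G → ZMod p, IsLvl₃ 𝒰 c → IsTrivCocycle₃ c → IsLvlCoboundary₃ 𝒰 c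

theorem H2OneDim.leOne {𝒰 : LevelSys G} {p : ℕ} (h : H2OneDim 𝒰 p) : H2LeOne 𝒰 p := by
  obtain ⟨c₀, h1, h2, -, h4⟩ := h
  exact ⟨c₀, h1, h2, h4⟩

/-- The local statements of Step D v2 for the trivial module. -/
structure TrivCore2 : Prop where
  fin : H1Finite 𝒰 p
  h2 : H2OneDim 𝒰 p
  h3 : H3Zero 𝒰 p

end generic

/-- **[LC-H3]** `H³(G_E, ZMod p) = 0` for `E` local containing `ζ_p`. -/
def FieldH3Statement : Prop :=
  ∀ (p : ℕ) [Fact p.Prime], p ≠ 2 → ∀ (q : ℕ) [Fact q.Prime]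
    (E : IntermediateField ℚ Qb), IsLocalFinite q E →
    (∃ ζ ∈ E, IsPrimitiveRoot ζ p) → H3Zero (lvlE E) p

/-- **[LC-FIELD]** the local statements of Step D v2 for `Gal(ℚ̄/E)`. -/
def FieldCore2Statement : Prop :=
  ∀ (p : ℕ) [Fact p.Prime], p ≠ 2 → ∀ (q : ℕ) [Fact q.Prime]
    (E : IntermediateField ℚ Qb), IsLocalFinite q E →
    (∃ ζ ∈ E, IsPrimitiveRoot ζ p) → TrivCore2 (lvlE E) p

/-- **[LC-CORE]** the local statements of Step D v2 for an open subgroup `V` of the local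
Galois group at `q` on which the mod `p` cyclotomic character is trivial. -/
def LocalCore2Statement : Prop :=
  ∀ (p : ℕ) [Fact p.Prime], p ≠ 2 → ∀ (q : Nat.Primes) (V : Subgroup (primeLocalGaloisGroup q)),
    (∃ N ∈ (pullbackLevelSys (primeLocalToGlobal q)).sets, N ≤ V) →
    (∀ s ∈ V, cycloChar p (primeLocalToGlobal q s) = 1) →
    TrivCore2 (pullbackLevelSys ((primeLocalToGlobal q).comp V.subtype)) p

/-- **[LC-B5]** the bridge from fields to open subgroups of the local Galois group, v2. -/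
def FieldToLocal2Statement : Prop := FieldCore2Statement → LocalCore2Statement

/-! ### The block LOC-H3: `H³(G_E, μ_p) = 0` -/

/-- Multiplicative 3-cocycles of `G_E` with values in `ℚ̄ˣ`. -/
def IsMulCocycle₃E (E : IntermediateField ℚ Qb)
    (c : E.fixingSubgroup × E.fixingSubgroup × E.fixingSubgroup → Qbˣ) : Prop :=
  ∀ g h j k : E.fixingSubgroup,
    actU (g : Qb ≃ₐ[ℚ] Qb) (c (h, j, k)) * c (g, h * j, k) * c (g, h, j) =
      c (g * h, j, k) * c (g, h, j * k)

/-- Right invariance of a function on `G × G × G` under a level (any target type). -/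
def IsLvlFun₃ {G : Type} [Group G] (𝒰 : LevelSys G) {M : Type} (c : G × G × G → M) : Prop :=
  ∃ N ∈ 𝒰.sets, ∀ g h j, ∀ n ∈ N, ∀ m ∈ N, ∀ l ∈ N, c (g * n, h * m, j * l) = c (g, h, j)

/-- The coboundary of a multiplicative 2-cochain of `G_E` with values in `ℚ̄ˣ`. -/
noncomputable def mulD₂E (E : IntermediateField ℚ Qb)
    (b : E.fixingSubgroup × E.fixingSubgroup → Qbˣ) :
    E.fixingSubgroup × E.fixingSubgroup × E.fixingSubgroup → Qbˣ :=
  fun x => actU (x.1 : Qb ≃ₐ[ℚ] Qb) (b (x.2.1, x.2.2)) * b (x.1, x.2.1 * x.2.2) /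
    (b (x.1 * x.2.1, x.2.2) * b (x.1, x.2.1))

/-- `c` is the coboundary of a LEVEL 2-cochain of `G_E` with values in `ℚ̄ˣ`. -/
def IsLvlMulCoboundary₃E (E : IntermediateField ℚ Qb)
    (c : E.fixingSubgroup × E.fixingSubgroup × E.fixingSubgroup → Qbˣ) : Prop :=
  ∃ b : E.fixingSubgroup × E.fixingSubgroup → Qbˣ, IsLvlFun₂ (lvlE E) b ∧
    ∀ x, mulD₂E E b x = c x

/-- **[H3-GM]** `H³_lvl(G_E, ℚ̄ˣ)[p] = 0` for a local field `E`: every level 3-cocycle of `G_E`
with values in `ℚ̄ˣ` whose `p`-th power is trivial (as a cochain) is the coboundary of a level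
2-cochain.  (Tate's theorem for `p`-group extensions + Sylow + finite level.) -/
def H3GmStatement : Prop :=
  ∀ (p : ℕ) [Fact p.Prime] (q : ℕ) [Fact q.Prime] (E : IntermediateField ℚ Qb),
    IsLocalFinite q E →
    ∀ c : E.fixingSubgroup × E.fixingSubgroup × E.fixingSubgroup → Qbˣ,
      IsLvlFun₃ (lvlE E) c → IsMulCocycle₃E E c → (∀ x, c x ^ p = 1) →
      IsLvlMulCoboundary₃E E c

/-- **[H3-TATE]** Tate's theorem for `p`-group extensions of local fields (abstract currency of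
helper24's `Brauer.Interfaces`): `H³(Gal(F/K), Fˣ) = 0`.  (From `tate_H3_subsingleton_of_cyclic`
and the cyclicity/order of `H²` on all layers.) -/
def TateLocalAbsStatement : Prop :=
  ∀ (p q : ℕ) [Fact p.Prime] [Fact q.Prime] (K F : Type) [Field K] [Field F] [Algebra K F]
    [FiniteDimensional K F] [IsGalois K F] (j : F →+* Qb),
    Fermat.Agent.H24.Brauer.IsLocalPair q K F j → IsPGroup p (F ≃ₐ[K] F) →
    Subsingleton (groupCohomology (Rep.ofAlgebraAutOnUnits K F) 3)

/-- **[H3-SYL]** the `p`-torsion of `H³(Gal(F/E), Fˣ)` vanishes for EVERY finite Galois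
extension `F / E` of a local field (Sylow + transfer in degree 3). -/
def H3TorsionStatement : Prop :=
  ∀ (p q : ℕ) [Fact p.Prime] [Fact q.Prime] (E : IntermediateField ℚ Qb), IsLocalFinite q E →
    ∀ (F : IntermediateField E Qb) [FiniteDimensional E F] [IsGalois E F]
      (x : groupCohomology (Rep.ofAlgebraAutOnUnits E F) 3), p • x = 0 → x = 0

/-- **[H3-FIN]** from finite level to level cochains in degree 3. -/
def H3FinToLvlStatement : Prop := H3TorsionStatement → H3GmStatement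

/-- **[BR-DIV]** the Brauer group of a local field is `p`-divisible: every level 2-cocycle of
`G_E` with values in `ℚ̄ˣ` is cohomologous (through level cochains) to the `p`-th power of a
level 2-cocycle. -/
def BrauerDivStatement : Prop :=
  ∀ (p : ℕ) [Fact p.Prime] (q : ℕ) [Fact q.Prime] (E : IntermediateField ℚ Qb),
    IsLocalFinite q E →
    ∀ c : E.fixingSubgroup × E.fixingSubgroup → Qbˣ, IsLvlFun₂ (lvlE E) c →
      IsMulCocycle₂E E c →
      ∃ c' : E.fixingSubgroup × E.fixingSubgroup → Qbˣ, IsLvlFun₂ (lvlE E) c' ∧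
        IsMulCocycle₂E E c' ∧ IsLvlMulCoboundary₂E E (fun x => c x / c' x ^ p)

/-- **[H3-KUM]** the Kummer boundary argument (`E` ARBITRARY containing `ζ_p`): if
`H³_lvl(G_E, ℚ̄ˣ)[p] = 0` and `Br(E)` is `p`-divisible, then `H³(G_E, ZMod p) = 0`. -/
def H3KummerStatement : Prop :=
  ∀ (p : ℕ) [Fact p.Prime] (E : IntermediateField ℚ Qb) (ζ : Qbˣ),
    IsPrimitiveRoot (ζ : Qb) p → (ζ : Qb) ∈ E →
    (∀ c : E.fixingSubgroup × E.fixingSubgroup × E.fixingSubgroup → Qbˣ,
      IsLvlFun₃ (lvlE E) c → IsMulCocycle₃E E c → (∀ x, c x ^ p = 1) →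
      IsLvlMulCoboundary₃E E c) →
    (∀ c : E.fixingSubgroup × E.fixingSubgroup → Qbˣ, IsLvlFun₂ (lvlE E) c →
      IsMulCocycle₂E E c →
      ∃ c' : E.fixingSubgroup × E.fixingSubgroup → Qbˣ, IsLvlFun₂ (lvlE E) c' ∧
        IsMulCocycle₂E E c' ∧ IsLvlMulCoboundary₂E E (fun x => c x / c' x ^ p)) →
    H3Zero (lvlE E) p

/-- Assembly of `[LC-H3]`. -/
theorem fieldH3_of (h1 : H3GmStatement) (h2 : BrauerDivStatement) (h3 : H3KummerStatement) :
    FieldH3Statement := by
  intro p _ _ q _ E hE hζ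
  obtain ⟨ζ, hζE, hζ⟩ := hζ
  have hζ0 : ζ ≠ 0 := hζ.ne_zero (Nat.Prime.ne_zero (Fact.out))
  exact h3 p E (Units.mk0 ζ hζ0) hζ hζE (h1 p q E hE) (h2 p q E hE)

end Fermat.Agent.H78.CFT
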