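/-
P-CFT / WP2 (local theory), row LOC-1: the working `Setup` extracted from a `LocalNormDatum`
(generator of the Galois group, integral normal basis, dual-basis bound, uniformizer of `K`).
Mathlib only.
-/
import Fermat.Agent.H78.CFT.LocalDefs

set_option autoImplicit false

namespace Fermat.Agent.H78.CFT

open Polynomial

variable {K L : Type*} [Field K] [Field L] [Algebra K L] [FiniteDimensional K L] [IsGalois K L]
  {Γ₀ : Type*} [LinearOrderedCommGroupWithZero Γ₀] (v : Valuation L Γ₀)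

/-- The data used in the proof of the local norm index theorem. -/
structure Setup where
  inv : ∀ (g : L ≃ₐ[K] L) (x : L), v (g x) = v x
  σ : L ≃ₐ[K] L
  hσ : ∀ g, g ∈ Subgroup.zpowers σ
  b : Module.Basis (L ≃ₐ[K] L) K L
  hb : ∀ g, b g = g (b 1)
  hb1 : v (b 1) ≤ 1
  cC : L
  hC1 : 1 ≤ v cC
  hC : ∀ (y : L) (g : L ≃ₐ[K] L), v (algebraMap K L (b.repr y g)) ≤ v cC * v y
  π : K
  hπ0 : π ≠ 0
  hπ1 : v (algebraMap K L π) < 1
  hπ : ∀ c : K, v (algebraMap K L c) < 1 → v (algebraMap K L c) ≤ v (algebraMap K L π)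
  arch : ∀ x : L, x ≠ 0 → ∃ k : ℕ, v (algebraMap K L π) ^ k ≤ v x
  hensel : ∀ f : K[X], f.Monic → (∀ i, v (algebraMap K L (f.coeff i)) ≤ 1) →
    ∀ a₀ : K, v (algebraMap K L a₀) ≤ 1 → v (algebraMap K L (f.eval a₀)) < 1 →
      v (algebraMap K L (f.derivative.eval a₀)) = 1 →
        ∃ a : K, f.eval a = 0 ∧ v (algebraMap K L (a - a₀)) < 1
  resfin : ∃ R : Finset L, ∀ x : L, v x ≤ 1 → ∃ r ∈ R, v (x - r) < 1
  ϖ : L
  hϖ0 : ϖ ≠ 0
  hϖ1 : v ϖ < 1
  hϖ : ∀ x : L, x ≠ 0 → ∃ n : ℤ, v x = v ϖ ^ n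

variable {v}

/-- valuation of a finite sum -/
lemma v_sum_le {ι : Type*} (s : Finset ι) (f : ι → L) (γ : Γ₀) (h : ∀ i ∈ s, v (f i) ≤ γ) :
    v (∑ i ∈ s, f i) ≤ γ := by
  classical
  induction s using Finset.induction_on with
  | empty => simp
  | insert a s ha ih =>
    rw [Finset.sum_insert ha]
    exact (v.map_add_le_max' _ _).trans (max_le (h a (Finset.mem_insert_self a s))
      (ih fun i hi => h i (Finset.mem_insert_of_mem hi)))

/-- valuation of the trace -/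
lemma v_trace_le (hinv : ∀ (g : L ≃ₐ[K] L) (x : L), v (g x) = v x) (z : L) :
    v (algebraMap K L (Algebra.trace K L z)) ≤ v z := by
  rw [trace_eq_sum_automorphisms]
  exact v_sum_le _ _ _ fun g _ => (hinv g z).le

/-- In a discrete valuation, powers of an element of value `< 1` become arbitrarily small. -/
lemma exists_pow_le_of_unif {ϖ : L} (hϖ0 : ϖ ≠ 0) (hϖ1 : v ϖ < 1)
    (hϖ : ∀ x : L, x ≠ 0 → ∃ n : ℤ, v x = v ϖ ^ n) {y : L} (hy0 : y ≠ 0) (hy1 : v y < 1)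
    {x : L} (hx : x ≠ 0) : ∃ k : ℕ, v y ^ k ≤ v x := by
  have hvϖ0 : v ϖ ≠ 0 := (Valuation.ne_zero_iff v).2 hϖ0
  obtain ⟨m, hm⟩ := hϖ x hx
  obtain ⟨e, he⟩ := hϖ y hy0
  -- `e ≥ 1`
  have he1 : 1 ≤ e := by
    by_contra hcon
    rw [not_le] at hcon
    have : e ≤ 0 := by omega
    have h1 : (1 : Γ₀) ≤ v ϖ ^ e := by
      obtain ⟨j, rfl⟩ : ∃ j : ℕ, e = -(j : ℤ) := ⟨(-e).toNat, by omega⟩
      rw [zpow_neg, zpow_natCast]
      exact (one_le_inv₀ (pow_pos (zero_lt_iff.2 hvϖ0) j)).2 (pow_le_one₀ zero_le hϖ1.le)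
    rw [← he] at h1
    exact absurd hy1 (not_lt.2 h1)
  refine ⟨m.toNat, ?_⟩
  rw [hm, he, ← zpow_natCast, ← zpow_mul]
  -- `v ϖ ^ (e * m.toNat) ≤ v ϖ ^ m` since `e * m.toNat ≥ m`
  have hle : m ≤ e * (m.toNat : ℤ) := by
    rcases le_or_gt m 0 with h | h
    · have : (m.toNat : ℤ) = 0 := by simp [Int.toNat_of_nonpos h]
      rw [this]; simpa using h
    · have : (m.toNat : ℤ) = m := Int.toNat_of_nonneg h.le
      rw [this]; nlinarith
  obtain ⟨j, hj⟩ : ∃ j : ℕ, e * (m.toNat : ℤ) = m + j := ⟨(e * (m.toNat : ℤ) - m).toNat, by omega⟩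
  rw [hj, zpow_add₀ hvϖ0, zpow_natCast]
  exact mul_le_of_le_one_right zero_le (pow_le_one₀ zero_le hϖ1.le)

theorem nonempty_setup [IsCyclic (L ≃ₐ[K] L)] (h : LocalNormDatum K L v) :
    Nonempty (Setup (K := K) v) := by
  classical
  obtain ⟨σ, hσ⟩ := IsCyclic.exists_generator (α := L ≃ₐ[K] L)
  obtain ⟨ϖ, hϖ0, hϖ1, hϖ⟩ := h.unifL
  obtain ⟨π, hπ0, hπ1, hπ⟩ := h.unifK
  have hπL0 : algebraMap K L π ≠ 0 := by simpa using hπ0
  have hvπ0 : v (algebraMap K L π) ≠ 0 := (Valuation.ne_zero_iff v).2 hπL0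
  have arch : ∀ x : L, x ≠ 0 → ∃ k : ℕ, v (algebraMap K L π) ^ k ≤ v x := fun x hx =>
    exists_pow_le_of_unif hϖ0 hϖ1 hϖ hπL0 hπ1 hx
  -- uniformizer property
  have hπunif : ∀ c : K, v (algebraMap K L c) < 1 →
      v (algebraMap K L c) ≤ v (algebraMap K L π) := by
    intro c hc
    by_cases hc0 : c = 0
    · simp [hc0]
    obtain ⟨n, hn⟩ := hπ c hc0
    rw [hn]
    have hn1 : 1 ≤ n := by
      by_contra hcon
      rw [not_le] at hcon
      have h1 : (1 : Γ₀) ≤ v (algebraMap K L π) ^ n := by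
        obtain ⟨j, rfl⟩ : ∃ j : ℕ, n = -(j : ℤ) := ⟨(-n).toNat, by omega⟩
        rw [zpow_neg, zpow_natCast]
        exact (one_le_inv₀ (pow_pos (zero_lt_iff.2 hvπ0) j)).2 (pow_le_one₀ zero_le hπ1.le)
      rw [← hn] at h1
      exact absurd hc (not_lt.2 h1)
    obtain ⟨j, rfl⟩ : ∃ j : ℕ, n = 1 + j := ⟨(n - 1).toNat, by omega⟩
    rw [zpow_add₀ hvπ0, zpow_one, zpow_natCast]
    exact mul_le_of_le_one_right zero_le (pow_le_one₀ zero_le hπ1.le)
  -- the normal basis, scaled to be integral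
  set nb := IsGalois.normalBasis K L with hnb
  have hx'0 : nb 1 ≠ 0 := nb.ne_zero 1
  obtain ⟨k, hk⟩ := arch (nb 1)⁻¹ (inv_ne_zero hx'0)
  have hπk0 : π ^ k ≠ 0 := pow_ne_zero k hπ0
  let b : Module.Basis (L ≃ₐ[K] L) K L := nb.unitsSMul fun _ => Units.mk0 (π ^ k) hπk0
  have hbg : ∀ g, b g = π ^ k • nb g := fun g => by
    simp only [b, Module.Basis.unitsSMul_apply]; rfl
  have hb : ∀ g, b g = g (b 1) := fun g => by
    rw [hbg, hbg, map_smul, hnb, IsGalois.normalBasis_apply g]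
  have hb1 : v (b 1) ≤ 1 := by
    rw [hbg, Algebra.smul_def, map_mul, map_pow, map_pow]
    rw [map_inv₀] at hk
    have h0 : v (nb 1) ≠ 0 := (Valuation.ne_zero_iff v).2 hx'0
    calc v (algebraMap K L π) ^ k * v (nb 1) ≤ (v (nb 1))⁻¹ * v (nb 1) :=
          mul_le_mul' hk le_rfl
      _ = 1 := inv_mul_cancel₀ h0
  -- dual basis bound
  have hnd := traceForm_nondegenerate K L
  set bd := (Algebra.traceForm K L).dualBasis hnd b with hbd
  have hdd : (Algebra.traceForm K L).dualBasis hnd bd = b :=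
    LinearMap.BilinForm.dualBasis_dualBasis hnd (Algebra.traceForm_isSymm K) b
  obtain ⟨cC, hC1, hCg⟩ : ∃ cC : L, 1 ≤ v cC ∧ ∀ g, v (bd g) ≤ v cC := by
    obtain ⟨g₀, -, hg₀⟩ := Finset.exists_mem_eq_sup' (Finset.univ_nonempty (α := L ≃ₐ[K] L))
      fun g => v (bd g)
    have hle : ∀ g, v (bd g) ≤ v (bd g₀) := fun g => by
      rw [← hg₀]; exact Finset.le_sup' (fun g => v (bd g)) (Finset.mem_univ g)
    rcases le_total 1 (v (bd g₀)) with h1 | h1
    · exact ⟨bd g₀, h1, hle⟩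
    · exact ⟨1, by simp, fun g => by rw [map_one]; exact (hle g).trans h1⟩
  have hC : ∀ (y : L) (g : L ≃ₐ[K] L), v (algebraMap K L (b.repr y g)) ≤ v cC * v y := by
    intro y g
    have : b.repr y g = Algebra.trace K L (y * bd g) := by
      conv_lhs => rw [← hdd]
      rw [LinearMap.BilinForm.dualBasis_repr_apply, Algebra.traceForm_apply]
    rw [this]
    refine (v_trace_le h.galois_inv _).trans ?_
    rw [map_mul, mul_comm]
    exact mul_le_mul' (hCg g) le_rfl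
  exact ⟨Setup.mk h.galois_inv σ hσ b hb hb1 cC hC1 hC π hπ0 hπ1 hπunif arch
    h.hensel h.res_finite ϖ hϖ0 hϖ1 hϖ⟩

end Fermat.Agent.H78.CFT
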