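/-
P-CFT / WP2 (local theory), row LOC-1: the normal-basis lattices `Λ_γ` and their basic
properties (valuation estimates, Galois stability, invariants).  Mathlib only.
-/
import Fermat.Agent.H78.CFT.LocalSetup

set_option autoImplicit false
set_option linter.unusedSectionVars false

namespace Fermat.Agent.H78.CFT

open Polynomial

variable {K L : Type*} [Field K] [Field L] [Algebra K L] [FiniteDimensional K L] [IsGalois K L]
  {Γ₀ : Type*} [LinearOrderedCommGroupWithZero Γ₀] {v : Valuation L Γ₀}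
  (S : Setup (K := K) v)

namespace Setup

lemma v_b (g : L ≃ₐ[K] L) : v (S.b g) ≤ 1 := by
  rw [S.hb, S.inv]; exact S.hb1

lemma vC_ne_zero : v S.cC ≠ 0 := fun h => by
  have := S.hC1
  rw [h] at this
  exact absurd this (not_le.2 zero_lt_one)

/-- The lattice of level `γ`: elements all of whose normal-basis coordinates have value `≤ γ`. -/
def Lam (γ : Γ₀) : AddSubgroup L where
  carrier := {y | ∀ g, v (algebraMap K L (S.b.repr y g)) ≤ γ}
  zero_mem' := fun g => by simp
  add_mem' := fun {a b} ha hb g => by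
    simp only [map_add, Finsupp.coe_add, Pi.add_apply]
    exact (v.map_add_le_max' _ _).trans (max_le (ha g) (hb g))
  neg_mem' := fun {a} ha g => by
    simp only [map_neg, Finsupp.coe_neg, Pi.neg_apply, Valuation.map_neg]
    exact ha g

lemma mem_Lam {γ : Γ₀} {y : L} :
    y ∈ S.Lam γ ↔ ∀ g, v (algebraMap K L (S.b.repr y g)) ≤ γ := Iff.rfl

lemma Lam_mono {γ δ : Γ₀} (h : γ ≤ δ) : S.Lam γ ≤ S.Lam δ := fun _ hy g => (hy g).trans h

lemma v_le_of_mem_Lam {γ : Γ₀} {y : L} (hy : y ∈ S.Lam γ) : v y ≤ γ := by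
  conv_lhs => rw [← S.b.sum_repr y]
  refine v_sum_le _ _ _ fun g _ => ?_
  rw [Algebra.smul_def, map_mul]
  calc v (algebraMap K L (S.b.repr y g)) * v (S.b g) ≤ γ * 1 := mul_le_mul' (hy g) (S.v_b g)
    _ = γ := mul_one γ

lemma mem_Lam_of_v_le {γ : Γ₀} {y : L} (hy : v S.cC * v y ≤ γ) : y ∈ S.Lam γ :=
  fun g => (S.hC y g).trans hy

lemma mul_mem_Lam {γ δ ρ : Γ₀} {y z : L} (hy : y ∈ S.Lam γ) (hz : z ∈ S.Lam δ)
    (h : v S.cC * (γ * δ) ≤ ρ) : y * z ∈ S.Lam ρ := by
  apply S.mem_Lam_of_v_le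
  rw [map_mul]
  exact (mul_le_mul' le_rfl
    (mul_le_mul' (S.v_le_of_mem_Lam hy) (S.v_le_of_mem_Lam hz))).trans h

/-- scalar multiples -/
lemma smul_mem_Lam {γ δ : Γ₀} {y : L} (c : K) (hy : y ∈ S.Lam γ)
    (h : v (algebraMap K L c) * γ ≤ δ) : algebraMap K L c * y ∈ S.Lam δ := by
  intro g
  rw [← Algebra.smul_def, map_smul, Finsupp.smul_apply, smul_eq_mul, map_mul, map_mul]
  exact (mul_le_mul' le_rfl (hy g)).trans h

/-- basis vectors scaled -/
lemma smul_b_mem_Lam {γ : Γ₀} (c : K) (g : L ≃ₐ[K] L) (h : v (algebraMap K L c) ≤ γ) :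
    algebraMap K L c * S.b g ∈ S.Lam γ := by
  classical
  intro k
  rw [← Algebra.smul_def, map_smul, Finsupp.smul_apply, smul_eq_mul, map_mul,
    Module.Basis.repr_self, Finsupp.single_apply]
  split_ifs
  · simpa using h
  · simp

lemma aut_b (g k : L ≃ₐ[K] L) : g (S.b k) = S.b (g * k) := by
  rw [S.hb k, S.hb (g * k)]; rfl

/-- Coordinates of a Galois conjugate. -/
lemma repr_aut (g h : L ≃ₐ[K] L) (y : L) : S.b.repr (g y) h = S.b.repr y (g⁻¹ * h) := by
  classical
  have e : g y = ∑ k, S.b.repr y k • S.b (g * k) := by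
    conv_lhs => rw [← S.b.sum_repr y]
    rw [map_sum]
    refine Finset.sum_congr rfl fun k _ => ?_
    rw [map_smul, S.aut_b]
  rw [e, map_sum, Finsupp.coe_finsetSum, Finset.sum_apply]
  rw [Finset.sum_eq_single (g⁻¹ * h)]
  · rw [map_smul, Finsupp.smul_apply, Module.Basis.repr_self, mul_inv_cancel_left,
      Finsupp.single_eq_same, smul_eq_mul, mul_one]
  · intro k _ hk
    rw [map_smul, Finsupp.smul_apply, Module.Basis.repr_self, Finsupp.single_eq_of_ne, smul_zero]
    intro hcon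
    apply hk
    rw [hcon, inv_mul_cancel_left]
  · intro h'; exact absurd (Finset.mem_univ _) h'

lemma aut_mem_Lam {γ : Γ₀} {y : L} (g : L ≃ₐ[K] L) (hy : y ∈ S.Lam γ) : g y ∈ S.Lam γ :=
  fun h => by rw [S.repr_aut]; exact hy _

/-- The trace of the normal basis generator, as an element of `L`. -/
noncomputable def t : L := ∑ g : L ≃ₐ[K] L, S.b g

/-- The trace of the normal basis generator. -/
noncomputable def tK : K := Algebra.trace K L (S.b 1)

lemma t_eq : S.t = algebraMap K L S.tK := by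
  rw [t, tK, trace_eq_sum_automorphisms]
  exact Finset.sum_congr rfl fun g _ => S.hb g

lemma t_ne_zero : S.t ≠ 0 := by
  classical
  intro h
  have := Fintype.linearIndependent_iff.1 S.b.linearIndependent (fun _ => (1 : K))
    (by simpa [t] using h) 1
  exact one_ne_zero this

lemma tK_ne_zero : S.tK ≠ 0 := fun h => S.t_ne_zero (by rw [S.t_eq, h, map_zero])

lemma v_t_le : v S.t ≤ 1 := v_sum_le _ _ _ fun g _ => S.v_b g

lemma v_t_ne_zero : v S.t ≠ 0 := (Valuation.ne_zero_iff v).2 S.t_ne_zero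

lemma aut_t (g : L ≃ₐ[K] L) : g S.t = S.t := by
  rw [S.t_eq]; exact g.commutes _

/-- A Galois-invariant element of `Λ_γ` is `c • t` with `v c ≤ γ`. -/
lemma eq_mul_t_of_fixed {γ : Γ₀} {y : L} (hy : y ∈ S.Lam γ)
    (hfix : ∀ g : L ≃ₐ[K] L, g y = y) :
    ∃ c : K, v (algebraMap K L c) ≤ γ ∧ y = algebraMap K L c * S.t := by
  refine ⟨S.b.repr y 1, hy 1, ?_⟩
  have hc : ∀ h, S.b.repr y h = S.b.repr y 1 := fun h => by
    conv_lhs => rw [← hfix h]
    rw [S.repr_aut, inv_mul_cancel]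
  conv_lhs => rw [← S.b.sum_repr y]
  rw [t, Finset.mul_sum]
  exact Finset.sum_congr rfl fun g _ => by rw [hc g, Algebra.smul_def]

/-- the uniformizer of `K` has nonzero value -/
lemma vπ_ne_zero : v (algebraMap K L S.π) ≠ 0 :=
  (Valuation.ne_zero_iff v).2 (by simpa using S.hπ0)

end Setup

end Fermat.Agent.H78.CFT
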