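/-
P-CFT / WP2 (local theory), row LOC-1: valuation estimates for products, the levels
`Good γ` and the multiplicative structure of `1 + Λ_γ`.  Mathlib only.
-/
import Fermat.Agent.H78.CFT.LocalLattice

set_option autoImplicit false
set_option linter.unusedSectionVars false

namespace Fermat.Agent.H78.CFT

section general

variable {L : Type*} [Field L] {Γ₀ : Type*} [LinearOrderedCommGroupWithZero Γ₀]
  (v : Valuation L Γ₀)

lemma v_eq_one_of_sub_one_lt {u : L} (h : v (u - 1) < 1) : v u = 1 := by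
  have := Valuation.map_one_add_of_lt (v := v) h
  rwa [add_sub_cancel] at this

lemma v_sub_le {x y : L} {γ : Γ₀} (hx : v x ≤ γ) (hy : v y ≤ γ) : v (x - y) ≤ γ :=
  (Valuation.map_sub v x y).trans (max_le hx hy)

lemma v_add_le {x y : L} {γ : Γ₀} (hx : v x ≤ γ) (hy : v y ≤ γ) : v (x + y) ≤ γ :=
  (Valuation.map_add v x y).trans (max_le hx hy)

/-- `∏ (1 + z i) ≡ 1 + ∑ z i` modulo second order terms. -/
lemma v_prod_one_add {ι : Type*} (s : Finset ι) (z : ι → L) {γ : Γ₀} (hγ : γ ≤ 1)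
    (h : ∀ i ∈ s, v (z i) ≤ γ) :
    v (∏ i ∈ s, (1 + z i) - 1 - ∑ i ∈ s, z i) ≤ γ * γ := by
  classical
  induction s using Finset.induction_on with
  | empty => simp
  | insert a s ha ih =>
    have ih' := ih fun i hi => h i (Finset.mem_insert_of_mem hi)
    have hza := h a (Finset.mem_insert_self a s)
    have hsum : v (∑ i ∈ s, z i) ≤ γ :=
      v_sum_le _ _ _ fun i hi => h i (Finset.mem_insert_of_mem hi)
    have hγγ : γ * γ ≤ γ := by
      calc γ * γ ≤ γ * 1 := mul_le_mul' le_rfl hγ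
        _ = γ := mul_one γ
    rw [Finset.prod_insert ha, Finset.sum_insert ha]
    have e : (1 + z a) * ∏ i ∈ s, (1 + z i) - 1 - (z a + ∑ i ∈ s, z i)
        = (∏ i ∈ s, (1 + z i) - 1 - ∑ i ∈ s, z i)
          + z a * ((∏ i ∈ s, (1 + z i) - 1 - ∑ i ∈ s, z i) + ∑ i ∈ s, z i) := by ring
    rw [e]
    refine v_add_le v ih' ?_
    rw [map_mul]
    exact mul_le_mul' hza (v_add_le v (ih'.trans hγγ) hsum)

/-- A product of elements `≡ 1` is `≡ 1`. -/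
lemma v_prod_sub_one {ι : Type*} (s : Finset ι) (x : ι → L) {δ : Γ₀} (hδ : δ ≤ 1)
    (h : ∀ i ∈ s, v (x i - 1) ≤ δ) : v (∏ i ∈ s, x i - 1) ≤ δ := by
  classical
  induction s using Finset.induction_on with
  | empty => simp
  | insert a s ha ih =>
    have ih' := ih fun i hi => h i (Finset.mem_insert_of_mem hi)
    have hxa := h a (Finset.mem_insert_self a s)
    rw [Finset.prod_insert ha]
    have e : x a * ∏ i ∈ s, x i - 1 = (x a - 1) * (∏ i ∈ s, x i - 1) + (x a - 1)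
        + (∏ i ∈ s, x i - 1) := by ring
    rw [e]
    refine v_add_le v (v_add_le v ?_ hxa) ih'
    rw [map_mul]
    calc v (x a - 1) * v (∏ i ∈ s, x i - 1) ≤ δ * 1 := mul_le_mul' hxa (ih'.trans hδ)
      _ = δ := mul_one δ

end general

variable {K L : Type*} [Field K] [Field L] [Algebra K L] [FiniteDimensional K L] [IsGalois K L]
  {Γ₀ : Type*} [LinearOrderedCommGroupWithZero Γ₀] {v : Valuation L Γ₀}
  (S : Setup (K := K) v)

namespace Setup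

/-- the value of the uniformizer of `K` -/
noncomputable def ε : Γ₀ := v (algebraMap K L S.π)

/-- the value of the trace element -/
noncomputable def τ : Γ₀ := v S.t

lemma ε_lt_one : S.ε < 1 := S.hπ1
lemma ε_ne_zero : S.ε ≠ 0 := S.vπ_ne_zero
lemma τ_le_one : S.τ ≤ 1 := S.v_t_le
lemma τ_ne_zero : S.τ ≠ 0 := S.v_t_ne_zero

/-- The levels at which everything works: `C γ ≤ ε τ`. -/
def Good (γ : Γ₀) : Prop := v S.cC * γ ≤ S.ε * S.τ

variable {S}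

lemma Good.C_le_eps {γ : Γ₀} (h : S.Good γ) : v S.cC * γ ≤ S.ε :=
  h.trans (by
    calc S.ε * S.τ ≤ S.ε * 1 := mul_le_mul' le_rfl S.τ_le_one
      _ = S.ε := mul_one _)

lemma Good.C_le_one {γ : Γ₀} (h : S.Good γ) : v S.cC * γ ≤ 1 :=
  h.C_le_eps.trans S.ε_lt_one.le

lemma le_C_mul (S : Setup (K := K) v) (γ : Γ₀) : γ ≤ v S.cC * γ := by
  calc γ = 1 * γ := (one_mul γ).symm
    _ ≤ v S.cC * γ := mul_le_mul' S.hC1 le_rfl

lemma Good.le_eps_tau {γ : Γ₀} (h : S.Good γ) : γ ≤ S.ε * S.τ := (S.le_C_mul γ).trans h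

lemma Good.le_eps {γ : Γ₀} (h : S.Good γ) : γ ≤ S.ε := (S.le_C_mul γ).trans h.C_le_eps

lemma Good.lt_one {γ : Γ₀} (h : S.Good γ) : γ < 1 := lt_of_le_of_lt h.le_eps S.ε_lt_one

lemma Good.le_one {γ : Γ₀} (h : S.Good γ) : γ ≤ 1 := h.lt_one.le

lemma Good.lt_tau {γ : Γ₀} (h : S.Good γ) : γ < S.τ := by
  refine lt_of_le_of_lt h.le_eps_tau ?_
  calc S.ε * S.τ < 1 * S.τ :=
        mul_lt_mul_of_pos_right S.ε_lt_one (zero_lt_iff.2 S.τ_ne_zero)
    _ = S.τ := one_mul _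

lemma Good.mono {γ δ : Γ₀} (h : S.Good γ) (hδ : δ ≤ γ) : S.Good δ :=
  (mul_le_mul' le_rfl hδ).trans h

lemma Good.mul {γ δ : Γ₀} (h : S.Good γ) (hδ : δ ≤ 1) : S.Good (γ * δ) :=
  h.mono (by
    calc γ * δ ≤ γ * 1 := mul_le_mul' le_rfl hδ
      _ = γ := mul_one γ)

/-- `z ∈ Λ_ρ`, `x ≡ 1 mod Λ_γ` (good `γ`) implies `z x ∈ Λ_ρ`. -/
lemma mul_mem_of_one_add {γ ρ : Γ₀} (hγ : S.Good γ) {z x : L} (hz : z ∈ S.Lam ρ)
    (hx : x - 1 ∈ S.Lam γ) : z * x ∈ S.Lam ρ := by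
  have e : z * x = z + z * (x - 1) := by ring
  rw [e]
  refine (S.Lam ρ).add_mem hz (S.mul_mem_Lam hz hx ?_)
  calc v S.cC * (ρ * γ) = ρ * (v S.cC * γ) := mul_left_comm _ _ _
    _ ≤ ρ * 1 := mul_le_mul' le_rfl hγ.C_le_one
    _ = ρ := mul_one ρ

lemma v_eq_one_of_mem {γ : Γ₀} (hγ : S.Good γ) {u : L} (hu : u - 1 ∈ S.Lam γ) : v u = 1 :=
  v_eq_one_of_sub_one_lt v (lt_of_le_of_lt (S.v_le_of_mem_Lam hu) hγ.lt_one)

lemma ne_zero_of_mem {γ : Γ₀} (hγ : S.Good γ) {u : L} (hu : u - 1 ∈ S.Lam γ) : u ≠ 0 := by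
  intro h
  have := v_eq_one_of_mem hγ hu
  rw [h, map_zero] at this
  exact zero_ne_one this

lemma one_mem (S : Setup (K := K) v) (γ : Γ₀) : (1 : L) - 1 ∈ S.Lam γ := by
  rw [sub_self]; exact (S.Lam γ).zero_mem

lemma mul_mem {γ : Γ₀} (hγ : S.Good γ) {u w : L} (hu : u - 1 ∈ S.Lam γ)
    (hw : w - 1 ∈ S.Lam γ) : u * w - 1 ∈ S.Lam γ := by
  have e : u * w - 1 = (u - 1) * w + (w - 1) := by ring
  rw [e]
  exact (S.Lam γ).add_mem (mul_mem_of_one_add hγ hu hw) hw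

lemma inv_mem {γ : Γ₀} (hγ : S.Good γ) {u : L} (hu : u - 1 ∈ S.Lam γ) :
    u⁻¹ - 1 ∈ S.Lam γ := by
  have hu0 : u ≠ 0 := ne_zero_of_mem hγ hu
  have hvu : v u = 1 := v_eq_one_of_mem hγ hu
  have e : u⁻¹ - 1 = -(u - 1) + (u - 1) * (u - 1) * u⁻¹ := by
    field_simp
    ring
  rw [e]
  refine (S.Lam γ).add_mem ((S.Lam γ).neg_mem hu) (S.mem_Lam_of_v_le ?_)
  rw [map_mul, map_mul, map_inv₀, hvu, inv_one, mul_one]
  have hvy := S.v_le_of_mem_Lam hu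
  calc v S.cC * (v (u - 1) * v (u - 1)) ≤ v S.cC * (γ * γ) :=
        mul_le_mul' le_rfl (mul_le_mul' hvy hvy)
    _ = v S.cC * γ * γ := (mul_assoc _ _ _).symm
    _ ≤ 1 * γ := mul_le_mul' hγ.C_le_one le_rfl
    _ = γ := one_mul γ

lemma aut_mem {γ : Γ₀} (g : L ≃ₐ[K] L) {u : L} (hu : u - 1 ∈ S.Lam γ) :
    g u - 1 ∈ S.Lam γ := by
  have : g u - 1 = g (u - 1) := by rw [map_sub, map_one]
  rw [this]
  exact S.aut_mem_Lam g hu

end Setup

end Fermat.Agent.H78.CFT
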