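/-
P-CFT / WP2 (local theory), row LOC-1: valuation estimates for polynomials
(evaluation, derivative, expansion of `∏ (X + C z_i)`).  Mathlib only.
-/
import Fermat.Agent.H78.CFT.LocalEst

set_option autoImplicit false
set_option linter.unusedSectionVars false

namespace Fermat.Agent.H78.CFT

open Polynomial

variable {F : Type*} [Field F] {Γ₀ : Type*} [LinearOrderedCommGroupWithZero Γ₀]
  (v : Valuation F Γ₀)

lemma v_natCast_le_one (n : ℕ) : v (n : F) ≤ 1 := by
  induction n with
  | zero => simp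
  | succ n ih =>
    rw [Nat.cast_succ]
    exact v_add_le v ih (by rw [map_one])

/-- evaluation of a polynomial with small coefficients at an integral point -/
lemma v_eval_le (f : F[X]) {ρ : Γ₀} (hf : ∀ i, v (f.coeff i) ≤ ρ) {a : F} (ha : v a ≤ 1) :
    v (f.eval a) ≤ ρ := by
  rw [Polynomial.eval_eq_sum_range]
  refine v_sum_le _ _ _ fun i _ => ?_
  rw [map_mul, map_pow]
  calc v (f.coeff i) * v a ^ i ≤ ρ * 1 := mul_le_mul' (hf i) (pow_le_one₀ zero_le ha)
    _ = ρ := mul_one ρ

/-- the derivative of a polynomial with small coefficients has small coefficients -/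
lemma v_derivative_coeff_le (f : F[X]) {ρ : Γ₀} (hf : ∀ i, v (f.coeff i) ≤ ρ) (i : ℕ) :
    v (f.derivative.coeff i) ≤ ρ := by
  rw [Polynomial.coeff_derivative, map_mul]
  have h1 : v ((i : F) + 1) ≤ 1 := by
    have := v_natCast_le_one v (i + 1)
    rwa [Nat.cast_succ] at this
  calc v (f.coeff (i + 1)) * v ((i : F) + 1) ≤ ρ * 1 := mul_le_mul' (hf _) h1
    _ = ρ := mul_one ρ

/-- coefficients of a product of polynomials with bounded coefficients -/
lemma v_coeff_mul_le (f g : F[X]) {ρ δ : Γ₀} (hf : ∀ i, v (f.coeff i) ≤ ρ)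
    (hg : ∀ i, v (g.coeff i) ≤ δ) (i : ℕ) : v ((f * g).coeff i) ≤ ρ * δ := by
  rw [Polynomial.coeff_mul]
  refine v_sum_le _ _ _ fun x _ => ?_
  rw [map_mul]
  exact mul_le_mul' (hf _) (hg _)

lemma v_coeff_X_pow_le (k i : ℕ) : v ((X ^ k : F[X]).coeff i) ≤ 1 := by
  rw [Polynomial.coeff_X_pow]
  split_ifs <;> simp

lemma v_coeff_C_le {a : F} {ρ : Γ₀} (ha : v a ≤ ρ) (i : ℕ) : v ((C a : F[X]).coeff i) ≤ ρ := by
  rw [Polynomial.coeff_C]
  split_ifs
  · exact ha
  · simp

/-- **Expansion of `∏ (X + C z_i)`** up to second order terms. -/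
lemma v_coeff_prod_X_add_C {ι : Type*} (s : Finset ι) (z : ι → F) {γ : Γ₀} (hγ : γ ≤ 1)
    (hz : ∀ i ∈ s, v (z i) ≤ γ) (j : ℕ) :
    v ((∏ i ∈ s, (X + C (z i)) - X ^ s.card - C (∑ i ∈ s, z i) * X ^ (s.card - 1)).coeff j)
      ≤ γ * γ := by
  classical
  induction s using Finset.induction_on generalizing j with
  | empty => simp
  | insert a s ha ih =>
    have ih' := ih fun i hi => hz i (Finset.mem_insert_of_mem hi)
    have hza := hz a (Finset.mem_insert_self a s)
    have hsum : v (∑ i ∈ s, z i) ≤ γ :=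
      v_sum_le _ _ _ fun i hi => hz i (Finset.mem_insert_of_mem hi)
    rw [Finset.prod_insert ha, Finset.sum_insert ha, Finset.card_insert_of_notMem ha,
      Nat.add_sub_cancel]
    set R : F[X] := ∏ i ∈ s, (X + C (z i)) - X ^ s.card - C (∑ i ∈ s, z i) * X ^ (s.card - 1)
      with hR
    have hP : ∏ i ∈ s, (X + C (z i)) = X ^ s.card + C (∑ i ∈ s, z i) * X ^ (s.card - 1) + R := by
      rw [hR]; ring
    rw [hP]
    by_cases hs : s.card = 0
    · -- `s = ∅`
      have hs' : s = ∅ := Finset.card_eq_zero.1 hs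
      subst hs'
      have : (X + C (z a)) * (X ^ (∅ : Finset ι).card +
          C (∑ i ∈ (∅ : Finset ι), z i) * X ^ ((∅ : Finset ι).card - 1) + R)
          - X ^ ((∅ : Finset ι).card + 1) - C (z a + ∑ i ∈ (∅ : Finset ι), z i) *
            X ^ (∅ : Finset ι).card = (X + C (z a)) * R := by
        simp
        ring
      rw [this]
      have hR0 : R = 0 := by rw [hR]; simp
      rw [hR0, mul_zero]
      simp
    · obtain ⟨k, hk⟩ : ∃ k, s.card = k + 1 := ⟨s.card - 1, by omega⟩
      have e : (X + C (z a)) * (X ^ s.card + C (∑ i ∈ s, z i) * X ^ (s.card - 1) + R)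
          - X ^ (s.card + 1) - C (z a + ∑ i ∈ s, z i) * X ^ s.card
          = C (z a * ∑ i ∈ s, z i) * X ^ (s.card - 1) + X * R + C (z a) * R := by
        rw [hk]
        simp only [Nat.add_sub_cancel, map_add, map_mul]
        ring
      rw [e, Polynomial.coeff_add, Polynomial.coeff_add]
      have hγγ : γ * γ ≤ γ := by
        calc γ * γ ≤ γ * 1 := mul_le_mul' le_rfl hγ
          _ = γ := mul_one γ
      refine v_add_le v (v_add_le v ?_ ?_) ?_
      · have := v_coeff_mul_le v (C (z a * ∑ i ∈ s, z i)) (X ^ (s.card - 1))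
          (ρ := γ * γ) (δ := 1)
          (fun i => v_coeff_C_le v (by rw [map_mul]; exact mul_le_mul' hza hsum) i)
          (fun i => v_coeff_X_pow_le v _ i) j
        rwa [mul_one] at this
      · rcases j with _ | j
        · simp
        · rw [Polynomial.coeff_X_mul]
          exact ih' j
      · rw [Polynomial.coeff_C_mul, map_mul]
        calc v (z a) * v (R.coeff j) ≤ 1 * (γ * γ) := mul_le_mul' (hza.trans hγ) (ih' j)
          _ = γ * γ := one_mul _

end Fermat.Agent.H78.CFT
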