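/-
P-CFT / WP2 (local theory), row LOC-1: vanishing of `Ĥ⁰(G, 1 + Λ_γ)`:
every Galois-invariant element of `1 + Λ_γ` is the norm of an element of `1 + Λ_γ`
(Hensel's lemma in `K`, reversal trick).  Mathlib only.
-/
import Fermat.Agent.H78.CFT.LocalPoly

set_option autoImplicit false
set_option linter.unusedSectionVars false

namespace Fermat.Agent.H78.CFT

open Polynomial

variable {K L : Type*} [Field K] [Field L] [Algebra K L] [FiniteDimensional K L] [IsGalois K L]
  {Γ₀ : Type*} [LinearOrderedCommGroupWithZero Γ₀] {v : Valuation L Γ₀}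
  {S : Setup (K := K) v}

namespace Setup

/-- The valuation of `K` induced by `v`. -/
noncomputable def vK (_S : Setup (K := K) v) : Valuation K Γ₀ := v.comap (algebraMap K L)

lemma vK_apply (S : Setup (K := K) v) (c : K) : S.vK c = v (algebraMap K L c) := rfl

/-- **`Ĥ⁰(G, 1 + Λ_γ) = 1`.** -/
theorem h0_vanish {γ : Γ₀} (hγ : S.Good γ) {u : L} (hu : u - 1 ∈ S.Lam γ)
    (hfix : ∀ g : L ≃ₐ[K] L, g u = u) :
    ∃ w : L, w - 1 ∈ S.Lam γ ∧ ∏ g : L ≃ₐ[K] L, g w = u := by
  classical
  obtain ⟨c, hcγ, hyc⟩ := S.eq_mul_t_of_fixed hu (fun g => by rw [map_sub, map_one, hfix g])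
  by_cases hc0 : c = 0
  · refine ⟨1, S.one_mem γ, ?_⟩
    rw [hc0, map_zero, zero_mul, sub_eq_zero] at hyc
    simp [hyc]
  have hcL0 : algebraMap K L c ≠ 0 := by simpa using hc0
  set κ : Γ₀ := v (algebraMap K L c) with hκ
  have hκ0 : κ ≠ 0 := (Valuation.ne_zero_iff v).2 hcL0
  have hκ1 : κ ≤ 1 := hcγ.trans hγ.le_one
  have hτ0 : S.τ ≠ 0 := S.τ_ne_zero
  have hκτ : κ * S.τ⁻¹ < 1 := by
    have h1 : κ < S.τ := lt_of_le_of_lt hcγ hγ.lt_tau
    calc κ * S.τ⁻¹ < S.τ * S.τ⁻¹ :=
          mul_lt_mul_of_pos_right h1 (zero_lt_iff.2 (inv_ne_zero hτ0))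
      _ = 1 := mul_inv_cancel₀ hτ0
  set n := Fintype.card (L ≃ₐ[K] L) with hn
  have hnpos : 0 < n := Fintype.card_pos
  set z : (L ≃ₐ[K] L) → L := fun g => algebraMap K L c * S.b g with hz
  have hzv : ∀ g, v (z g) ≤ κ := fun g => by
    rw [hz]; simp only; rw [map_mul]
    calc v (algebraMap K L c) * v (S.b g) ≤ κ * 1 := mul_le_mul' le_rfl (S.v_b g)
      _ = κ := mul_one κ
  have hzsum : ∑ g, z g = algebraMap K L (c * S.tK) := by
    rw [hz]; simp only; rw [← Finset.mul_sum, map_mul, ← S.t_eq]; rfl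
  set PL : L[X] := ∏ g : L ≃ₐ[K] L, (X + C (z g)) with hPL
  have hPLmonic : PL.Monic := Polynomial.monic_prod_of_monic _ _ fun g _ => monic_X_add_C _
  -- descent to `K`
  have hlift : PL ∈ Polynomial.lifts (algebraMap K L) := by
    rw [Polynomial.lifts_iff_coeff_lifts]
    intro i
    rw [IsGalois.mem_range_algebraMap_iff_fixed]
    intro g
    have hmap : PL.map (g : L →+* L) = PL := by
      rw [hPL, Polynomial.map_prod]
      simp only [Polynomial.map_add, Polynomial.map_X, Polynomial.map_C]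
      have : ∀ h : L ≃ₐ[K] L, (g : L →+* L) (z h) = z (g * h) := fun h => by
        rw [hz]; simp only
        rw [map_mul]
        have e1 : (g : L →+* L) (algebraMap K L c) = algebraMap K L c := g.commutes c
        have e2 : (g : L →+* L) (S.b h) = S.b (g * h) := S.aut_b g h
        rw [e1, e2]
      simp_rw [this]
      exact Equiv.prod_comp (Equiv.mulLeft g) (fun h => X + C (z h))
    have := congrArg (fun P : L[X] => P.coeff i) hmap
    simp only [Polynomial.coeff_map] at this
    exact this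
  obtain ⟨PK, hPKmap, hPKdeg, hPKmonic⟩ :=
    Polynomial.lifts_and_natDegree_eq_and_monic hlift hPLmonic
  have hPLdeg : PL.natDegree = n := by
    rw [hPL, Polynomial.natDegree_prod_of_monic _ _ fun g _ => monic_X_add_C _]
    simp [hn]
  rw [hPLdeg] at hPKdeg
  -- the remainder
  set RK : K[X] := PK - X ^ n - C (c * S.tK) * X ^ (n - 1) with hRK
  have hRKmap : RK.map (algebraMap K L)
      = PL - X ^ n - C (∑ g, z g) * X ^ (n - 1) := by
    rw [hRK, hzsum]
    simp only [Polynomial.map_sub, Polynomial.map_mul, Polynomial.map_pow, Polynomial.map_X,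
      Polynomial.map_C, hPKmap]
  have hRKcoeff : ∀ j, S.vK (RK.coeff j) ≤ κ * κ := by
    intro j
    rw [vK_apply, ← Polynomial.coeff_map, hRKmap]
    have := v_coeff_prod_X_add_C v Finset.univ z hκ1 (fun g _ => hzv g) j
    rwa [Finset.card_univ] at this
  have hctK0 : c * S.tK ≠ 0 := mul_ne_zero hc0 S.tK_ne_zero
  have hvctK : S.vK (c * S.tK) = κ * S.τ := by
    rw [vK_apply, map_mul, map_mul, ← S.t_eq]; rfl
  set R₁ : K[X] := C ((c * S.tK)⁻¹) * RK with hR₁
  have hR₁coeff : ∀ j, S.vK (R₁.coeff j) ≤ κ * S.τ⁻¹ := by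
    intro j
    rw [hR₁, Polynomial.coeff_C_mul, map_mul, map_inv₀, hvctK]
    calc (κ * S.τ)⁻¹ * S.vK (RK.coeff j) ≤ (κ * S.τ)⁻¹ * (κ * κ) :=
          mul_le_mul' le_rfl (hRKcoeff j)
      _ = κ * S.τ⁻¹ := by
          rw [mul_inv, mul_comm κ⁻¹, mul_assoc, ← mul_assoc κ⁻¹, inv_mul_cancel₀ hκ0, one_mul,
            mul_comm]
  have hRKdeg : RK.degree < (n : WithBot ℕ) := by
    have h1 : (PK - X ^ n).degree < (n : WithBot ℕ) := by
      have hd : PK.degree = (X ^ n : K[X]).degree := by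
        rw [Polynomial.degree_X_pow, Polynomial.degree_eq_natDegree hPKmonic.ne_zero, hPKdeg]
      have hl : PK.leadingCoeff = (X ^ n : K[X]).leadingCoeff := by
        rw [hPKmonic.leadingCoeff, (Polynomial.monic_X_pow n).leadingCoeff]
      have := Polynomial.degree_sub_lt_left hd hPKmonic.ne_zero hl
      rwa [Polynomial.degree_eq_natDegree hPKmonic.ne_zero, hPKdeg] at this
    have h2 : (C (c * S.tK) * X ^ (n - 1) : K[X]).degree < (n : WithBot ℕ) := by
      rw [Polynomial.degree_C_mul_X_pow _ hctK0]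
      exact_mod_cast Nat.sub_lt hnpos one_pos
    exact lt_of_le_of_lt (Polynomial.degree_sub_le _ _) (max_lt h1 h2)
  -- the Hensel polynomial
  set q : K[X] := X ^ n - (X ^ (n - 1) + R₁) with hq
  have hqmonic : q.Monic := by
    apply Polynomial.monic_X_pow_sub
    refine lt_of_le_of_lt (Polynomial.degree_add_le _ _) (max_lt ?_ ?_)
    · rw [Polynomial.degree_X_pow]
      exact_mod_cast Nat.sub_lt hnpos one_pos
    · rw [hR₁, Polynomial.degree_C_mul (inv_ne_zero hctK0)]
      exact hRKdeg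
  have hqid : C (c * S.tK) * q = C (1 + c * S.tK) * X ^ n - PK := by
    rw [hq, hR₁, hRK]
    have hCC : (C (c * S.tK) : K[X]) * C ((c * S.tK)⁻¹) = 1 := by
      rw [← Polynomial.C_mul, mul_inv_cancel₀ hctK0, Polynomial.C_1]
    have e : C (c * S.tK) * (X ^ n - (X ^ (n - 1) + C (c * S.tK)⁻¹ *
          (PK - X ^ n - C (c * S.tK) * X ^ (n - 1))))
        = C (c * S.tK) * X ^ n - C (c * S.tK) * X ^ (n - 1)
          - (C (c * S.tK) * C (c * S.tK)⁻¹) * (PK - X ^ n - C (c * S.tK) * X ^ (n - 1)) := by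
      ring
    rw [e, hCC, Polynomial.C_add, Polynomial.C_1]
    ring
  have hqcoeff : ∀ i, v (algebraMap K L (q.coeff i)) ≤ 1 := by
    intro i
    rw [← vK_apply, hq, Polynomial.coeff_sub, Polynomial.coeff_add]
    refine v_sub_le S.vK (v_coeff_X_pow_le S.vK n i) (v_add_le S.vK (v_coeff_X_pow_le S.vK _ i) ?_)
    exact (hR₁coeff i).trans hκτ.le
  have hone : S.vK (1 : K) ≤ 1 := by rw [map_one]
  have hq1 : v (algebraMap K L (q.eval 1)) < 1 := by
    rw [← vK_apply, hq]
    simp only [Polynomial.eval_sub, Polynomial.eval_add, Polynomial.eval_pow, Polynomial.eval_X,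
      one_pow]
    have : (1 : K) - (1 + R₁.eval 1) = - R₁.eval 1 := by ring
    rw [this, Valuation.map_neg]
    exact lt_of_le_of_lt (v_eval_le S.vK R₁ hR₁coeff hone) hκτ
  have hq1' : v (algebraMap K L (q.derivative.eval 1)) = 1 := by
    rw [← vK_apply, hq]
    simp only [Polynomial.derivative_sub, Polynomial.derivative_add, Polynomial.derivative_X_pow,
      Polynomial.eval_sub, Polynomial.eval_add, Polynomial.eval_mul, Polynomial.eval_pow,
      Polynomial.eval_X, Polynomial.eval_C, one_pow, mul_one]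
    have hcast : (n : K) - (((n - 1 : ℕ) : K) + R₁.derivative.eval 1)
        = 1 + (- R₁.derivative.eval 1) := by
      have : (n : K) = ((n - 1 : ℕ) : K) + 1 := by
        rw [← Nat.cast_succ, Nat.succ_eq_add_one, Nat.sub_add_cancel hnpos]
      rw [this]; ring
    rw [hcast]
    apply Valuation.map_one_add_of_lt
    rw [Valuation.map_neg]
    exact lt_of_le_of_lt
      (v_eval_le S.vK _ (v_derivative_coeff_le S.vK R₁ hR₁coeff) hone) hκτ
  obtain ⟨a, ha0, ha1⟩ := S.hensel q hqmonic hqcoeff 1 (by rw [map_one, map_one]) hq1 hq1'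
  have hva : v (algebraMap K L a) = 1 := by
    rw [map_sub, map_one] at ha1
    exact v_eq_one_of_sub_one_lt v ha1
  have haL0 : algebraMap K L a ≠ 0 := by
    intro h; rw [h, map_zero] at hva; exact zero_ne_one hva
  have ha00 : a ≠ 0 := fun h => haL0 (by rw [h, map_zero])
  -- evaluate the identity at `a`
  have hPKa : PK.eval a = (1 + c * S.tK) * a ^ n := by
    have := congrArg (fun P : K[X] => P.eval a) hqid
    simp only [Polynomial.eval_mul, Polynomial.eval_C, ha0, mul_zero, Polynomial.eval_sub,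
      Polynomial.eval_pow, Polynomial.eval_X] at this
    exact (sub_eq_zero.1 this.symm).symm
  have hPLa : ∏ g : L ≃ₐ[K] L, (algebraMap K L a + z g)
      = algebraMap K L ((1 + c * S.tK) * a ^ n) := by
    rw [← hPKa, ← Polynomial.eval_map_apply, hPKmap, hPL, Polynomial.eval_prod]
    simp
  have hu' : u = algebraMap K L (1 + c * S.tK) := by
    rw [map_add, map_one, map_mul, ← S.t_eq, ← hyc]; ring
  refine ⟨1 + algebraMap K L (c * a⁻¹) * S.b 1, ?_, ?_⟩
  · rw [add_sub_cancel_left]
    refine S.smul_b_mem_Lam _ _ ?_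
    rw [map_mul, map_mul, map_inv₀, map_inv₀, hva, inv_one, mul_one]
    exact hcγ
  · have hg : ∀ g : L ≃ₐ[K] L, g (1 + algebraMap K L (c * a⁻¹) * S.b 1)
        = (algebraMap K L a + z g) * (algebraMap K L a)⁻¹ := by
      intro g
      rw [map_add, map_one, map_mul, AlgEquiv.commutes, S.aut_b, mul_one, hz]
      simp only
      rw [map_mul, map_inv₀]
      field_simp
    simp_rw [hg]
    rw [Finset.prod_mul_distrib, hPLa, Finset.prod_const, Finset.card_univ, hu', map_mul, map_pow,
      ← hn, mul_assoc, ← mul_pow, mul_inv_cancel₀ haL0, one_pow, mul_one]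

end Setup

end Fermat.Agent.H78.CFT
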