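/-
P-CFT / WP2 (local theory), row LOC-1: combinatorics of a finite cyclic group
(re-indexing by powers of a generator; vanishing of `H¹` of an induced module in
coordinates).  Mathlib only.
-/
import Mathlib

set_option autoImplicit false

namespace Fermat.Agent.H78.CFT

variable {G : Type*} [Group G] [Fintype G]

/-- Every element of a finite cyclic group is a power `σ ^ i` with `i < orderOf σ`. -/
lemma exists_pow_eq_of_generator (σ : G) (hσ : ∀ g, g ∈ Subgroup.zpowers σ) (g : G) :
    ∃ i, i < orderOf σ ∧ σ ^ i = g := by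
  classical
  have h := (isOfFinOrder_of_finite σ).mem_zpowers_iff_mem_range_orderOf.1 (hσ g)
  obtain ⟨i, hi, rfl⟩ := Finset.mem_image.1 h
  exact ⟨i, Finset.mem_range.1 hi, rfl⟩

/-- Re-indexing a product over a finite cyclic group by the powers of a generator. -/
lemma prod_univ_eq_prod_range {M : Type*} [CommMonoid M] (σ : G)
    (hσ : ∀ g, g ∈ Subgroup.zpowers σ) (f : G → M) :
    ∏ g, f g = ∏ i ∈ Finset.range (orderOf σ), f (σ ^ i) := by
  classical
  have himg : (Finset.range (orderOf σ)).image (fun i => σ ^ i) = Finset.univ := by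
    ext g
    simp only [Finset.mem_image, Finset.mem_range, Finset.mem_univ, iff_true]
    exact exists_pow_eq_of_generator σ hσ g
  rw [← himg, Finset.prod_image]
  intro i hi j hj hij
  exact pow_injOn_Iio_orderOf (Finset.mem_range.1 hi) (Finset.mem_range.1 hj) hij

/-- Additive version. -/
lemma sum_univ_eq_sum_range {M : Type*} [AddCommMonoid M] (σ : G)
    (hσ : ∀ g, g ∈ Subgroup.zpowers σ) (f : G → M) :
    ∑ g, f g = ∑ i ∈ Finset.range (orderOf σ), f (σ ^ i) :=
  prod_univ_eq_prod_range (M := Multiplicative M) σ hσ f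

/-- **Telescoping in an induced module.**  For a function `c` on a finite cyclic group with
generator `σ` there is `d`, each of whose values is minus a partial sum of values of `c`,
with `d (σ⁻¹ g) - d g = c g` for `g ≠ 1` and `= c 1 - ∑ c` for `g = 1`. -/
theorem exists_telescope [DecidableEq G] {M : Type*} [AddCommGroup M] (σ : G)
    (hσ : ∀ g, g ∈ Subgroup.zpowers σ) (c : G → M) :
    ∃ (d : G → M) (s : G → Finset G), (∀ g, d g = - ∑ h ∈ s g, c h) ∧
      ∀ g, d (σ⁻¹ * g) - d g = c g - (if g = 1 then ∑ h, c h else 0) := by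
  set n := orderOf σ with hn
  have hnpos : 0 < n := orderOf_pos σ
  choose ind hind_lt hind using exists_pow_eq_of_generator σ hσ
  have ind_unique : ∀ i, i < n → ind (σ ^ i) = i := fun i hi =>
    pow_injOn_Iio_orderOf (hind_lt _) hi (hind _)
  refine ⟨fun g => - ∑ k ∈ Finset.range (ind g + 1), c (σ ^ k),
    fun g => (Finset.range (ind g + 1)).image (fun k => σ ^ k), ?_, ?_⟩
  · intro g
    rw [Finset.sum_image]
    intro i hi j hj hij
    have hi' : i < n := lt_of_lt_of_le (Finset.mem_range.1 hi) (hind_lt g)
    have hj' : j < n := lt_of_lt_of_le (Finset.mem_range.1 hj) (hind_lt g)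
    exact pow_injOn_Iio_orderOf hi' hj' hij
  · intro g
    by_cases hg : g = 1
    · subst hg
      have h0 : ind (1 : G) = 0 := by
        have := ind_unique 0 hnpos
        simpa using this
      have hinv : σ⁻¹ * 1 = σ ^ (n - 1) := by
        rw [mul_one, inv_eq_iff_mul_eq_one, ← pow_succ', Nat.sub_add_cancel hnpos, hn,
          pow_orderOf_eq_one]
      have h1 : ind (σ⁻¹ * 1) = n - 1 := by
        rw [hinv]; exact ind_unique _ (Nat.sub_lt hnpos one_pos)
      simp only [h1, h0, if_true, Nat.sub_add_cancel hnpos, zero_add, Finset.sum_range_one,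
        pow_zero]
      rw [sum_univ_eq_sum_range σ hσ c]
      abel
    · have hi1 : 1 ≤ ind g := by
        by_contra hcon
        have : ind g = 0 := by omega
        apply hg
        rw [← hind g, this, pow_zero]
      have hinv : σ⁻¹ * g = σ ^ (ind g - 1) := by
        conv_lhs => rw [← hind g]
        rw [inv_mul_eq_iff_eq_mul, ← pow_succ', Nat.sub_add_cancel hi1]
      have h1 : ind (σ⁻¹ * g) = ind g - 1 := by
        rw [hinv]; exact ind_unique _ (lt_of_le_of_lt (Nat.sub_le _ _) (hind_lt g))
      simp only [h1, if_neg hg, sub_zero, Nat.sub_add_cancel hi1]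
      rw [Finset.sum_range_succ (fun k => c (σ ^ k)) (ind g), hind g]
      abel

end Fermat.Agent.H78.CFT
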