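/-
P-CFT / WP2 (local theory), row LOC-1: vanishing of `H¹(G, 1 + Λ_γ)`:
every element of `1 + Λ_γ` of norm one is `w / σ w` with `w ∈ 1 + Λ_γ`.
Mathlib only.
-/
import Fermat.Agent.H78.CFT.LocalEst
import Fermat.Agent.H78.CFT.CyclicTelescope

set_option autoImplicit false
set_option linter.unusedSectionVars false

namespace Fermat.Agent.H78.CFT

variable {K L : Type*} [Field K] [Field L] [Algebra K L] [FiniteDimensional K L] [IsGalois K L]
  {Γ₀ : Type*} [LinearOrderedCommGroupWithZero Γ₀] {v : Valuation L Γ₀}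
  {S : Setup (K := K) v}

namespace Setup

/-- the sum of the conjugates of `y`, in coordinates -/
lemma sum_aut_eq (S : Setup (K := K) v) (y : L) :
    ∑ g : L ≃ₐ[K] L, g y = algebraMap K L (∑ h, S.b.repr y h) * S.t := by
  have e : ∀ g : L ≃ₐ[K] L, g y = ∑ h, S.b.repr y h • S.b (g * h) := by
    intro g
    conv_lhs => rw [← S.b.sum_repr y]
    rw [map_sum]
    exact Finset.sum_congr rfl fun k _ => by rw [map_smul, S.aut_b]
  simp_rw [e]
  rw [Finset.sum_comm, map_sum, Finset.sum_mul]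
  refine Finset.sum_congr rfl fun h _ => ?_
  rw [← Finset.smul_sum, Algebra.smul_def, t]
  congr 1
  exact Equiv.sum_comp (Equiv.mulRight h) (fun g => S.b g)

/-- **Step A** (one step of successive approximation). -/
lemma stepA {γ : Γ₀} (hγ : S.Good γ) {u : L} (hu : u - 1 ∈ S.Lam γ)
    (hN : ∏ g : L ≃ₐ[K] L, g u = 1) :
    ∃ w : L, w - 1 ∈ S.Lam γ ∧ u * w * (S.σ w)⁻¹ - 1 ∈ S.Lam (γ * S.ε) := by
  classical
  set y := u - 1 with hy
  have huy : u = 1 + y := by rw [hy]; ring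
  have hvy : v y ≤ γ := S.v_le_of_mem_Lam hu
  -- norm expansion
  have hexp := v_prod_one_add v Finset.univ (fun g : L ≃ₐ[K] L => g y) hγ.le_one
    (fun g _ => by rw [S.inv]; exact hvy)
  have hprod : ∏ g : L ≃ₐ[K] L, (1 + g y) = 1 :=
    (Finset.prod_congr rfl fun g _ => by rw [hy, map_sub, map_one]; ring).trans hN
  rw [hprod, sub_self, zero_sub, Valuation.map_neg, S.sum_aut_eq, map_mul] at hexp
  -- the sum of the coordinates is small
  have hs : v (algebraMap K L (∑ h, S.b.repr y h)) ≤ γ * S.ε := by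
    have h1 : v (algebraMap K L (∑ h, S.b.repr y h)) * S.τ ≤ γ * S.ε * S.τ := by
      calc v (algebraMap K L (∑ h, S.b.repr y h)) * S.τ ≤ γ * γ := hexp
        _ ≤ γ * (S.ε * S.τ) := mul_le_mul' le_rfl hγ.le_eps_tau
        _ = γ * S.ε * S.τ := (mul_assoc _ _ _).symm
    exact le_of_mul_le_mul_right h1 (zero_lt_iff.2 S.τ_ne_zero)
  -- telescoping
  obtain ⟨d, s, hd, hdiff⟩ := exists_telescope S.σ S.hσ (fun h => S.b.repr y h)
  have hdv : ∀ g, v (algebraMap K L (d g)) ≤ γ := by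
    intro g
    rw [hd, map_neg, Valuation.map_neg, map_sum]
    exact v_sum_le _ _ _ fun h _ => hu h
  set μ : L := ∑ g, d g • S.b g with hμdef
  have hμrepr : ∀ g, S.b.repr μ g = d g := by
    intro g
    rw [hμdef, map_sum, Finsupp.coe_finsetSum, Finset.sum_apply, Finset.sum_eq_single g]
    · rw [map_smul, Finsupp.smul_apply, Module.Basis.repr_self, Finsupp.single_eq_same,
        smul_eq_mul, mul_one]
    · intro k _ hk
      rw [map_smul, Finsupp.smul_apply, Module.Basis.repr_self, Finsupp.single_eq_of_ne hk.symm,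
        smul_zero]
    · intro h'; exact absurd (Finset.mem_univ _) h'
  have hμ : μ ∈ S.Lam γ := fun g => by rw [hμrepr]; exact hdv g
  have hkey : y + μ - S.σ μ = algebraMap K L (∑ h, S.b.repr y h) * S.b 1 := by
    apply S.b.repr.injective
    ext g
    rw [map_sub, map_add, Finsupp.sub_apply, Finsupp.add_apply, hμrepr, S.repr_aut, hμrepr,
      ← Algebra.smul_def, map_smul, Finsupp.smul_apply, Module.Basis.repr_self,
      Finsupp.single_apply, smul_eq_mul]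
    have := hdiff g
    by_cases hg : g = 1
    · rw [if_pos hg] at this
      rw [if_pos hg.symm, mul_one]
      linear_combination -this
    · rw [if_neg hg] at this
      rw [if_neg (Ne.symm hg), mul_zero]
      linear_combination -this
  refine ⟨1 + μ, by rw [add_sub_cancel_left]; exact hμ, ?_⟩
  have hw1 : (1 + μ) - 1 ∈ S.Lam γ := by rw [add_sub_cancel_left]; exact hμ
  have hσw1 : S.σ (1 + μ) - 1 ∈ S.Lam γ := aut_mem S.σ hw1
  have hσw0 : S.σ (1 + μ) ≠ 0 := ne_zero_of_mem hγ hσw1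
  have hz : (y + μ - S.σ μ) + y * μ ∈ S.Lam (γ * S.ε) := by
    refine (S.Lam _).add_mem ?_ (S.mul_mem_Lam hu hμ ?_)
    · rw [hkey]
      exact S.smul_b_mem_Lam _ _ hs
    · calc v S.cC * (γ * γ) = γ * (v S.cC * γ) := mul_left_comm _ _ _
        _ ≤ γ * S.ε := mul_le_mul' le_rfl hγ.C_le_eps
  have hid : u * (1 + μ) * (S.σ (1 + μ))⁻¹ - 1
      = ((y + μ - S.σ μ) + y * μ) * (S.σ (1 + μ))⁻¹ := by
    have h1 : S.σ (1 + μ) = 1 + S.σ μ := by rw [map_add, map_one]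
    rw [h1] at hσw0 ⊢
    rw [huy]
    field_simp
    ring
  rw [hid]
  exact mul_mem_of_one_add hγ hz (inv_mem hγ hσw1)

/-- **Step B** (Lagrange resolvent with control): deep elements of norm one are coboundaries. -/
lemma stepB {γ δ : Γ₀} (hγ : S.Good γ) (hδγ : v S.cC * δ ≤ γ * S.τ) {u : L}
    (hu : u - 1 ∈ S.Lam δ) (hN : ∏ g : L ≃ₐ[K] L, g u = 1) :
    ∃ w : L, w - 1 ∈ S.Lam γ ∧ u * S.σ w = w := by
  classical
  have hδ1 : δ ≤ 1 := by
    calc δ ≤ v S.cC * δ := S.le_C_mul δ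
      _ ≤ γ * S.τ := hδγ
      _ ≤ 1 * 1 := mul_le_mul' hγ.le_one S.τ_le_one
      _ = 1 := one_mul 1
  have hvu : v (u - 1) ≤ δ := S.v_le_of_mem_Lam hu
  set n := orderOf S.σ with hn
  set U : ℕ → L := fun i => ∏ k ∈ Finset.range i, (S.σ ^ k) u with hU
  set F : ℕ → L := fun i => U i * (S.σ ^ i) (S.b 1) with hF
  set wt : L := ∑ i ∈ Finset.range n, F i with hwt
  have hUv : ∀ i, v (U i - 1) ≤ δ := fun i =>
    v_prod_sub_one v _ _ hδ1 fun k _ => by
      have : (S.σ ^ k) u - 1 = (S.σ ^ k) (u - 1) := by rw [map_sub, map_one]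
      rw [this, S.inv]; exact hvu
  have ht : S.t = ∑ i ∈ Finset.range n, (S.σ ^ i) (S.b 1) := by
    rw [t, sum_univ_eq_sum_range S.σ S.hσ]
    exact Finset.sum_congr rfl fun i _ => S.hb _
  have hwtt : v (wt - S.t) ≤ δ := by
    rw [hwt, ht, ← Finset.sum_sub_distrib]
    refine v_sum_le _ _ _ fun i _ => ?_
    have : F i - (S.σ ^ i) (S.b 1) = (U i - 1) * (S.σ ^ i) (S.b 1) := by rw [hF]; ring
    rw [this, map_mul, S.inv]
    calc v (U i - 1) * v (S.b 1) ≤ δ * 1 := mul_le_mul' (hUv i) S.hb1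
      _ = δ := mul_one δ
  -- the resolvent identity
  have hUn : U n = 1 := by
    rw [hU]
    simp only
    rw [← hN, prod_univ_eq_prod_range S.σ S.hσ (fun g : L ≃ₐ[K] L => g u)]
  have hσn : (S.σ ^ n) (S.b 1) = S.b 1 := by rw [hn, pow_orderOf_eq_one]; rfl
  have hstep : ∀ i, u * S.σ (F i) = F (i + 1) := by
    intro i
    have e1 : S.σ (U i) = ∏ k ∈ Finset.range i, (S.σ ^ (k + 1)) u := by
      rw [hU]
      simp only
      rw [map_prod]
      exact Finset.prod_congr rfl fun k _ => by rw [pow_succ']; rfl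
    have e2 : U (i + 1) = (∏ k ∈ Finset.range i, (S.σ ^ (k + 1)) u) * u := by
      rw [hU]
      simp only
      rw [Finset.prod_range_succ']
      simp
    have e3 : S.σ ((S.σ ^ i) (S.b 1)) = (S.σ ^ (i + 1)) (S.b 1) := by rw [pow_succ']; rfl
    rw [hF]
    simp only
    rw [map_mul, e1, e3, e2]
    ring
  have hrec : u * S.σ wt = wt := by
    rw [hwt, map_sum, Finset.mul_sum]
    simp_rw [hstep]
    have hF0 : F 0 = S.b 1 := by rw [hF]; simp [hU]
    have hFn : F n = S.b 1 := by rw [hF]; simp only; rw [hUn, hσn, one_mul]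
    have h1 := Finset.sum_range_succ' F n
    rw [Finset.sum_range_succ F n, hF0, hFn] at h1
    exact (add_right_cancel h1).symm
  -- normalise by `t`
  have ht0 : S.t ≠ 0 := S.t_ne_zero
  refine ⟨wt * S.t⁻¹, ?_, ?_⟩
  · apply S.mem_Lam_of_v_le
    have : wt * S.t⁻¹ - 1 = (wt - S.t) * S.t⁻¹ := by field_simp
    rw [this, map_mul, map_inv₀]
    have hτ : v S.t = S.τ := rfl
    rw [hτ]
    calc v S.cC * (v (wt - S.t) * S.τ⁻¹) ≤ v S.cC * (δ * S.τ⁻¹) :=
          mul_le_mul' le_rfl (mul_le_mul' hwtt le_rfl)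
      _ = v S.cC * δ * S.τ⁻¹ := (mul_assoc _ _ _).symm
      _ ≤ γ * S.τ * S.τ⁻¹ := mul_le_mul' hδγ le_rfl
      _ = γ := by rw [mul_assoc, mul_inv_cancel₀ S.τ_ne_zero, mul_one]
  · rw [map_mul, map_inv₀, S.aut_t, ← mul_assoc, hrec]

/-- Iterating Step A. -/
lemma stepA_iter {γ : Γ₀} (hγ : S.Good γ) {u : L} (hu : u - 1 ∈ S.Lam γ)
    (hN : ∏ g : L ≃ₐ[K] L, g u = 1) (k : ℕ) :
    ∃ w : L, w - 1 ∈ S.Lam γ ∧ u * w * (S.σ w)⁻¹ - 1 ∈ S.Lam (γ * S.ε ^ k) := by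
  induction k with
  | zero =>
    refine ⟨1, S.one_mem γ, ?_⟩
    simpa using hu
  | succ k ih =>
    obtain ⟨w, hw, hw'⟩ := ih
    have hεk : S.ε ^ k ≤ 1 := pow_le_one₀ zero_le S.ε_lt_one.le
    have hγk : S.Good (γ * S.ε ^ k) := hγ.mul hεk
    have hw0 : w ≠ 0 := ne_zero_of_mem hγ hw
    have hσw0 : S.σ w ≠ 0 := by simpa using hw0
    -- the new element has norm one
    have hN' : ∏ g : L ≃ₐ[K] L, g (u * w * (S.σ w)⁻¹) = 1 := by
      simp_rw [map_mul, map_inv₀]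
      rw [Finset.prod_mul_distrib, Finset.prod_mul_distrib, hN, one_mul, Finset.prod_inv_distrib]
      have : ∏ g : L ≃ₐ[K] L, g (S.σ w) = ∏ g : L ≃ₐ[K] L, g w :=
        Equiv.prod_comp (Equiv.mulRight S.σ) (fun g : L ≃ₐ[K] L => g w)
      rw [this]
      refine mul_inv_cancel₀ ?_
      exact Finset.prod_ne_zero_iff.2 fun g _ => by simpa using hw0
    obtain ⟨w₂, hw₂, hw₂'⟩ := stepA hγk hw' hN'
    have hw₂γ : w₂ - 1 ∈ S.Lam γ := S.Lam_mono (by
      calc γ * S.ε ^ k ≤ γ * 1 := mul_le_mul' le_rfl hεk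
        _ = γ := mul_one γ) hw₂
    refine ⟨w * w₂, mul_mem hγ hw hw₂γ, ?_⟩
    have e : u * (w * w₂) * (S.σ (w * w₂))⁻¹ = u * w * (S.σ w)⁻¹ * w₂ * (S.σ w₂)⁻¹ := by
      rw [map_mul, mul_inv]
      ring
    rw [e, pow_succ, ← mul_assoc]
    exact hw₂'

/-- **`H¹(G, 1 + Λ_γ) = 1`.** -/
theorem h1_vanish {γ : Γ₀} (hγ : S.Good γ) {u : L} (hu : u - 1 ∈ S.Lam γ)
    (hN : ∏ g : L ≃ₐ[K] L, g u = 1) :
    ∃ w : L, w - 1 ∈ S.Lam γ ∧ u * S.σ w = w := by
  -- choose `k` with `C ε^k ≤ τ`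
  have hx0 : S.t * S.cC⁻¹ ≠ 0 := mul_ne_zero S.t_ne_zero (inv_ne_zero (fun h => S.vC_ne_zero (by
    rw [h, map_zero])))
  obtain ⟨k, hk⟩ := S.arch _ hx0
  rw [map_mul, map_inv₀] at hk
  have hk' : v S.cC * S.ε ^ k ≤ S.τ := by
    have : v S.cC * S.ε ^ k ≤ v S.cC * (v S.t * (v S.cC)⁻¹) := mul_le_mul' le_rfl hk
    refine this.trans (le_of_eq ?_)
    rw [mul_comm (v S.t), ← mul_assoc, mul_inv_cancel₀ S.vC_ne_zero, one_mul]
    rfl
  obtain ⟨w₁, hw₁, hw₁'⟩ := stepA_iter hγ hu hN k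
  have hw₁0 : w₁ ≠ 0 := ne_zero_of_mem hγ hw₁
  have hσw₁0 : S.σ w₁ ≠ 0 := by simpa using hw₁0
  have hN' : ∏ g : L ≃ₐ[K] L, g (u * w₁ * (S.σ w₁)⁻¹) = 1 := by
    simp_rw [map_mul, map_inv₀]
    rw [Finset.prod_mul_distrib, Finset.prod_mul_distrib, hN, one_mul, Finset.prod_inv_distrib]
    have : ∏ g : L ≃ₐ[K] L, g (S.σ w₁) = ∏ g : L ≃ₐ[K] L, g w₁ :=
      Equiv.prod_comp (Equiv.mulRight S.σ) (fun g : L ≃ₐ[K] L => g w₁)
    rw [this]
    refine mul_inv_cancel₀ ?_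
    exact Finset.prod_ne_zero_iff.2 fun g _ => by simpa using hw₁0
  have hδγ : v S.cC * (γ * S.ε ^ k) ≤ γ * S.τ := by
    calc v S.cC * (γ * S.ε ^ k) = γ * (v S.cC * S.ε ^ k) := mul_left_comm _ _ _
      _ ≤ γ * S.τ := mul_le_mul' le_rfl hk'
  obtain ⟨w₂, hw₂, hw₂'⟩ := stepB hγ hδγ hw₁' hN'
  have hw₂0 : w₂ ≠ 0 := ne_zero_of_mem hγ hw₂
  refine ⟨w₂ * w₁⁻¹, mul_mem hγ hw₂ (inv_mem hγ hw₁), ?_⟩
  rw [map_mul, map_inv₀]
  have : u * w₁ * (S.σ w₁)⁻¹ * S.σ w₂ = w₂ := hw₂'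
  field_simp at this ⊢
  linear_combination this

end Setup

end Fermat.Agent.H78.CFT
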