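/-
P-CFT / WP2 (local theory), row LOC-1: the Herbrand pair of `Lˣ` for a cyclic extension and
its basic properties.  Mathlib + H24.Herbrand.
-/
import Fermat.Agent.H78.CFT.LocalH0
import Fermat.Agent.H78.CFT.LocalH1
import Fermat.Agent.H24.Herbrand

set_option autoImplicit false
set_option linter.unusedSectionVars false

namespace Fermat.Agent.H78.CFT

open Fermat.Agent.H24

variable {K L : Type*} [Field K] [Field L] [Algebra K L] [FiniteDimensional K L] [IsGalois K L]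
  {Γ₀ : Type*} [LinearOrderedCommGroupWithZero Γ₀] {v : Valuation L Γ₀}

/-- The action of `Gal(L/K)` on `Lˣ`. -/
def gU (g : L ≃ₐ[K] L) : Lˣ →* Lˣ := Units.map (g : L →* L)

@[simp] lemma coe_gU (g : L ≃ₐ[K] L) (u : Lˣ) : ((gU g u : Lˣ) : L) = g (u : L) := rfl

/-- `u ↦ σ u / u`. -/
def Dm (σ : L ≃ₐ[K] L) : Lˣ →* Lˣ where
  toFun u := gU σ u * u⁻¹
  map_one' := by simp
  map_mul' a b := by
    rw [map_mul, mul_inv]
    exact mul_mul_mul_comm _ _ _ _

/-- `u ↦ ∏ g, g u`. -/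
noncomputable def Nm : Lˣ →* Lˣ where
  toFun u := ∏ g : L ≃ₐ[K] L, gU g u
  map_one' := by simp
  map_mul' a b := by
    simp only [map_mul]
    exact Finset.prod_mul_distrib

lemma coe_Dm (σ : L ≃ₐ[K] L) (u : Lˣ) : ((Dm σ u : Lˣ) : L) = σ (u : L) * (u : L)⁻¹ := by
  simp [Dm]

lemma coe_Nm (u : Lˣ) : ((Nm (K := K) u : Lˣ) : L) = ∏ g : L ≃ₐ[K] L, g (u : L) := by
  simp [Nm, Units.coe_prod]

lemma gU_Nm (h : L ≃ₐ[K] L) (u : Lˣ) : gU h (Nm (K := K) u) = Nm (K := K) u := by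
  apply Units.ext
  rw [coe_gU, coe_Nm, map_prod]
  exact Equiv.prod_comp (Equiv.mulLeft h) (fun g : L ≃ₐ[K] L => g (u : L))

lemma Nm_gU (h : L ≃ₐ[K] L) (u : Lˣ) : Nm (K := K) (gU h u) = Nm (K := K) u := by
  apply Units.ext
  rw [coe_Nm, coe_Nm]
  exact Equiv.prod_comp (Equiv.mulRight h) (fun g : L ≃ₐ[K] L => g (u : L))

/-- The Herbrand pair of `Lˣ` attached to `σ`. -/
noncomputable def pairL (σ : L ≃ₐ[K] L) : HerbrandPair (Additive Lˣ) where
  D := MonoidHom.toAdditive (Dm σ)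
  N := MonoidHom.toAdditive (Nm (K := K))
  D_N a := by
    change Additive.ofMul (Dm σ (Nm (K := K) a.toMul)) = 0
    have : Dm σ (Nm (K := K) a.toMul) = 1 := by
      change gU σ (Nm (K := K) a.toMul) * (Nm (K := K) a.toMul)⁻¹ = 1
      rw [gU_Nm, mul_inv_cancel]
    rw [this]; rfl
  N_D a := by
    change Additive.ofMul (Nm (K := K) (Dm σ a.toMul)) = 0
    have : Nm (K := K) (Dm σ a.toMul) = 1 := by
      change Nm (K := K) (gU σ a.toMul * (a.toMul)⁻¹) = 1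
      rw [map_mul, map_inv, Nm_gU, mul_inv_cancel]
    rw [this]; rfl

end Fermat.Agent.H78.CFT
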