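/-
P-CFT / WP2 (local theory), row LOC-1: the order map `Lˣ → ℤ`, the unit group and the
Herbrand pair of the value group.  Mathlib + H24.Herbrand.
-/
import Fermat.Agent.H78.CFT.LocalPair

set_option autoImplicit false
set_option linter.unusedSectionVars false

namespace Fermat.Agent.H78.CFT

open Fermat.Agent.H24

variable {K L : Type*} [Field K] [Field L] [Algebra K L] [FiniteDimensional K L] [IsGalois K L]
  {Γ₀ : Type*} [LinearOrderedCommGroupWithZero Γ₀] {v : Valuation L Γ₀}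
  (S : Setup (K := K) v)

namespace Setup

lemma vϖ_ne_zero : v S.ϖ ≠ 0 := (Valuation.ne_zero_iff v).2 S.hϖ0

lemma vϖ_pos : 0 < v S.ϖ := zero_lt_iff.2 S.vϖ_ne_zero

lemma zpow_vϖ_injective : Function.Injective fun n : ℤ => v S.ϖ ^ n :=
  zpow_right_injective₀ S.vϖ_pos (ne_of_lt S.hϖ1)

/-- the order of a unit of `L` -/
noncomputable def ordU (u : Lˣ) : ℤ := Classical.choose (S.hϖ (u : L) u.ne_zero)

lemma v_eq_zpow_ordU (u : Lˣ) : v (u : L) = v S.ϖ ^ S.ordU u :=
  Classical.choose_spec (S.hϖ (u : L) u.ne_zero)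

lemma ordU_eq {u : Lˣ} {n : ℤ} (h : v (u : L) = v S.ϖ ^ n) : S.ordU u = n :=
  S.zpow_vϖ_injective ((S.v_eq_zpow_ordU u).symm.trans h)

lemma ordU_mul (u w : Lˣ) : S.ordU (u * w) = S.ordU u + S.ordU w := by
  apply S.ordU_eq
  rw [Units.val_mul, map_mul, S.v_eq_zpow_ordU u, S.v_eq_zpow_ordU w,
    zpow_add₀ S.vϖ_ne_zero]

lemma ordU_eq_zero_iff (u : Lˣ) : S.ordU u = 0 ↔ v (u : L) = 1 := by
  constructor
  · intro h
    rw [S.v_eq_zpow_ordU u, h, zpow_zero]
  · intro h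
    exact S.ordU_eq (by rw [h, zpow_zero])

/-- the order homomorphism -/
noncomputable def ordHom : Additive Lˣ →+ ℤ where
  toFun a := S.ordU a.toMul
  map_zero' := S.ordU_eq (by simp)
  map_add' a b := S.ordU_mul a.toMul b.toMul

lemma ordHom_surjective : Function.Surjective S.ordHom := by
  intro n
  refine ⟨Additive.ofMul ((Units.mk0 S.ϖ S.hϖ0) ^ n), ?_⟩
  change S.ordU ((Units.mk0 S.ϖ S.hϖ0) ^ n) = n
  apply S.ordU_eq
  rw [Units.val_zpow_eq_zpow_val, map_zpow₀, Units.val_mk0]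

end Setup

/-- the unit group, additively -/
def HU (v : Valuation L Γ₀) : AddSubgroup (Additive Lˣ) where
  carrier := {a | v ((a.toMul : Lˣ) : L) = 1}
  zero_mem' := by
    change v (((1 : Lˣ) : Lˣ) : L) = 1
    simp
  add_mem' := fun {a b} ha hb => by
    change v (((a.toMul * b.toMul : Lˣ)) : L) = 1
    rw [Units.val_mul, map_mul, ha, hb, one_mul]
  neg_mem' := fun {a} ha => by
    change v (((a.toMul)⁻¹ : Lˣ) : L) = 1
    rw [Units.val_inv_eq_inv_val, map_inv₀, ha, inv_one]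

lemma mem_HU {a : Additive Lˣ} : a ∈ HU v ↔ v ((a.toMul : Lˣ) : L) = 1 := Iff.rfl

lemma Setup.ker_ordHom : S.ordHom.ker = HU v := by
  ext a
  rw [AddMonoidHom.mem_ker, mem_HU]
  exact S.ordU_eq_zero_iff a.toMul

/-- The Herbrand pair on `ℤ` with `D = 0`, `N = n`. -/
def pairZ (n : ℕ) : HerbrandPair ℤ where
  D := 0
  N := (n : ℤ) • AddMonoidHom.id ℤ
  D_N _ := rfl
  N_D _ := by simp

lemma pairZ_h0 (n : ℕ) : (pairZ n).h0 = n := by
  have hker : (pairZ n).D.ker = ⊤ := by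
    ext x; simp [pairZ]
  have hrange : (pairZ n).N.range = AddSubgroup.zmultiples (n : ℤ) := by
    ext x
    simp only [pairZ, AddMonoidHom.mem_range, AddMonoidHom.smul_apply, AddMonoidHom.id_apply,
      smul_eq_mul, AddSubgroup.mem_zmultiples_iff]
    constructor
    · rintro ⟨y, rfl⟩; exact ⟨y, by ring⟩
    · rintro ⟨y, rfl⟩; exact ⟨y, by ring⟩
  rw [HerbrandPair.h0, hker, hrange, AddSubgroup.relIndex_top_right, Int.index_zmultiples]
  simp

lemma pairZ_h1 {n : ℕ} (hn : n ≠ 0) : (pairZ n).h1 = 1 := by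
  rw [HerbrandPair.h1, AddSubgroup.relIndex_eq_one]
  intro x hx
  rw [AddMonoidHom.mem_ker] at hx
  simp only [pairZ, AddMonoidHom.smul_apply, AddMonoidHom.id_apply, smul_eq_mul,
    mul_eq_zero] at hx
  rcases hx with h | h
  · exact absurd (by exact_mod_cast h) hn
  · rw [h]; exact zero_mem _

end Fermat.Agent.H78.CFT
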