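/-
P-CFT / WP2 (local theory), row LOC-1: the unit group of `L` has trivial Herbrand quotient.
Mathlib + H24.Herbrand.
-/
import Fermat.Agent.H78.CFT.LocalOrd

set_option autoImplicit false
set_option linter.unusedSectionVars false

namespace Fermat.Agent.H78.CFT

open Fermat.Agent.H24

variable {K L : Type*} [Field K] [Field L] [Algebra K L] [FiniteDimensional K L] [IsGalois K L]
  {Γ₀ : Type*} [LinearOrderedCommGroupWithZero Γ₀] {v : Valuation L Γ₀}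
  (S : Setup (K := K) v)

namespace Setup

/-- an element fixed by the generator is fixed by the whole group -/
lemma aut_eq_of_σ {u : L} (h : S.σ u = u) (g : L ≃ₐ[K] L) : g u = u := by
  obtain ⟨i, -, rfl⟩ := exists_pow_eq_of_generator S.σ S.hσ g
  induction i with
  | zero => simp
  | succ k ih => rw [pow_succ, AlgEquiv.mul_apply, h, ih]

/-- a good level, which is a value of `v` -/
noncomputable def γ₀ : Γ₀ := S.ε * S.τ * (v S.cC)⁻¹

lemma good_γ₀ : S.Good S.γ₀ := by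
  unfold Good γ₀
  rw [mul_comm (S.ε * S.τ), ← mul_assoc, mul_inv_cancel₀ S.vC_ne_zero, one_mul]

variable {S}

/-- products of elements of `1 + Λ_γ` -/
lemma prod_mem {γ : Γ₀} (hγ : S.Good γ) {ι : Type*} (s : Finset ι) (x : ι → L)
    (h : ∀ i ∈ s, x i - 1 ∈ S.Lam γ) : ∏ i ∈ s, x i - 1 ∈ S.Lam γ := by
  classical
  induction s using Finset.induction_on with
  | empty => simp
  | insert a s ha ih =>
    rw [Finset.prod_insert ha]
    exact Setup.mul_mem hγ (h a (Finset.mem_insert_self a s))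
      (ih fun i hi => h i (Finset.mem_insert_of_mem hi))

variable (S)

/-- the subgroup `1 + Λ_γ`, additively -/
def HV (γ : Γ₀) (hγ : S.Good γ) : AddSubgroup (Additive Lˣ) where
  carrier := {a | ((a.toMul : Lˣ) : L) - 1 ∈ S.Lam γ}
  zero_mem' := by
    change ((1 : Lˣ) : L) - 1 ∈ S.Lam γ
    rw [Units.val_one, sub_self]; exact (S.Lam γ).zero_mem
  add_mem' := fun {a b} ha hb => by
    change ((a.toMul * b.toMul : Lˣ) : L) - 1 ∈ S.Lam γ
    rw [Units.val_mul]; exact Setup.mul_mem hγ ha hb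
  neg_mem' := fun {a} ha => by
    change (((a.toMul)⁻¹ : Lˣ) : L) - 1 ∈ S.Lam γ
    rw [Units.val_inv_eq_inv_val]; exact Setup.inv_mem hγ ha

lemma mem_HV {γ : Γ₀} {hγ : S.Good γ} {a : Additive Lˣ} :
    a ∈ S.HV γ hγ ↔ ((a.toMul : Lˣ) : L) - 1 ∈ S.Lam γ := Iff.rfl

lemma HV_le_HU {γ : Γ₀} (hγ : S.Good γ) : S.HV γ hγ ≤ HU v := fun _ ha =>
  Setup.v_eq_one_of_mem hγ ha

lemma v_units_ne_zero (_S : Setup (K := K) v) (u : Lˣ) : v (u : L) ≠ 0 :=
  (Valuation.ne_zero_iff v).2 u.ne_zero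

lemma v_Dm (u : Lˣ) : v ((Dm S.σ u : Lˣ) : L) = 1 := by
  rw [coe_Dm, map_mul, S.inv, map_inv₀, mul_inv_cancel₀ (S.v_units_ne_zero u)]

lemma v_Nm (S : Setup (K := K) v) (u : Lˣ) :
    v ((Nm (K := K) u : Lˣ) : L) = v (u : L) ^ Nat.card (L ≃ₐ[K] L) := by
  classical
  rw [coe_Nm, map_prod, Finset.prod_congr rfl (fun g _ => S.inv g (u : L)), Finset.prod_const,
    Finset.card_univ, Nat.card_eq_fintype_card]

lemma pairL_D_apply (a : Additive Lˣ) :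
    (pairL (K := K) S.σ).D a = Additive.ofMul (Dm S.σ a.toMul) := rfl

lemma pairL_N_apply (a : Additive Lˣ) :
    (pairL (K := K) S.σ).N a = Additive.ofMul (Nm (K := K) a.toMul) := rfl

lemma isStable_HU : (pairL (K := K) S.σ).IsStable (HU v) where
  D_mem a _ := S.v_Dm a.toMul
  N_mem a ha := by
    change v ((Nm (K := K) a.toMul : Lˣ) : L) = 1
    rw [S.v_Nm, mem_HU.1 ha, one_pow]

lemma isStable_HV {γ : Γ₀} (hγ : S.Good γ) : (pairL (K := K) S.σ).IsStable (S.HV γ hγ) where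
  D_mem a ha := by
    change ((Dm S.σ a.toMul : Lˣ) : L) - 1 ∈ S.Lam γ
    rw [coe_Dm]
    exact Setup.mul_mem hγ (Setup.aut_mem S.σ ha) (Setup.inv_mem hγ ha)
  N_mem a ha := by
    change ((Nm (K := K) a.toMul : Lˣ) : L) - 1 ∈ S.Lam γ
    rw [coe_Nm]
    exact prod_mem hγ _ _ fun g _ => Setup.aut_mem g ha

/-- `ord` is a morphism of Herbrand pairs. -/
lemma isHom_ordHom :
    HerbrandPair.IsHom (pairL (K := K) S.σ) (pairZ (Nat.card (L ≃ₐ[K] L))) S.ordHom where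
  comm_D a := by
    change S.ordU (Dm S.σ a.toMul) = 0
    exact (S.ordU_eq_zero_iff _).2 (S.v_Dm _)
  comm_N a := by
    change S.ordU (Nm (K := K) a.toMul) = (Nat.card (L ≃ₐ[K] L) : ℤ) • S.ordU a.toMul
    apply S.ordU_eq
    rw [S.v_Nm, S.v_eq_zpow_ordU, smul_eq_mul, mul_comm, zpow_mul, zpow_natCast]

/-- elements of value `< 1` have value at most `v ϖ` -/
lemma le_vϖ_of_lt_one {x : L} (h : v x < 1) : v x ≤ v S.ϖ := by
  by_cases hx : x = 0
  · rw [hx, map_zero]; exact zero_le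
  obtain ⟨n, hn⟩ := S.hϖ x hx
  rw [hn]
  have hn1 : 1 ≤ n := by
    by_contra hcon
    rw [not_le] at hcon
    have h1 : (1 : Γ₀) ≤ v S.ϖ ^ n := by
      obtain ⟨j, rfl⟩ : ∃ j : ℕ, n = -(j : ℤ) := ⟨(-n).toNat, by omega⟩
      rw [zpow_neg, zpow_natCast]
      exact (one_le_inv₀ (pow_pos S.vϖ_pos j)).2 (pow_le_one₀ zero_le S.hϖ1.le)
    rw [← hn] at h1
    exact absurd h (not_lt.2 h1)
  obtain ⟨j, rfl⟩ : ∃ j : ℕ, n = 1 + j := ⟨(n - 1).toNat, by omega⟩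
  rw [zpow_add₀ S.vϖ_ne_zero, zpow_one, zpow_natCast]
  exact mul_le_of_le_one_right zero_le (pow_le_one₀ zero_le S.hϖ1.le)

/-- finitely many representatives of the integers modulo `ϖ ^ m` -/
lemma exists_reps (m : ℕ) :
    ∃ R : Finset L, ∀ x : L, v x ≤ 1 → ∃ r ∈ R, v (x - r) ≤ v S.ϖ ^ m := by
  classical
  induction m with
  | zero =>
    refine ⟨{0}, fun x hx => ⟨0, Finset.mem_singleton_self 0, ?_⟩⟩
    rw [sub_zero, pow_zero]; exact hx
  | succ m ih =>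
    obtain ⟨Rm, hRm⟩ := ih
    obtain ⟨R, hR⟩ := S.resfin
    refine ⟨(Rm ×ˢ R).image fun p => p.1 + S.ϖ ^ m * p.2, fun x hx => ?_⟩
    obtain ⟨r, hr, hxr⟩ := hRm x hx
    have hϖm : S.ϖ ^ m ≠ 0 := pow_ne_zero m S.hϖ0
    have hvϖm : v (S.ϖ ^ m) ≠ 0 := (Valuation.ne_zero_iff v).2 hϖm
    have hy : v ((x - r) * (S.ϖ ^ m)⁻¹) ≤ 1 := by
      rw [map_mul, map_inv₀, map_pow]
      rw [map_pow] at hvϖm
      calc v (x - r) * (v S.ϖ ^ m)⁻¹ ≤ v S.ϖ ^ m * (v S.ϖ ^ m)⁻¹ := mul_le_mul' hxr le_rfl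
        _ = 1 := mul_inv_cancel₀ hvϖm
    obtain ⟨s, hs, hys⟩ := hR _ hy
    refine ⟨r + S.ϖ ^ m * s, Finset.mem_image.2 ⟨(r, s), Finset.mem_product.2 ⟨hr, hs⟩, rfl⟩, ?_⟩
    have e : x - (r + S.ϖ ^ m * s) = S.ϖ ^ m * ((x - r) * (S.ϖ ^ m)⁻¹ - s) := by
      field_simp
      ring
    rw [e, map_mul, map_pow, pow_succ]
    exact mul_le_mul' le_rfl (S.le_vϖ_of_lt_one hys)

/-- `1 + Λ_γ` has finite index in the unit group. -/
lemma relIndex_HV_ne_zero {γ : Γ₀} (hγ : S.Good γ) (hm : ∃ m : ℕ, v S.cC * v S.ϖ ^ m ≤ γ) :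
    (S.HV γ hγ).relIndex (HU v) ≠ 0 := by
  classical
  obtain ⟨m, hm⟩ := hm
  obtain ⟨R, hR⟩ := S.exists_reps m
  have hch : ∀ a : HU v, ∃ r : R, v ((((a : Additive Lˣ).toMul : Lˣ) : L) - (r : L)) ≤ v S.ϖ ^ m := by
    intro a
    obtain ⟨r, hr, h⟩ := hR ((((a : Additive Lˣ).toMul : Lˣ) : L)) (le_of_eq a.2)
    exact ⟨⟨r, hr⟩, h⟩
  choose φ hφ using hch
  have key : ∀ a b : HU v, φ a = φ b → -a + b ∈ (S.HV γ hγ).addSubgroupOf (HU v) := by
    intro a b hab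
    rw [AddSubgroup.mem_addSubgroupOf]
    change ((((a : Additive Lˣ).toMul)⁻¹ * (b : Additive Lˣ).toMul : Lˣ) : L) - 1 ∈ S.Lam γ
    set ua : Lˣ := (a : Additive Lˣ).toMul with hua
    set ub : Lˣ := (b : Additive Lˣ).toMul with hub
    have hva : v (ua : L) = 1 := a.2
    have h1 : v ((ub : L) - (ua : L)) ≤ v S.ϖ ^ m := by
      have e : (ub : L) - (ua : L) = ((ub : L) - (φ b : L)) - ((ua : L) - (φ a : L)) := by
        rw [hab]; ring
      rw [e]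
      exact v_sub_le v (hφ b) (hφ a)
    apply S.mem_Lam_of_v_le
    have e : ((ua⁻¹ * ub : Lˣ) : L) - 1 = ((ub : L) - (ua : L)) * (ua : L)⁻¹ := by
      rw [Units.val_mul, Units.val_inv_eq_inv_val]
      field_simp
    rw [e, map_mul, map_inv₀, hva, inv_one, mul_one]
    exact (mul_le_mul' le_rfl h1).trans hm
  have hfin : Finite ((HU v) ⧸ (S.HV γ hγ).addSubgroupOf (HU v)) := by
    refine Finite.of_injective (fun q => φ (Quotient.out q)) ?_
    intro q q' hqq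
    have := key _ _ hqq
    have h2 : ((Quotient.out q : HU v) : (HU v) ⧸ (S.HV γ hγ).addSubgroupOf (HU v))
        = ((Quotient.out q' : HU v) : (HU v) ⧸ (S.HV γ hγ).addSubgroupOf (HU v)) :=
      QuotientAddGroup.eq.2 this
    rw [QuotientAddGroup.out_eq', QuotientAddGroup.out_eq'] at h2
    exact h2
  exact AddSubgroup.index_ne_zero_of_finite

lemma exists_pow_le_γ₀ : ∃ m : ℕ, v S.cC * v S.ϖ ^ m ≤ S.γ₀ := by
  have hC0 : S.cC ≠ 0 := fun h => S.vC_ne_zero (by rw [h, map_zero])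
  have hπ0 : algebraMap K L S.π ≠ 0 := by simpa using S.hπ0
  have hx0 : algebraMap K L S.π * S.t * S.cC⁻¹ * S.cC⁻¹ ≠ 0 :=
    mul_ne_zero (mul_ne_zero (mul_ne_zero hπ0 S.t_ne_zero) (inv_ne_zero hC0)) (inv_ne_zero hC0)
  obtain ⟨m, hm⟩ := exists_pow_le_of_unif S.hϖ0 S.hϖ1 S.hϖ S.hϖ0 S.hϖ1 hx0
  refine ⟨m, ?_⟩
  rw [map_mul, map_mul, map_mul, map_inv₀] at hm
  have : v S.cC * v S.ϖ ^ m ≤ v S.cC * (v (algebraMap K L S.π) * v S.t * (v S.cC)⁻¹ * (v S.cC)⁻¹) :=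
    mul_le_mul' le_rfl hm
  refine this.trans (le_of_eq ?_)
  unfold γ₀ ε τ
  rw [mul_comm (v S.cC), mul_assoc, inv_mul_cancel₀ S.vC_ne_zero, mul_one]

end Setup

end Fermat.Agent.H78.CFT
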