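/-
P-CFT / WP2 (local theory), row LOC-1: **the local norm index theorem**
`[Kˣ : N_{L/K} Lˣ] = [L : K]` for a cyclic extension carrying a `LocalNormDatum`.
Mathlib + H24.Herbrand.
-/
import Fermat.Agent.H78.CFT.LocalUnits

set_option autoImplicit false
set_option linter.unusedSectionVars false

namespace Fermat.Agent.H78.CFT

open Fermat.Agent.H24

variable {K L : Type*} [Field K] [Field L] [Algebra K L] [FiniteDimensional K L] [IsGalois K L]
  {Γ₀ : Type*} [LinearOrderedCommGroupWithZero Γ₀] {v : Valuation L Γ₀}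
  (S : Setup (K := K) v)

namespace Setup

/-- the Herbrand pair of the unit group -/
noncomputable def pairU : HerbrandPair (HU v) := (pairL (K := K) S.σ).restrict (HU v) S.isStable_HU

/-- `1 + Λ_γ` inside the unit group -/
def HV' (γ : Γ₀) (hγ : S.Good γ) : AddSubgroup (HU v) := (S.HV γ hγ).addSubgroupOf (HU v)

lemma isStable_HV' {γ : Γ₀} (hγ : S.Good γ) : S.pairU.IsStable (S.HV' γ hγ) where
  D_mem a ha := (S.isStable_HV hγ).D_mem (a : Additive Lˣ) ha
  N_mem a ha := (S.isStable_HV hγ).N_mem (a : Additive Lˣ) ha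

/-- the Herbrand pair of `1 + Λ_γ` -/
noncomputable def pairV (γ : Γ₀) (hγ : S.Good γ) : HerbrandPair (S.HV' γ hγ) :=
  S.pairU.restrict (S.HV' γ hγ) (S.isStable_HV' hγ)

lemma pairV_h0 {γ : Γ₀} (hγ : S.Good γ) : (S.pairV γ hγ).h0 = 1 := by
  rw [HerbrandPair.h0, AddSubgroup.relIndex_eq_one]
  rintro ⟨⟨a, haU⟩, haV⟩ hx
  have hx' : (pairL (K := K) S.σ).D a = 0 := by
    have := congrArg (fun z : S.HV' γ hγ => ((z : HU v) : Additive Lˣ)) (AddMonoidHom.mem_ker.1 hx)
    exact this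
  have haV' : ((a.toMul : Lˣ) : L) - 1 ∈ S.Lam γ := haV
  have hD : Dm S.σ a.toMul = 1 := hx'
  have hσu : S.σ ((a.toMul : Lˣ) : L) = ((a.toMul : Lˣ) : L) := by
    have := congrArg (fun z : Lˣ => (z : L)) hD
    simp only [coe_Dm, Units.val_one] at this
    have h0 : ((a.toMul : Lˣ) : L) ≠ 0 := Units.ne_zero _
    field_simp at this
    exact this
  obtain ⟨w, hw, hNw⟩ := h0_vanish hγ haV' (S.aut_eq_of_σ hσu)
  have hw0 : w ≠ 0 := Setup.ne_zero_of_mem hγ hw
  have hbV : Additive.ofMul (Units.mk0 w hw0) ∈ S.HV γ hγ := hw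
  have hbU : Additive.ofMul (Units.mk0 w hw0) ∈ HU v := S.HV_le_HU hγ hbV
  refine ⟨⟨⟨Additive.ofMul (Units.mk0 w hw0), hbU⟩, hbV⟩, ?_⟩
  apply Subtype.ext
  apply Subtype.ext
  change Additive.ofMul (Nm (K := K) (Units.mk0 w hw0)) = a
  have : Nm (K := K) (Units.mk0 w hw0) = a.toMul := by
    apply Units.ext
    rw [coe_Nm]
    exact hNw
  rw [this]; rfl

lemma pairV_h1 {γ : Γ₀} (hγ : S.Good γ) : (S.pairV γ hγ).h1 = 1 := by
  rw [HerbrandPair.h1, AddSubgroup.relIndex_eq_one]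
  rintro ⟨⟨a, haU⟩, haV⟩ hx
  have hx' : (pairL (K := K) S.σ).N a = 0 := by
    have := congrArg (fun z : S.HV' γ hγ => ((z : HU v) : Additive Lˣ)) (AddMonoidHom.mem_ker.1 hx)
    exact this
  have haV' : ((a.toMul : Lˣ) : L) - 1 ∈ S.Lam γ := haV
  have hN : Nm (K := K) a.toMul = 1 := hx'
  have hNu : ∏ g : L ≃ₐ[K] L, g ((a.toMul : Lˣ) : L) = 1 := by
    have := congrArg (fun z : Lˣ => (z : L)) hN
    simpa only [coe_Nm, Units.val_one] using this
  obtain ⟨w, hw, huw⟩ := h1_vanish hγ haV' hNu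
  have hw0 : w ≠ 0 := Setup.ne_zero_of_mem hγ hw
  have hwi : w⁻¹ - 1 ∈ S.Lam γ := Setup.inv_mem hγ hw
  have hbV : Additive.ofMul (Units.mk0 w hw0)⁻¹ ∈ S.HV γ hγ := by
    change (((Units.mk0 w hw0)⁻¹ : Lˣ) : L) - 1 ∈ S.Lam γ
    rw [Units.val_inv_eq_inv_val, Units.val_mk0]
    exact hwi
  have hbU : Additive.ofMul (Units.mk0 w hw0)⁻¹ ∈ HU v := S.HV_le_HU hγ hbV
  refine ⟨⟨⟨Additive.ofMul (Units.mk0 w hw0)⁻¹, hbU⟩, hbV⟩, ?_⟩
  apply Subtype.ext
  apply Subtype.ext
  change Additive.ofMul (Dm S.σ (Units.mk0 w hw0)⁻¹) = a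
  have : Dm S.σ (Units.mk0 w hw0)⁻¹ = a.toMul := by
    apply Units.ext
    rw [coe_Dm, Units.val_inv_eq_inv_val, Units.val_mk0, inv_inv, map_inv₀]
    have hσw0 : S.σ w ≠ 0 := by simpa using hw0
    calc (S.σ w)⁻¹ * w = (S.σ w)⁻¹ * (((a.toMul : Lˣ) : L) * S.σ w) := by rw [huw]
      _ = ((a.toMul : Lˣ) : L) := by field_simp
  rw [this]; rfl

/-- the unit group has trivial Herbrand quotient -/
lemma pairU_h0_eq_h1 : S.pairU.h0 = S.pairU.h1 ∧ S.pairU.h0 ≠ 0 := by
  have hfin : (S.HV' S.γ₀ S.good_γ₀).index ≠ 0 :=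
    S.relIndex_HV_ne_zero S.good_γ₀ S.exists_pow_le_γ₀
  obtain ⟨h1, h2⟩ := S.pairU.finiteIndex (S.HV' S.γ₀ S.good_γ₀) (S.isStable_HV' S.good_γ₀) hfin
  have e0 : (S.pairU.restrict (S.HV' S.γ₀ S.good_γ₀) (S.isStable_HV' S.good_γ₀)).h0 = 1 :=
    S.pairV_h0 S.good_γ₀
  have e1 : (S.pairU.restrict (S.HV' S.γ₀ S.good_γ₀) (S.isStable_HV' S.good_γ₀)).h1 = 1 :=
    S.pairV_h1 S.good_γ₀
  rw [e0, e1, mul_one, mul_one] at h1
  rw [e0, e1] at h2
  exact ⟨h1, (h2.2 ⟨one_ne_zero, one_ne_zero⟩).1⟩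

end Setup

end Fermat.Agent.H78.CFT

namespace Fermat.Agent.H78.CFT

open Fermat.Agent.H24

variable {K L : Type} [Field K] [Field L] [Algebra K L] [FiniteDimensional K L] [IsGalois K L]
  {Γ₀ : Type*} [LinearOrderedCommGroupWithZero Γ₀] {v : Valuation L Γ₀}
  (S : Setup (K := K) v)

namespace Setup

/-- Hilbert 90 -/
lemma pairL_h1 : (pairL (K := K) S.σ).h1 = 1 := by
  have : IsCyclic (L ≃ₐ[K] L) := ⟨⟨S.σ, S.hσ⟩⟩
  rw [HerbrandPair.h1, AddSubgroup.relIndex_eq_one]
  intro a ha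
  have hN : Nm (K := K) a.toMul = 1 := AddMonoidHom.mem_ker.1 ha
  have hnorm : Algebra.norm K ((a.toMul : Lˣ) : L) = 1 := by
    apply (algebraMap K L).injective
    rw [Algebra.norm_eq_prod_automorphisms, map_one, ← coe_Nm, hN, Units.val_one]
  obtain ⟨y, hy⟩ := groupCohomology.exists_div_of_norm_eq_one (K := K) (g := S.σ) S.hσ hnorm
  refine ⟨Additive.ofMul y⁻¹, ?_⟩
  change Additive.ofMul (Dm S.σ y⁻¹) = a
  have : Dm S.σ y⁻¹ = a.toMul := by
    apply Units.ext
    rw [coe_Dm, Units.val_inv_eq_inv_val, inv_inv, map_inv₀, ← hy]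
    have hσy0 : S.σ (y : L) ≠ 0 := by simp
    field_simp
  rw [this]; rfl

/-- the Herbrand index `h0` of `Lˣ` is the degree -/
lemma pairL_h0 : (pairL (K := K) S.σ).h0 = Nat.card (L ≃ₐ[K] L) := by
  have hex := HerbrandPair.hexagon ((pairL (K := K) S.σ).isHom_subtype (HU v) S.isStable_HU)
    S.isHom_ordHom (HU v).subtype_injective S.ordHom_surjective
    (by rw [AddSubgroup.range_subtype, S.ker_ordHom])
  obtain ⟨e, e0⟩ := S.pairU_h0_eq_h1
  have hn : Nat.card (L ≃ₐ[K] L) ≠ 0 := Nat.card_pos.ne'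
  rw [S.pairL_h1, pairZ_h0, pairZ_h1 hn, mul_one, one_mul] at hex
  change (pairL (K := K) S.σ).h0 * S.pairU.h1 = S.pairU.h0 * Nat.card (L ≃ₐ[K] L) at hex
  rw [← e, mul_comm] at hex
  exact Nat.eq_of_mul_eq_mul_left (Nat.pos_of_ne_zero e0) hex

/-- the embedding `Kˣ → Lˣ` -/
def ιU (K L : Type*) [Field K] [Field L] [Algebra K L] : Kˣ →* Lˣ :=
  Units.map (algebraMap K L : K →* L)

lemma ιU_injective : Function.Injective (ιU K L) := by
  intro x y h
  apply Units.ext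
  apply (algebraMap K L).injective
  exact congrArg (fun z : Lˣ => (z : L)) h

lemma ker_D_eq (S : Setup (K := K) v) : (pairL (K := K) S.σ).D.ker
    = Subgroup.toAddSubgroup ((⊤ : Subgroup Kˣ).map (ιU K L)) := by
  ext a
  rw [AddMonoidHom.mem_ker]
  constructor
  · intro h
    have hD : Dm S.σ a.toMul = 1 := h
    have hσu : S.σ ((a.toMul : Lˣ) : L) = ((a.toMul : Lˣ) : L) := by
      have := congrArg (fun z : Lˣ => (z : L)) hD
      simp only [coe_Dm, Units.val_one] at this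
      have h0 : ((a.toMul : Lˣ) : L) ≠ 0 := Units.ne_zero _
      field_simp at this
      exact this
    obtain ⟨c, hc⟩ := (IsGalois.mem_range_algebraMap_iff_fixed (F := K) _).2 (S.aut_eq_of_σ hσu)
    have hc0 : c ≠ 0 := by
      rintro rfl
      rw [map_zero] at hc
      exact (Units.ne_zero (a.toMul)) hc.symm
    refine ⟨Units.mk0 c hc0, Subgroup.mem_top _, ?_⟩
    apply Units.ext
    exact hc
  · rintro ⟨c, -, hc⟩
    change Additive.ofMul (Dm S.σ a.toMul) = 0
    have : Dm S.σ a.toMul = 1 := by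
      apply Units.ext
      have hca : ((a.toMul : Lˣ) : L) = algebraMap K L (c : K) :=
        (congrArg (fun z : Lˣ => (z : L)) hc).symm
      rw [coe_Dm, hca, AlgEquiv.commutes, Units.val_one]
      have : algebraMap K L (c : K) ≠ 0 := by simp
      field_simp
    rw [this]; rfl

lemma range_N_eq (S : Setup (K := K) v) : (pairL (K := K) S.σ).N.range
    = Subgroup.toAddSubgroup ((normSubgroup K L).map (ιU K L)) := by
  have key : ∀ w : Lˣ, ιU K L (Units.map (Algebra.norm K : L →* K) w) = Nm (K := K) w := by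
    intro w
    apply Units.ext
    rw [coe_Nm, ← Algebra.norm_eq_prod_automorphisms]
    rfl
  ext a
  constructor
  · rintro ⟨b, rfl⟩
    exact ⟨Units.map (Algebra.norm K : L →* K) b.toMul, ⟨b.toMul, rfl⟩, key _⟩
  · rintro ⟨_, ⟨w, rfl⟩, hc⟩
    refine ⟨Additive.ofMul w, ?_⟩
    change Additive.ofMul (Nm (K := K) w) = a
    rw [← key, hc]; rfl

/-- the norm index -/
theorem index_normSubgroup (S : Setup (K := K) v) :
    (normSubgroup K L).index = Module.finrank K L := by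
  have h := S.pairL_h0
  rw [HerbrandPair.h0, S.ker_D_eq, S.range_N_eq, Subgroup.relIndex_toAddSubgroup,
    Subgroup.relIndex_map_map_of_injective _ _ ιU_injective, Subgroup.relIndex_top_right] at h
  rw [h, IsGalois.card_aut_eq_finrank]

end Setup

/-- **The local norm index theorem.** -/
theorem normIndex : NormIndexStatement := by
  intro K L _ _ _ _ _ _ Γ₀ _ v h
  obtain ⟨S⟩ := nonempty_setup h
  exact S.index_normSubgroup

/-- The local norm index theorem, with implicit arguments (fields in `Type`, value group in any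
universe). -/
theorem normSubgroup_index {K L : Type} [Field K] [Field L] [Algebra K L]
    [FiniteDimensional K L] [IsGalois K L] [IsCyclic (L ≃ₐ[K] L)]
    {Γ₀ : Type*} [LinearOrderedCommGroupWithZero Γ₀] {v : Valuation L Γ₀}
    (h : LocalNormDatum K L v) : (normSubgroup K L).index = Module.finrank K L := by
  obtain ⟨S⟩ := nonempty_setup h
  exact S.index_normSubgroup

end Fermat.Agent.H78.CFT
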