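/-
P-CFT / WP2 (local theory), row LOC-1: the local norm index theorem, UNIVERSE POLYMORPHIC
(`K L : Type*`), and the openness of the norm group.
Mathlib + H24.Herbrand + H97.Cft.Hilbert90Cyclic.
-/
import Fermat.Agent.H78.CFT.LocalNormIndex
import Fermat.Agent.H97.Cft.Hilbert90Cyclic

set_option autoImplicit false
set_option linter.unusedSectionVars false

namespace Fermat.Agent.H78.CFT

open Fermat.Agent.H24

variable {K L : Type*} [Field K] [Field L] [Algebra K L] [FiniteDimensional K L] [IsGalois K L]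
  {Γ₀ : Type*} [LinearOrderedCommGroupWithZero Γ₀] {v : Valuation L Γ₀}
  (S : Setup (K := K) v)

namespace Setup

/-- Hilbert 90 (universe polymorphic) -/
lemma pairL_h1U : (pairL (K := K) S.σ).h1 = 1 := by
  rw [HerbrandPair.h1, AddSubgroup.relIndex_eq_one]
  intro a ha
  have hN : Nm (K := K) a.toMul = 1 := AddMonoidHom.mem_ker.1 ha
  have hnorm : Algebra.norm K ((a.toMul : Lˣ) : L) = 1 := by
    apply (algebraMap K L).injective
    rw [Algebra.norm_eq_prod_automorphisms, map_one, ← coe_Nm, hN, Units.val_one]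
  obtain ⟨y, hy⟩ := Fermat.Agent.H97.hilbert90_cyclic S.σ S.hσ a.toMul hnorm
  refine ⟨Additive.ofMul y, ?_⟩
  change Additive.ofMul (Dm S.σ y) = a
  have : Dm S.σ y = a.toMul := by
    apply Units.ext
    rw [coe_Dm, hy, div_eq_mul_inv]
  rw [this]; rfl

/-- the Herbrand index `h0` of `Lˣ` is the degree -/
lemma pairL_h0U : (pairL (K := K) S.σ).h0 = Nat.card (L ≃ₐ[K] L) := by
  have hex := HerbrandPair.hexagon ((pairL (K := K) S.σ).isHom_subtype (HU v) S.isStable_HU)
    S.isHom_ordHom (HU v).subtype_injective S.ordHom_surjective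
    (by rw [AddSubgroup.range_subtype, S.ker_ordHom])
  obtain ⟨e, e0⟩ := S.pairU_h0_eq_h1
  have hn : Nat.card (L ≃ₐ[K] L) ≠ 0 := Nat.card_pos.ne'
  rw [S.pairL_h1U, pairZ_h0, pairZ_h1 hn, mul_one, one_mul] at hex
  change (pairL (K := K) S.σ).h0 * S.pairU.h1 = S.pairU.h0 * Nat.card (L ≃ₐ[K] L) at hex
  rw [← e, mul_comm] at hex
  exact Nat.eq_of_mul_eq_mul_left (Nat.pos_of_ne_zero e0) hex

lemma ιU_injectiveU : Function.Injective (ιU K L) := by
  intro x y h
  apply Units.ext
  apply (algebraMap K L).injective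
  exact congrArg (fun z : Lˣ => (z : L)) h

lemma ker_D_eqU (S : Setup (K := K) v) : (pairL (K := K) S.σ).D.ker
    = Subgroup.toAddSubgroup ((⊤ : Subgroup Kˣ).map (ιU K L)) := by
  ext a
  rw [AddMonoidHom.mem_ker]
  constructor
  · intro h
    have hD : Dm S.σ a.toMul = 1 := h
    have hσu : S.σ ((a.toMul : Lˣ) : L) = ((a.toMul : Lˣ) : L) := by
      have := congrArg (fun z : Lˣ => (z : L)) hD
      simp only [coe_Dm, Units.val_one] at this
      have h0 : ((a.toMul : Lˣ) : L) ≠ 0 := Units.ne_zero _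
      field_simp at this
      exact this
    obtain ⟨c, hc⟩ := (IsGalois.mem_range_algebraMap_iff_fixed (F := K) _).2 (S.aut_eq_of_σ hσu)
    have hc0 : c ≠ 0 := by
      rintro rfl
      rw [map_zero] at hc
      exact (Units.ne_zero (a.toMul)) hc.symm
    refine ⟨Units.mk0 c hc0, Subgroup.mem_top _, ?_⟩
    apply Units.ext
    exact hc
  · rintro ⟨c, -, hc⟩
    change Additive.ofMul (Dm S.σ a.toMul) = 0
    have : Dm S.σ a.toMul = 1 := by
      apply Units.ext
      have hca : ((a.toMul : Lˣ) : L) = algebraMap K L (c : K) :=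
        (congrArg (fun z : Lˣ => (z : L)) hc).symm
      rw [coe_Dm, hca, AlgEquiv.commutes, Units.val_one]
      have : algebraMap K L (c : K) ≠ 0 := by simp
      field_simp
    rw [this]; rfl

lemma range_N_eqU (S : Setup (K := K) v) : (pairL (K := K) S.σ).N.range
    = Subgroup.toAddSubgroup ((normSubgroup K L).map (ιU K L)) := by
  have key : ∀ w : Lˣ, ιU K L (Units.map (Algebra.norm K : L →* K) w) = Nm (K := K) w := by
    intro w
    apply Units.ext
    rw [coe_Nm, ← Algebra.norm_eq_prod_automorphisms]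
    rfl
  ext a
  constructor
  · rintro ⟨b, rfl⟩
    exact ⟨Units.map (Algebra.norm K : L →* K) b.toMul, ⟨b.toMul, rfl⟩, key _⟩
  · rintro ⟨_, ⟨w, rfl⟩, hc⟩
    refine ⟨Additive.ofMul w, ?_⟩
    change Additive.ofMul (Nm (K := K) w) = a
    rw [← key, hc]; rfl

/-- the norm index (universe polymorphic) -/
theorem index_normSubgroupU (S : Setup (K := K) v) :
    (normSubgroup K L).index = Module.finrank K L := by
  have h := S.pairL_h0U
  rw [HerbrandPair.h0, S.ker_D_eqU, S.range_N_eqU, Subgroup.relIndex_toAddSubgroup,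
    Subgroup.relIndex_map_map_of_injective _ _ ιU_injectiveU, Subgroup.relIndex_top_right] at h
  rw [h, IsGalois.card_aut_eq_finrank]

/-- **Openness of the norm group**: elements of `K` close to `1` are norms. -/
theorem mem_normSubgroup_of_close (S : Setup (K := K) v) (c : Kˣ)
    (hc : v S.cC * v (algebraMap K L ((c : K) - 1)) ≤ S.γ₀) : c ∈ normSubgroup K L := by
  have hmem : algebraMap K L (c : K) - 1 ∈ S.Lam S.γ₀ := by
    apply S.mem_Lam_of_v_le
    rwa [map_sub, map_one] at hc
  obtain ⟨w, hw, hNw⟩ := h0_vanish S.good_γ₀ hmem (fun g => g.commutes _)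
  have hw0 : w ≠ 0 := Setup.ne_zero_of_mem S.good_γ₀ hw
  refine ⟨Units.mk0 w hw0, ?_⟩
  apply Units.ext
  apply (algebraMap K L).injective
  change algebraMap K L (Algebra.norm K w) = algebraMap K L (c : K)
  rw [Algebra.norm_eq_prod_automorphisms]
  exact hNw

end Setup

/-- **The local norm index theorem**, universe polymorphic. -/
theorem normSubgroup_indexU {K L : Type*} [Field K] [Field L] [Algebra K L]
    [FiniteDimensional K L] [IsGalois K L] [IsCyclic (L ≃ₐ[K] L)]
    {Γ₀ : Type*} [LinearOrderedCommGroupWithZero Γ₀] {v : Valuation L Γ₀}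
    (h : LocalNormDatum K L v) : (normSubgroup K L).index = Module.finrank K L := by
  obtain ⟨S⟩ := nonempty_setup h
  exact S.index_normSubgroupU

/-- **Openness of the norm group**: there is `γ ≠ 0` such that every `c ∈ Kˣ` with
`v (c - 1) ≤ γ` is a norm from `L`. -/
theorem exists_norm_nhds {K L : Type*} [Field K] [Field L] [Algebra K L]
    [FiniteDimensional K L] [IsGalois K L] [IsCyclic (L ≃ₐ[K] L)]
    {Γ₀ : Type*} [LinearOrderedCommGroupWithZero Γ₀] {v : Valuation L Γ₀}
    (h : LocalNormDatum K L v) :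
    ∃ γ : Γ₀, γ ≠ 0 ∧ ∀ c : Kˣ, v (algebraMap K L ((c : K) - 1)) ≤ γ → c ∈ normSubgroup K L := by
  obtain ⟨S⟩ := nonempty_setup h
  refine ⟨S.γ₀ * (v S.cC)⁻¹, ?_, fun c hc => S.mem_normSubgroup_of_close c ?_⟩
  · unfold Setup.γ₀
    exact mul_ne_zero (mul_ne_zero (mul_ne_zero S.ε_ne_zero S.τ_ne_zero)
      (inv_ne_zero S.vC_ne_zero)) (inv_ne_zero S.vC_ne_zero)
  · calc v S.cC * v (algebraMap K L ((c : K) - 1)) ≤ v S.cC * (S.γ₀ * (v S.cC)⁻¹) :=
          mul_le_mul' le_rfl hc
      _ = S.γ₀ := by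
          rw [mul_comm S.γ₀, ← mul_assoc, mul_inv_cancel₀ S.vC_ne_zero, one_mul]

/-- The universe polymorphic statement of the local norm index theorem. -/
def NormIndexStatementU.{a, b, c} : Prop :=
  ∀ (K : Type a) (L : Type b) [Field K] [Field L] [Algebra K L] [FiniteDimensional K L]
    [IsGalois K L] [IsCyclic (L ≃ₐ[K] L)] (Γ₀ : Type c) [LinearOrderedCommGroupWithZero Γ₀]
    (v : Valuation L Γ₀), LocalNormDatum K L v →
      (normSubgroup K L).index = Module.finrank K L

theorem normIndexU.{a, b, c} : NormIndexStatementU.{a, b, c} := by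
  intro K L _ _ _ _ _ _ Γ₀ _ v h
  exact normSubgroup_indexU h

end Fermat.Agent.H78.CFT
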