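/-
P-CFT / LOCAL, row LOC-11 (helper78): the cup product `H¹ × H¹ → H²` of a local field is
nondegenerate, from `CupNormStatement`, `KummerEStatement` and the local norm index theorem.
-/
import Fermat.Agent.H78.CFT.LocalRows
import Fermat.Agent.H78.CFT.LocalNormIndexU
import Fermat.Agent.H81.Local.LocalDatum

set_option autoImplicit false

namespace Fermat.Agent.H78.CFT

open Fermat.Agent.H13.Cft Polynomial

section skew

variable {G : Type} [Group G] (𝒰 : LevelSys G) {p : ℕ}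

lemma IsLvl₁.add_lvl {A : Type} [AddCommGroup A] {x y : G → A} (hx : IsLvl₁ 𝒰 x)
    (hy : IsLvl₁ 𝒰 y) : IsLvl₁ 𝒰 (fun g => x g + y g) := by
  obtain ⟨N, hN, h1⟩ := hx
  obtain ⟨N', hN', h2⟩ := hy
  obtain ⟨N'', hN'', hle⟩ := 𝒰.directed N hN N' hN'
  refine ⟨N'', hN'', fun g n hn => ?_⟩
  change x (g * n) + y (g * n) = x g + y g
  rw [h1 g n (hle.trans inf_le_left hn), h2 g n (hle.trans inf_le_right hn)]

lemma IsLvl₁.mul_lvl {x y : G → ZMod p} (hx : IsLvl₁ 𝒰 x)
    (hy : IsLvl₁ 𝒰 y) : IsLvl₁ 𝒰 (fun g => x g * y g) := by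
  obtain ⟨N, hN, h1⟩ := hx
  obtain ⟨N', hN', h2⟩ := hy
  obtain ⟨N'', hN'', hle⟩ := 𝒰.directed N hN N' hN'
  refine ⟨N'', hN'', fun g n hn => ?_⟩
  change x (g * n) * y (g * n) = x g * y g
  rw [h1 g n (hle.trans inf_le_left hn), h2 g n (hle.trans inf_le_right hn)]

lemma IsLvl₁.neg_lvl {A : Type} [AddCommGroup A] {x : G → A} (hx : IsLvl₁ 𝒰 x) :
    IsLvl₁ 𝒰 (fun g => - x g) := by
  obtain ⟨N, hN, h1⟩ := hx
  refine ⟨N, hN, fun g n hn => ?_⟩
  change - x (g * n) = - x g
  rw [h1 g n hn]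

/-- Skew-symmetry of the cup product of two homomorphisms. -/
theorem cup_swap_coboundary {χ ψ : G → ZMod p} (hχ : IsLvlHom 𝒰 χ) (hψ : IsLvlHom 𝒰 ψ)
    (h : IsLvlCoboundary₂ 𝒰 (fun x : G × G => χ x.1 * ψ x.2)) :
    IsLvlCoboundary₂ 𝒰 (fun x : G × G => ψ x.1 * χ x.2) := by
  obtain ⟨x, hx, hxc⟩ := h
  refine ⟨fun g => -(χ g * ψ g) + - x g,
    IsLvl₁.add_lvl 𝒰 (IsLvl₁.neg_lvl 𝒰 (IsLvl₁.mul_lvl 𝒰 hχ.2 hψ.2)) (IsLvl₁.neg_lvl 𝒰 hx), ?_⟩
  intro g h
  have h1 := hxc g h
  simp only at h1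
  simp only [hχ.1 g h, hψ.1 g h]
  linear_combination (-1 : ZMod p) * h1

end skew

section kummer

/-- A Kummer extension `E(α) / E` of prime degree. -/
theorem kummer_adjoin_props {p : ℕ} (hp : p.Prime) (E : IntermediateField ℚ Qb) {ζ : Qb}
    (hζ : IsPrimitiveRoot ζ p) (hζE : ζ ∈ E) {α : Qb} (hα0 : α ≠ 0) (hαp : α ^ p ∈ E)
    (hαE : α ∉ E) :
    ∃ (_ : FiniteDimensional E (IntermediateField.adjoin E {α}))
      (_ : IsGalois E (IntermediateField.adjoin E {α})),
      Module.finrank E (IntermediateField.adjoin E {α}) = p := by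
  have : NeZero p := ⟨hp.ne_zero⟩
  set a : E := ⟨α ^ p, hαp⟩ with ha
  have key : ∀ r s : Qb, s ≠ 0 → r ^ p = s ^ p → ∃ i : ℕ, r = ζ ^ i * s := by
    intro r s hs hr
    have h1 : (r / s) ^ p = 1 := by
      rw [div_pow, hr, div_self (pow_ne_zero p hs)]
    obtain ⟨i, -, hi⟩ := hζ.eq_pow_of_pow_eq_one h1
    refine ⟨i, ?_⟩
    rw [hi, div_mul_cancel₀ r hs]
  have hirr : Irreducible (X ^ p - C a : (E)[X]) := by
    apply X_pow_sub_C_irreducible_of_prime hp
    intro b hb
    apply hαE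
    have hb' : (b : Qb) ^ p = α ^ p := by
      have := congrArg (fun z : E => (z : Qb)) hb
      simpa [ha] using this
    have hb0 : (b : Qb) ≠ 0 := by
      intro h0
      rw [h0, zero_pow hp.ne_zero] at hb'
      exact pow_ne_zero p hα0 hb'.symm
    obtain ⟨i, hi⟩ := key α (b : Qb) hb0 hb'.symm
    rw [hi]
    exact E.mul_mem (pow_mem hζE i) b.2
  have hroot : aeval α (X ^ p - C a : (E)[X]) = 0 := by
    simp [ha]
  have hmonic : (X ^ p - C a : (E)[X]).Monic := monic_X_pow_sub_C a hp.ne_zero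
  have hint : IsIntegral E α := ⟨_, hmonic, hroot⟩
  have hmin : (X ^ p - C a : (E)[X]) = minpoly E α :=
    minpoly.eq_of_irreducible_of_monic hirr hroot hmonic
  have hfr : Module.finrank E (IntermediateField.adjoin E {α}) = p := by
    rw [IntermediateField.adjoin.finrank hint, ← hmin, natDegree_X_pow_sub_C]
  have hfd : FiniteDimensional E (IntermediateField.adjoin E {α}) :=
    IntermediateField.adjoin.finiteDimensional hint
  have hsplit : ((X ^ p - C a : (E)[X]).map (algebraMap E Qb)).Splits :=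
    IsAlgClosed.splits _
  have hF : IntermediateField.adjoin E {α}
      = IntermediateField.adjoin E ((X ^ p - C a : (E)[X]).rootSet Qb) := by
    apply le_antisymm
    · rw [IntermediateField.adjoin_simple_le_iff]
      apply IntermediateField.subset_adjoin
      rw [mem_rootSet_of_ne (X_pow_sub_C_ne_zero hp.pos a)]
      exact hroot
    · rw [IntermediateField.adjoin_le_iff]
      intro r hr
      rw [mem_rootSet_of_ne (X_pow_sub_C_ne_zero hp.pos a)] at hr
      have hr' : r ^ p = α ^ p := by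
        have : r ^ p - α ^ p = 0 := by simpa [ha] using hr
        exact sub_eq_zero.1 this
      obtain ⟨i, hi⟩ := key r α hα0 hr'
      rw [hi]
      have h1 : (ζ ^ i : Qb) ∈ IntermediateField.adjoin E {α} := by
        have : (algebraMap E Qb (⟨ζ, hζE⟩ ^ i : E)) ∈ IntermediateField.adjoin E {α} :=
          IntermediateField.algebraMap_mem _ _
        simpa using this
      exact (IntermediateField.adjoin E {α}).mul_mem h1
        (IntermediateField.mem_adjoin_simple_self E α)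
  have hnormal : Normal E (IntermediateField.adjoin E {α}) := by
    rw [hF]
    exact Normal.of_isSplittingField (X ^ p - C a : (E)[X])
      (hFEp := IntermediateField.adjoin_rootSet_isSplittingField hsplit)
  have hgal : IsGalois E (IntermediateField.adjoin E {α}) :=
    isGalois_iff.2 ⟨inferInstance, hnormal⟩
  exact ⟨hfd, hgal, hfr⟩

end kummer

/-- **LOC-11**: the cup product is nondegenerate for local fields. -/
theorem fieldCup_of (hcup : CupNormStatement) (hkum : KummerEStatement) : FieldCupStatement := by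
  intro p _ hp2 q _ E hE hζ
  obtain ⟨ζ, hζE, hζ⟩ := hζ
  have hp : p.Prime := Fact.out
  have hζ0 : ζ ≠ 0 := hζ.ne_zero hp.ne_zero
  set ζu : Qbˣ := Units.mk0 ζ hζ0 with hζu
  obtain ⟨k1, k2, k3⟩ := hkum p E ζu hζ hζE
  intro χ hχ hall
  by_contra hχ0
  obtain ⟨α, hα⟩ := k1 χ hχ
  obtain ⟨hαp, hαiff⟩ := k3 χ α hα
  have hαE : (α : Qb) ∉ E := fun h => hχ0 (hαiff.2 h)
  obtain ⟨hfd, hgal, hfr⟩ := kummer_adjoin_props hp E hζ hζE α.ne_zero hαp hαE
  have : IsCyclic ((IntermediateField.adjoin E {(α : Qb)}) ≃ₐ[E]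
      (IntermediateField.adjoin E {(α : Qb)})) := by
    have : Fact p.Prime := ⟨hp⟩
    apply isCyclic_of_prime_card (p := p)
    rw [IsGalois.card_aut_eq_finrank, hfr]
  have hidx := normSubgroup_indexU
    (Fermat.Agent.H81.Local.localNormDatum hE (IntermediateField.adjoin E {(α : Qb)}))
  rw [hfr] at hidx
  have htop : normSubgroup E (IntermediateField.adjoin E {(α : Qb)}) = ⊤ := by
    rw [eq_top_iff]
    intro b _
    -- a `p`-th root of `b`
    obtain ⟨β, hβ⟩ := IsAlgClosed.exists_pow_nat_eq ((b : E) : Qb) hp.pos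
    have hb0 : ((b : E) : Qb) ≠ 0 := by
      simp
    have hβ0 : β ≠ 0 := by
      intro h0
      rw [h0, zero_pow hp.ne_zero] at hβ
      exact hb0 hβ.symm
    obtain ⟨ψ, hψ, hψβ⟩ := k2 (Units.mk0 β hβ0) (by
      rw [Units.val_mk0, hβ]; exact (b : E).2)
    have h1 := cup_swap_coboundary (lvlE E) hχ hψ (hall ψ hψ)
    have h2 := (hcup p E ζu hζ hζE χ ψ α (Units.mk0 β hβ0) hχ hψ hα hψβ hχ0).1 h1
    obtain ⟨y, hy⟩ := h2
    rw [Units.val_mk0, hβ] at hy
    have hy0 : y ≠ 0 := by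
      intro h0
      rw [h0, Algebra.norm_zero, map_zero] at hy
      exact hb0 hy.symm
    refine ⟨Units.mk0 y hy0, ?_⟩
    apply Units.ext
    apply (algebraMap E Qb).injective
    exact hy
  rw [htop, Subgroup.index_top] at hidx
  exact hp.one_lt.ne hidx

end Fermat.Agent.H78.CFT
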