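/-
P-CFT / LOCAL, row LOC-12 (helper78): `H²(G_E, ZMod p)` is one-dimensional for a local field
`E ∋ ζ_p`, from `BrauerPStatement`, `Lvl2FiniteStatement`, `MuDescentStatement`,
`CupNormStatement`, `KummerEStatement`, `InflCoboundaryStatement` and the local norm index
theorem.
-/
import Fermat.Agent.H78.CFT.LocalCup
import Fermat.Agent.H81.Local.Discrete

set_option autoImplicit false

namespace Fermat.Agent.H78.CFT

open Fermat.Agent.H13.Cft Polynomial groupCohomology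

/-- **[LOC-INFL]** the inflation of a finite level coboundary is a level coboundary. -/
def InflCoboundaryStatement : Prop :=
  ∀ (E : IntermediateField ℚ Qb) (F : IntermediateField E Qb) [FiniteDimensional E F]
    [IsGalois E F] (c : (F ≃ₐ[E] F) × (F ≃ₐ[E] F) → Fˣ), IsMulCoboundary₂ c →
    IsLvlMulCoboundary₂E E (inflE E F c)

section zeta

variable {p : ℕ} {ζ : Qbˣ}

lemma zeta_pow_p (hζ : IsPrimitiveRoot (ζ : Qb) p) : ζ ^ p = 1 := by
  apply Units.ext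
  rw [Units.val_pow_eq_pow_val, hζ.pow_eq_one, Units.val_one]

/-- `ζ ^ a.val = ζ ^ n` if `n ≡ a`. -/
lemma zp_eq [Fact p.Prime] (hζ : IsPrimitiveRoot (ζ : Qb) p) (n : ℕ) (a : ZMod p)
    (h : (n : ZMod p) = a) : ζ ^ a.val = ζ ^ n := by
  subst h
  rw [ZMod.val_natCast]
  exact (pow_eq_pow_mod n (zeta_pow_p hζ)).symm

lemma zp_inj [Fact p.Prime] (hζ : IsPrimitiveRoot (ζ : Qb) p) {a b : ZMod p}
    (h : ζ ^ a.val = ζ ^ b.val) : a = b := by
  have h' : (ζ : Qb) ^ a.val = (ζ : Qb) ^ b.val := by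
    rw [← Units.val_pow_eq_pow_val, ← Units.val_pow_eq_pow_val, h]
  have := hζ.pow_inj (ZMod.val_lt a) (ZMod.val_lt b) h'
  exact ZMod.val_injective p this

end zeta

section coboundaries

variable (E : IntermediateField ℚ Qb)

lemma IsLvlFun₁.mul' {G : Type} [Group G] {𝒰 : LevelSys G} {M : Type} [Mul M] {x y : G → M}
    (hx : IsLvlFun₁ 𝒰 x) (hy : IsLvlFun₁ 𝒰 y) : IsLvlFun₁ 𝒰 (fun g => x g * y g) := by
  obtain ⟨N, hN, h1⟩ := hx
  obtain ⟨N', hN', h2⟩ := hy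
  obtain ⟨N'', hN'', hle⟩ := 𝒰.directed N hN N' hN'
  refine ⟨N'', hN'', fun g n hn => ?_⟩
  change x (g * n) * y (g * n) = x g * y g
  rw [h1 g n (hle.trans inf_le_left hn), h2 g n (hle.trans inf_le_right hn)]

lemma IsLvlFun₁.inv' {G : Type} [Group G] {𝒰 : LevelSys G} {M : Type} [Inv M] {x : G → M}
    (hx : IsLvlFun₁ 𝒰 x) : IsLvlFun₁ 𝒰 (fun g => (x g)⁻¹) := by
  obtain ⟨N, hN, h1⟩ := hx
  refine ⟨N, hN, fun g n hn => ?_⟩
  change (x (g * n))⁻¹ = (x g)⁻¹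
  rw [h1 g n hn]

lemma mulD₁E_mul (x y : E.fixingSubgroup → Qbˣ) (gh) :
    mulD₁E E (fun g => x g * y g) gh = mulD₁E E x gh * mulD₁E E y gh := by
  simp only [mulD₁E, map_mul]
  rw [div_mul_div_comm]
  congr 1
  exact mul_mul_mul_comm _ _ _ _

lemma mulD₁E_inv (x : E.fixingSubgroup → Qbˣ) (gh) :
    mulD₁E E (fun g => (x g)⁻¹) gh = (mulD₁E E x gh)⁻¹ := by
  simp only [mulD₁E, map_inv]
  rw [inv_div, ← mul_inv, inv_div_inv]

lemma mulD₁E_one (gh) : mulD₁E E (fun _ => (1 : Qbˣ)) gh = 1 := by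
  simp [mulD₁E]

/-- The group of level coboundaries. -/
def lvlB2 : Subgroup (E.fixingSubgroup × E.fixingSubgroup → Qbˣ) where
  carrier := {c | IsLvlMulCoboundary₂E E c}
  one_mem' := by
    obtain ⟨N, hN⟩ := (lvlE E).nonempty
    exact ⟨fun _ => 1, ⟨N, hN, fun _ _ _ => rfl⟩, fun gh => mulD₁E_one E gh⟩
  mul_mem' := by
    rintro c c' ⟨x, hx, hxc⟩ ⟨y, hy, hyc⟩
    exact ⟨fun g => x g * y g, hx.mul' hy, fun gh => by
      rw [mulD₁E_mul, hxc, hyc]; rfl⟩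
  inv_mem' := by
    rintro c ⟨x, hx, hxc⟩
    exact ⟨fun g => (x g)⁻¹, hx.inv', fun gh => by
      rw [mulD₁E_inv, hxc]; rfl⟩

lemma mem_lvlB2 {c : E.fixingSubgroup × E.fixingSubgroup → Qbˣ} :
    c ∈ lvlB2 E ↔ IsLvlMulCoboundary₂E E c := Iff.rfl

end coboundaries

section main

variable {p : ℕ} [Fact p.Prime]

/-- the multiplicative cochain attached to a bilinear cup product is a level cocycle datum -/
lemma isLvl₂_cup {G : Type} [Group G] (𝒰 : LevelSys G) {ψ χ : G → ZMod p}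
    (hψ : IsLvlHom 𝒰 ψ) (hχ : IsLvlHom 𝒰 χ) :
    IsLvl₂ 𝒰 (fun x : G × G => ψ x.1 * χ x.2) := by
  obtain ⟨N, hN, h1⟩ := hψ.2
  obtain ⟨N', hN', h2⟩ := hχ.2
  obtain ⟨N'', hN'', hle⟩ := 𝒰.directed N hN N' hN'
  refine ⟨N'', hN'', fun g h n hn m hm => ?_⟩
  change ψ (g * n) * χ (h * m) = ψ g * χ h
  rw [h1 g n (hle.trans inf_le_left hn), h2 h m (hle.trans inf_le_right hm)]

lemma isTrivCocycle₂_cup {G : Type} [Group G] {ψ χ : G → ZMod p}
    (hψ : ∀ g h, ψ (g * h) = ψ g + ψ h) (hχ : ∀ g h, χ (g * h) = χ g + χ h) :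
    IsTrivCocycle₂ (fun x : G × G => ψ x.1 * χ x.2) := by
  intro g h j
  simp only [hψ, hχ]
  ring

variable (E : IntermediateField ℚ Qb) {ζ : Qbˣ}

omit [Fact p.Prime] in
/-- `ζ ^ c` is a level function -/
lemma isLvlFun₂_zetaPow {c : E.fixingSubgroup × E.fixingSubgroup → ZMod p}
    (hc : IsLvl₂ (lvlE E) c) : IsLvlFun₂ (lvlE E) (zetaPow ζ c) := by
  obtain ⟨N, hN, h⟩ := hc
  refine ⟨N, hN, fun g h' n hn m hm => ?_⟩
  change ζ ^ (c (g * n, h' * m)).val = ζ ^ (c (g, h')).val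
  rw [h g h' n hn m hm]

lemma actU_zeta (hζE : (ζ : Qb) ∈ E) (g : E.fixingSubgroup) (n : ℕ) :
    actU (g : Qb ≃ₐ[ℚ] Qb) (ζ ^ n) = ζ ^ n := by
  apply Units.ext
  rw [coe_actU, Units.val_pow_eq_pow_val, map_pow]
  congr 1
  exact g.2 ⟨(ζ : Qb), hζE⟩

/-- `ζ ^ c` is a multiplicative cocycle -/
lemma isCocycle_zetaPow (hζ : IsPrimitiveRoot (ζ : Qb) p) (hζE : (ζ : Qb) ∈ E)
    {c : E.fixingSubgroup × E.fixingSubgroup → ZMod p} (hc : IsTrivCocycle₂ c)
    (g h j : E.fixingSubgroup) :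
    zetaPow ζ c (g * h, j) * zetaPow ζ c (g, h)
      = actU (g : Qb ≃ₐ[ℚ] Qb) (zetaPow ζ c (h, j)) * zetaPow ζ c (g, h * j) := by
  unfold zetaPow
  rw [actU_zeta E hζE, ← pow_add, ← pow_add]
  have e1 := zp_eq hζ ((c (g * h, j)).val + (c (g, h)).val) (c (g * h, j) + c (g, h)) (by
    push_cast; simp)
  have e2 := zp_eq hζ ((c (h, j)).val + (c (g, h * j)).val) (c (h, j) + c (g, h * j)) (by
    push_cast; simp)
  rw [← e1, ← e2, hc g h j]

lemma resEF_surjective (F : IntermediateField E Qb) [Normal E F] :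
    Function.Surjective (resEF E F) := by
  intro σ
  have hN : Normal ℚ Qb := Fermat.Agent.H81.normal_rat_Qbar
  have : Normal E Qb := Normal.tower_top_of_normal ℚ E Qb
  obtain ⟨τ, hτ⟩ := AlgEquiv.restrictNormalHom_surjective Qb σ
  refine ⟨(IntermediateField.fixingSubgroupEquiv E).symm τ, ?_⟩
  change AlgEquiv.restrictNormalHom F ((IntermediateField.fixingSubgroupEquiv E)
    ((IntermediateField.fixingSubgroupEquiv E).symm τ)) = σ
  rw [MulEquiv.apply_symm_apply, hτ]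

/-- **LOC-12**: `H²(G_E, ZMod p)` is one-dimensional for local fields. -/
theorem fieldH2_of (hbr : BrauerPStatement) (hfin : Lvl2FiniteStatement)
    (hmu : MuDescentStatement) (hcup : CupNormStatement) (hkum : KummerEStatement)
    (hinfl : InflCoboundaryStatement) : FieldH2Statement := by
  intro p _ hp2 q _ E hE hζ
  obtain ⟨ζ, hζE, hζ⟩ := hζ
  have hp : p.Prime := Fact.out
  have hζ0 : ζ ≠ 0 := hζ.ne_zero hp.ne_zero
  set ζu : Qbˣ := Units.mk0 ζ hζ0 with hζu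
  have hζ' : IsPrimitiveRoot (ζu : Qb) p := hζ
  have hζE' : (ζu : Qb) ∈ E := hζE
  obtain ⟨k1, k2, k3⟩ := hkum p E ζu hζ' hζE'
  -- Step 1: a uniformizer is not a `p`-th power
  obtain ⟨π, hπE, hπ0, hπ1, hπ⟩ := Fermat.Agent.H81.Local.exists_uniformizer hE
  obtain ⟨α, hα⟩ := IsAlgClosed.exists_pow_nat_eq π hp.pos
  have hα0 : α ≠ 0 := by
    intro h0
    rw [h0, zero_pow hp.ne_zero] at hα
    exact hπ0 hα.symm
  have hvπ0 : Fermat.Agent.H81.Local.qVal q π ≠ 0 :=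
    (Valuation.ne_zero_iff _).2 hπ0
  have hαE : α ∉ E := by
    intro h
    obtain ⟨n, hn⟩ := hπ α h hα0
    have h1 : Fermat.Agent.H81.Local.qVal q π ^ (1 : ℤ)
        = Fermat.Agent.H81.Local.qVal q π ^ (n * (p : ℤ)) := by
      rw [zpow_one, zpow_mul, ← hn, zpow_natCast, ← map_pow, hα]
    have h2 := zpow_right_injective₀ (zero_lt_iff.2 hvπ0) (ne_of_lt hπ1) h1
    have h3 : (p : ℤ) ∣ 1 := ⟨n, by rw [mul_comm]; exact h2⟩
    have h4 : p ∣ 1 := by exact_mod_cast h3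
    exact hp.one_lt.ne' (Nat.dvd_one.1 h4)
  have hαp : α ^ p ∈ E := by rw [hα]; exact hπE
  obtain ⟨χ, hχ, hχα⟩ := k2 (Units.mk0 α hα0) hαp
  have hχ0 : χ ≠ 0 := fun h => hαE ((k3 χ (Units.mk0 α hα0) hχα).2.1 h)
  obtain ⟨hfd, hgal, hfr⟩ := kummer_adjoin_props hp E hζ hζE hα0 hαp hαE
  have hcyc : IsCyclic ((IntermediateField.adjoin E {α}) ≃ₐ[E]
      (IntermediateField.adjoin E {α})) := by
    apply isCyclic_of_prime_card (p := p)
    rw [IsGalois.card_aut_eq_finrank, hfr]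
  have hidx := normSubgroup_indexU
    (Fermat.Agent.H81.Local.localNormDatum hE (IntermediateField.adjoin E {α}))
  rw [hfr] at hidx
  obtain ⟨b, hb⟩ : ∃ b : Eˣ, b ∉ normSubgroup E (IntermediateField.adjoin E {α}) := by
    by_contra hcon
    have htop : normSubgroup E (IntermediateField.adjoin E {α}) = ⊤ := by
      rw [eq_top_iff]
      intro b _
      by_contra hb
      exact hcon ⟨b, hb⟩
    rw [htop, Subgroup.index_top] at hidx
    exact hp.one_lt.ne hidx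
  obtain ⟨β, hβ⟩ := IsAlgClosed.exists_pow_nat_eq ((b : E) : Qb) hp.pos
  have hb0 : ((b : E) : Qb) ≠ 0 := by simp
  have hβ0 : β ≠ 0 := by
    intro h0
    rw [h0, zero_pow hp.ne_zero] at hβ
    exact hb0 hβ.symm
  obtain ⟨ψ, hψ, hψβ⟩ := k2 (Units.mk0 β hβ0) (by
    rw [Units.val_mk0, hβ]; exact (b : E).2)
  have hc₀ : ¬ IsLvlCoboundary₂ (lvlE E) (fun x : E.fixingSubgroup × E.fixingSubgroup =>
      ψ x.1 * χ x.2) := by
    intro h
    obtain ⟨y, hy'⟩ : IsNormFromAdjoin E α (β ^ p) :=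
      (hcup p E ζu hζ' hζE' χ ψ (Units.mk0 α hα0) (Units.mk0 β hβ0) hχ hψ hχα hψβ hχ0).1 h
    have hy : (algebraMap E Qb) ((Algebra.norm E) y) = ((b : E) : Qb) := hy'.trans hβ
    have hy0 : y ≠ 0 := by
      intro h0
      rw [h0, Algebra.norm_zero, map_zero] at hy
      exact hb0 hy.symm
    apply hb
    refine ⟨Units.mk0 y hy0, ?_⟩
    apply Units.ext
    apply (algebraMap E Qb).injective
    exact hy
  -- Step 2: the Brauer input
  obtain ⟨F₀, hF₀fd, hF₀gal, u, hu, hup, hH⟩ := hbr p q E hE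
  set U : E.fixingSubgroup × E.fixingSubgroup → Qbˣ := inflE E F₀ u with hU
  have hP : U ^ p ∈ lvlB2 E := by
    have e : U ^ p = inflE E F₀ (fun x => u x ^ p) := by
      funext x
      simp [hU, inflE]
    rw [e]
    exact hinfl E F₀ _ hup
  have key : ∀ c : E.fixingSubgroup × E.fixingSubgroup → ZMod p, IsLvl₂ (lvlE E) c →
      IsTrivCocycle₂ c → ∃ j : ℕ, zetaPow ζu c / U ^ j ∈ lvlB2 E := by
    intro c hc hcc
    obtain ⟨F, hFfd, hFgal, c', hc', hcc'⟩ := hfin E (zetaPow ζu c) (isLvlFun₂_zetaPow E hc)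
      (isCocycle_zetaPow E hζ' hζE' hcc)
    have hone : ∀ x, c' x ^ p = 1 := by
      rintro ⟨σ, τ⟩
      obtain ⟨g, rfl⟩ := resEF_surjective E F σ
      obtain ⟨h, rfl⟩ := resEF_surjective E F τ
      have h1 : inflE E F c' (g, h) = zetaPow ζu c (g, h) := by rw [hcc']
      have h2 : Units.map (algebraMap F Qb : F →* Qb) (c' (resEF E F g, resEF E F h) ^ p)
          = 1 := by
        rw [map_pow]
        change inflE E F c' (g, h) ^ p = 1
        rw [h1]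
        change (ζu ^ (c (g, h)).val) ^ p = 1
        rw [← pow_mul, mul_comm, pow_mul, zeta_pow_p hζ', one_pow]
      have hinj : Function.Injective (Units.map (algebraMap F Qb : F →* Qb)) :=
        Units.map_injective (algebraMap F Qb).injective
      exact hinj (by rw [h2, map_one])
    have hpow : IsMulCoboundary₂ (fun x => c' x ^ p) := by
      refine ⟨fun _ => 1, fun g h => ?_⟩
      change g • (1 : Fˣ) / 1 * 1 = c' (g, h) ^ p
      rw [hone]
      simp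
    obtain ⟨j, hj⟩ := hH F c' hc' hpow
    refine ⟨j, ?_⟩
    rw [← hcc']
    exact hj
  -- Step 3: linear algebra in the quotient by the level coboundaries
  let φ := QuotientGroup.mk' (lvlB2 E)
  have hφ : ∀ x y, φ x = φ y ↔ x / y ∈ lvlB2 E := fun x y => QuotientGroup.eq_iff_div_mem
  have hφP : φ U ^ p = 1 := by
    rw [← map_pow]
    exact (QuotientGroup.eq_one_iff _).2 hP
  have hZ : ∀ (c c₁ : E.fixingSubgroup × E.fixingSubgroup → ZMod p) (n : ℕ),
      zetaPow ζu (fun x => c x - (n : ZMod p) * c₁ x) = zetaPow ζu c / zetaPow ζu c₁ ^ n := by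
    intro c c₁ n
    funext x
    change ζu ^ (c x - (n : ZMod p) * c₁ x).val = ζu ^ (c x).val / (ζu ^ (c₁ x).val) ^ n
    rw [eq_div_iff_mul_eq', ← pow_mul, ← pow_add]
    have e1 := zp_eq hζ' ((c x - (n : ZMod p) * c₁ x).val + (c₁ x).val * n) (c x) (by
      push_cast
      simp
      ring)
    exact e1.symm
  have hmuB : ∀ c : E.fixingSubgroup × E.fixingSubgroup → ZMod p,
      zetaPow ζu c ∈ lvlB2 E → IsLvlCoboundary₂ (lvlE E) c :=
    fun c h => hmu p E ζu hζ' hζE' c h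
  obtain ⟨j₀, hj₀⟩ := key _ (isLvl₂_cup (lvlE E) hψ hχ) (isTrivCocycle₂_cup hψ.1 hχ.1)
  have hj₀' := (hφ _ _).2 hj₀
  rw [map_pow] at hj₀'
  have hpj : ¬ p ∣ j₀ := by
    rintro ⟨m, rfl⟩
    apply hc₀
    apply hmuB
    apply (QuotientGroup.eq_one_iff _).1
    change φ _ = 1
    rw [hj₀', pow_mul, hφP, one_pow]
  have hcop : Nat.Coprime j₀ p := ((Nat.Prime.coprime_iff_not_dvd hp).2 hpj).symm
  obtain ⟨k', -, hk'⟩ := Nat.exists_mul_mod_eq_one_of_coprime hcop hp.one_lt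
  obtain ⟨m, hm⟩ : ∃ m : ℕ, j₀ * k' = p * m + 1 := by
    have := Nat.div_add_mod (j₀ * k') p
    rw [hk'] at this
    exact ⟨_, this.symm⟩
  refine ⟨_, isLvl₂_cup (lvlE E) hψ hχ, isTrivCocycle₂_cup hψ.1 hχ.1, hc₀, fun c hc hcc => ?_⟩
  obtain ⟨j, hj⟩ := key c hc hcc
  have hj' := (hφ _ _).2 hj
  rw [map_pow] at hj'
  refine ⟨((k' * j : ℕ) : ZMod p), ?_⟩
  apply hmuB
  rw [hZ]
  apply (hφ _ _).1
  rw [map_pow, hj', hj₀', ← pow_mul]
  have e : j₀ * (k' * j) = j + p * (m * j) := by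
    rw [← mul_assoc, hm]
    ring
  rw [e, pow_add, pow_mul, hφP, one_pow, mul_one]

end main

end Fermat.Agent.H78.CFT
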