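/-
P-CFT / LOCAL (sub-lead helper78): THE LOCAL TARGET, in elementary cocycle language.

For a level system `𝒰` on a group `G` and TRIVIAL coefficients `ZMod p`:
* `H2OneDim 𝒰 p`  : `H²(𝒰, ZMod p)` is one-dimensional (level 2-cocycles modulo coboundaries of
                    level 1-cochains);
* `CupNondeg 𝒰 p` : the cup product `H¹ × H¹ → H²` is nondegenerate;
* `H1Finite 𝒰 p`  : `H¹(𝒰, ZMod p) = Hom_level(G, ZMod p)` is finite.
`TrivCore 𝒰 p` is the conjunction: this is local Tate duality for the trivial module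
(`λ⁰` epi, `λ¹` iso, `λ²` mono for every nonzero linear form on `H²`).

Arithmetic instances (all level systems are `pullbackLevelSys r` for a map `r` to `G_ℚ`):
* `FieldCoreStatement` : `G = Gal(ℚ̄/E)` for `E` a finite extension of `K_v = ℚ̄^{D_q}` with
                         `ζ_p ∈ E`  (the number-theoretic statement, LOCAL rows);
* `LocalCoreStatement` : `G = V` an open subgroup of `primeLocalGaloisGroup q` on which the
                         mod `p` cyclotomic character is trivial (what FRAME consumes via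
                         Shapiro);
* `FieldH1CardStatement` : `# H¹ = p ^ (2 + [E : K_v])` if `q = p`, `p ^ 2` otherwise
                         (consumed by the GLOBAL counting argument).
-/
import Fermat.Agent.H13.Cft.Arith
import Fermat.Agent.H81.Local.LocalFinite
import Fermat.Prelude.Def_ExtEndgame_ProductionDatum
import Fermat.Prelude.Def_ExtCitation_KummerBridge

set_option autoImplicit false

namespace Fermat.Agent.H78.CFT

open Fermat.Agent.H13.Cft ExtCitation

section generic

variable {G : Type} [Group G] (𝒰 : LevelSys G) {A : Type} [AddCommGroup A]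

/-- `x : G → A` is right-invariant under a level. -/
def IsLvl₁ (x : G → A) : Prop := ∃ N ∈ 𝒰.sets, ∀ g, ∀ n ∈ N, x (g * n) = x g

/-- `c : G × G → A` is right-invariant under a level in both variables. -/
def IsLvl₂ (c : G × G → A) : Prop :=
  ∃ N ∈ 𝒰.sets, ∀ g h, ∀ n ∈ N, ∀ m ∈ N, c (g * n, h * m) = c (g, h)

/-- 2-cocycles for the trivial action (Mathlib's `IsCocycle₂` with trivial action). -/
def IsTrivCocycle₂ (c : G × G → A) : Prop :=
  ∀ g h j, c (g * h, j) + c (g, h) = c (h, j) + c (g, h * j)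

/-- `c` is the coboundary of a level 1-cochain (trivial action). -/
def IsLvlCoboundary₂ (c : G × G → A) : Prop :=
  ∃ x : G → A, IsLvl₁ 𝒰 x ∧ ∀ g h, x h - x (g * h) + x g = c (g, h)

/-- Level homomorphisms `G → A` (= level 1-cocycles for the trivial action). -/
def IsLvlHom (χ : G → A) : Prop := (∀ g h, χ (g * h) = χ g + χ h) ∧ IsLvl₁ 𝒰 χ

variable (p : ℕ)

/-- `H²(𝒰, ZMod p)` is one-dimensional. -/
def H2OneDim : Prop :=
  ∃ c₀ : G × G → ZMod p, IsLvl₂ 𝒰 c₀ ∧ IsTrivCocycle₂ c₀ ∧ ¬ IsLvlCoboundary₂ 𝒰 c₀ ∧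
    ∀ c : G × G → ZMod p, IsLvl₂ 𝒰 c → IsTrivCocycle₂ c →
      ∃ j : ZMod p, IsLvlCoboundary₂ 𝒰 (fun x => c x - j * c₀ x)

/-- The cup product `H¹(𝒰, ZMod p) × H¹(𝒰, ZMod p) → H²(𝒰, ZMod p)` is nondegenerate
(on the left; the cup product is skew-symmetric, so also on the right). -/
def CupNondeg : Prop :=
  ∀ χ : G → ZMod p, IsLvlHom 𝒰 χ →
    (∀ ψ : G → ZMod p, IsLvlHom 𝒰 ψ → IsLvlCoboundary₂ 𝒰 (fun x => χ x.1 * ψ x.2)) → χ = 0

/-- `H¹(𝒰, ZMod p)` is finite. -/
def H1Finite : Prop := {χ : G → ZMod p | IsLvlHom 𝒰 χ}.Finite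

/-- Local duality for the trivial module, elementary form. -/
structure TrivCore : Prop where
  h2 : H2OneDim 𝒰 p
  cup : CupNondeg 𝒰 p
  fin : H1Finite 𝒰 p

end generic

/-- **[LOC-FIELD]** local duality for `Gal(ℚ̄/E)`, `E` finite over `K_v`, `ζ_p ∈ E`. -/
def FieldCoreStatement : Prop :=
  ∀ (p : ℕ) [Fact p.Prime], p ≠ 2 → ∀ (q : ℕ) [Fact q.Prime]
    (E : IntermediateField ℚ (AlgebraicClosure ℚ)),
    Fermat.Agent.H81.Local.IsLocalFinite q E →
    (∃ ζ ∈ E, IsPrimitiveRoot ζ p) →
    TrivCore (pullbackLevelSys E.fixingSubgroup.subtype) p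

/-- **[LOC-CARD]** the order of `H¹(Gal(ℚ̄/E), ZMod p) ≅ Eˣ / p`. -/
def FieldH1CardStatement : Prop :=
  ∀ (p : ℕ) [Fact p.Prime], p ≠ 2 → ∀ (q : ℕ) [Fact q.Prime]
    (E : IntermediateField ℚ (AlgebraicClosure ℚ)),
    Fermat.Agent.H81.Local.IsLocalFinite q E →
    (∃ ζ ∈ E, IsPrimitiveRoot ζ p) →
    Nat.card {χ : E.fixingSubgroup → ZMod p //
        IsLvlHom (pullbackLevelSys E.fixingSubgroup.subtype) χ}
      = if q = p then
          p ^ (2 + IntermediateField.relfinrank (Fermat.Agent.H81.Local.localField q) E)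
        else p ^ 2

/-- **[LOC-CORE]** local duality for an open subgroup `V` of the local Galois group at `q` on
which the mod `p` cyclotomic character is trivial. -/
def LocalCoreStatement : Prop :=
  ∀ (p : ℕ) [Fact p.Prime], p ≠ 2 → ∀ (q : Nat.Primes) (V : Subgroup (primeLocalGaloisGroup q)),
    (∃ N ∈ (pullbackLevelSys (primeLocalToGlobal q)).sets, N ≤ V) →
    (∀ s ∈ V, cycloChar p (primeLocalToGlobal q s) = 1) →
    TrivCore (pullbackLevelSys ((primeLocalToGlobal q).comp V.subtype)) p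

/-- **[LOC-B5]** the bridge from fields to open subgroups of the local Galois group. -/
def FieldToLocalStatement : Prop := FieldCoreStatement → LocalCoreStatement

end Fermat.Agent.H78.CFT
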