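/-
P-CFT / LOCAL (sub-lead helper78): the bridge from the elementary local statements of Step D v2
(`LocalCore2Statement`, `LocalInvRows.lean`: `H¹` finite, `H²` one-dimensional, `H³ = 0` for the
TRIVIAL module `ZMod p` on every open subgroup `V` of `Γ_q` with trivial cyclotomic character, in
elementary cocycle language) to the FRAME statement `[LC]` of helper13
(`Fermat.Agent.H13.Cft.LocalCohStatement`, `WaistV2.lean`: the same for the level cohomology of
`Γ_q` with coefficients in the permutation module `𝔽_p[Γ_q / V]`).

`LocalCohOfCore2Statement` = Shapiro (`lvlH 𝒱 (𝔽_p[Γ/V]) n ≅ lvlH (𝒱.restrict V) 𝔽_p n`) + the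
dictionary between `lvlH` of the trivial module in degrees `1, 2, 3` and elementary cocycles.
-/
import Fermat.Agent.H78.CFT.LocalInvRows
import Fermat.Agent.H13.Cft.WaistV2

set_option autoImplicit false

namespace Fermat.Agent.H78.CFT

open Fermat.Agent.H13.Cft ExtCitation

/-- **[LC-SHAP]** the FRAME statement `[LC]` from the elementary local statements (Shapiro +
low-degree dictionary). -/
def LocalCohOfCore2Statement : Prop := LocalCore2Statement → LocalCohStatement

/-- `[LC]` from the field statements and the two bridges. -/
theorem localCoh_of (h1 : FieldCore2Statement) (h2 : FieldToLocal2Statement)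
    (h3 : LocalCohOfCore2Statement) : LocalCohStatement :=
  h3 (h2 h1)

end Fermat.Agent.H78.CFT
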