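/-
P-CFT / LOCAL (sub-lead helper78): FINAL ASSEMBLY of the local block, with all landed leaves
discharged.

* `fieldCore_of_unramSplit`, `localCore_of_unramSplit` : the v1 local target (`TrivCore`:
  `H²` one-dimensional, cup product nondegenerate, `H¹` finite) from the single remaining
  arithmetic leaf `UnramSplitStatement` (row 751);
* `fieldCore2_of`, `localCoh_of_leaves` : the Step D v2 local target `[LC]`
  (`Fermat.Agent.H13.Cft.LocalCohStatement`) from `UnramSplitStatement`, `FieldH3Statement`
  and the two bridges.
-/
import Fermat.Agent.H78.CFT.LocalAssembly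
import Fermat.Agent.H78.CFT.LocalToFrame2
import Fermat.Agent.H57.CFT.H90Lvl
import Fermat.Agent.H75.Inf2Lvl
import Fermat.Agent.H75.Inf2Finite
import Fermat.Agent.H75.Inf2InflCob
import Fermat.Agent.H98.Cft.CupNorm
import Fermat.Agent.H97.Cft.PowFinite
import Fermat.Agent.H24.Brauer.Final

set_option autoImplicit false

namespace Fermat.Agent.H78.CFT

open Fermat.Agent.H13.Cft

/-- Inflation is injective on `H²`, unconditional. -/
theorem inf2Lvl : Inf2LvlStatement :=
  Fermat.Agent.H75.Inf2.inf2Lvl Fermat.Agent.H57.CFT.h90Lvl

/-- The cup product versus norms, unconditional. -/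
theorem cupNorm : CupNormStatement :=
  Fermat.Agent.H98.Cft.CupNorm.cupNorm Fermat.Agent.H57.CFT.muDescent inf2Lvl

/-- The cup product `H¹ × H¹ → H²` is nondegenerate for local fields, unconditional. -/
theorem fieldCup : FieldCupStatement :=
  fieldCup_of cupNorm Fermat.Agent.H47.Cft.kummerE

/-- `H¹(G_E, ZMod p)` is finite for local fields, unconditional. -/
theorem fieldH1Finite : FieldH1FiniteStatement :=
  Fermat.Agent.H47.Cft.fieldH1Finite_of Fermat.Agent.H97.powFinite Fermat.Agent.H47.Cft.kummerE

/-- `H²(G_E, ZMod p)` is one-dimensional for local fields, from `BrauerPStatement`. -/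
theorem fieldH2_of_brauerP (hbr : BrauerPStatement) : FieldH2Statement :=
  fieldH2_of hbr Fermat.Agent.H75.Inf2.lvl2Finite Fermat.Agent.H57.CFT.muDescent cupNorm
    Fermat.Agent.H47.Cft.kummerE Fermat.Agent.H75.Inf2.inflCoboundary

/-- The v1 local target over fields from `BrauerPStatement`. -/
theorem fieldCore_of_brauerP (hbr : BrauerPStatement) : FieldCoreStatement :=
  fieldCore_of_parts fieldCup (fieldH2_of_brauerP hbr) fieldH1Finite

/-- The v1 local target over fields from `UnramSplitStatement` (row 751). -/
theorem fieldCore_of_unramSplit (h : Fermat.Agent.H24.Brauer.UnramSplitStatement) :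
    FieldCoreStatement :=
  fieldCore_of_brauerP (Fermat.Agent.H24.Brauer.brauerP_of_unramSplit h)

/-- The v1 local target from `UnramSplitStatement` (row 751). -/
theorem localCore_of_unramSplit (h : Fermat.Agent.H24.Brauer.UnramSplitStatement) :
    LocalCoreStatement :=
  Fermat.Agent.H81.Local.fieldToLocal (fieldCore_of_unramSplit h)

/-- The Step D v2 local statements over fields. -/
theorem fieldCore2_of (hbr : BrauerPStatement) (h3 : FieldH3Statement) : FieldCore2Statement :=
  fun p _ hp q _ E hE hζ =>
    ⟨fieldH1Finite p hp q E hE hζ, fieldH2_of_brauerP hbr p hp q E hE hζ, h3 p hp q E hE hζ⟩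

/-- **`[LC]`** of Step D v2 from the remaining leaves. -/
theorem localCoh_of_leaves (h : Fermat.Agent.H24.Brauer.UnramSplitStatement)
    (h3 : FieldH3Statement) (hB5 : FieldToLocal2Statement) (hS : LocalCohOfCore2Statement) :
    LocalCohStatement :=
  localCoh_of (fieldCore2_of (Fermat.Agent.H24.Brauer.brauerP_of_unramSplit h) h3) hB5 hS

end Fermat.Agent.H78.CFT
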