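/-
P-CFT / LOCAL (helper78), row 834 H3-TATE: adapter from helper24's local Tate theorem
(`Fermat.Agent.H24.Brauer.localTateH3Abs_of_unramSplit`) to `TateLocalAbsStatement`.
-/
import Fermat.Agent.H78.CFT.LocalInvRows
import Fermat.Agent.H24.Brauer.Final

set_option autoImplicit false

namespace Fermat.Agent.H78.CFT

/-- `H³(Gal(F/K), Fˣ) = 0` for `p`-group extensions of local fields, from `UnramSplitStatement`
(row 751). -/
theorem tateLocalAbs_of_unramSplit (h : Fermat.Agent.H24.Brauer.UnramSplitStatement) :
    TateLocalAbsStatement :=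
  Fermat.Agent.H24.Brauer.localTateH3Abs_of_unramSplit h

/-- `[LC-H3]` from the leaves of the `H³` block. -/
theorem fieldH3_of_leaves (h : Fermat.Agent.H24.Brauer.UnramSplitStatement)
    (hsyl : TateLocalAbsStatement → H3TorsionStatement) (hfin : H3FinToLvlStatement)
    (hdiv : BrauerDivStatement) (hkum : H3KummerStatement) : FieldH3Statement :=
  fieldH3_of (hfin (hsyl (tateLocalAbs_of_unramSplit h))) hdiv hkum

end Fermat.Agent.H78.CFT
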