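/-
P-CFT / LOCAL (sub-lead helper78): THE LOCAL BLOCK, UNCONDITIONAL PART.

All leaves landed by helper49 (UnramSplit), helper24/helper61/helper38/helper98/helper81 (Brauer
block), helper57 (INV-STD, H90, MuDescent), helper38 (INV-COMPAT), helper96 (INV-EX),
helper86 (INV-NORM), helper83 (INV-MU), helper75 (H3-SYL, Inf2), helper10 (H3-KUM),
helper32 (BR-DIV), helper68 (LC-B5), helper47 (Kummer), helper97 (PowFinite), helper98 (CupNorm)
are assembled here.

* `brauerP`, `fieldCore`, `localCore` : the v1 local target (local Tate duality for the trivial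
  module: `H²` one-dimensional, cup product nondegenerate, `H¹` finite), UNCONDITIONAL;
* the canonical invariant package, UNCONDITIONAL: `unramCocycleU`, `hasInv_exists`,
  `hasInv_unique`, `hasInv_period`, `hasInv_indep`, `hasInv_mul`, `hasInv_compat`,
  `hasInv_descend`, `hasInv_std`, `brauerDivU`;
* `[LC]` of Step D v2 from the last two leaves: `fieldH3_of_fin`, `fieldCore2_of_fin`,
  `localCore2_of_fin`, `localCoh_of_fin_shap`.
-/
import Fermat.Agent.H78.CFT.LocalFinal
import Fermat.Agent.H78.CFT.LocalH3Tate
import Fermat.Agent.H78.CFT.LocalInvFormal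
import Fermat.Agent.H49.Brauer.UnramSplit
import Fermat.Agent.H57.CFT.UnramCocycle
import Fermat.Agent.H38.Cft.InvCompat
import Fermat.Agent.H96.CFT.InvExistsSplit
import Fermat.Agent.H75.H3Sylow
import Fermat.Agent.H10.CFT.H3Kummer
import Fermat.Agent.H32.CFT.BrauerDiv
import Fermat.Agent.H68.CFT.FieldToLocal2

set_option autoImplicit false
set_option synthInstance.maxHeartbeats 400000

namespace Fermat.Agent.H78.CFT

open Fermat.Agent.H13.Cft
open Fermat.Agent.H49.Unram Fermat.Agent.H81.Local

/-! ### v1: local Tate duality for the trivial module -/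

/-- **[LOC-6]** the `p`-torsion of the Brauer group of a local field, unconditional. -/
theorem brauerP : BrauerPStatement :=
  Fermat.Agent.H24.Brauer.brauerP_of_unramSplit Fermat.Agent.H49.Brauer.unramSplit

/-- **[LOC-FIELD]** local duality for `Gal(ℚ̄/E)`, `E` local with `ζ_p`, unconditional. -/
theorem fieldCore : FieldCoreStatement := fieldCore_of_brauerP brauerP

/-- **[LOC-CORE]** local duality for the open subgroups of the local Galois groups,
unconditional. -/
theorem localCore : LocalCoreStatement := Fermat.Agent.H81.Local.fieldToLocal fieldCore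

/-- `H²(G_E, ZMod p)` is one-dimensional, unconditional. -/
theorem fieldH2 : FieldH2Statement := fieldH2_of_brauerP brauerP

/-! ### The canonical invariant, unconditional -/

/-- **[INV-STD]** -/
theorem unramCocycleU : UnramCocycleStatement := Fermat.Agent.H57.CFT.unramCocycleStd

/-- **[INV-EX]** every level 2-cocycle killed by `p ^ n` has an invariant `j / p ^ n`. -/
theorem hasInv_exists : InvExistsStatement :=
  Fermat.Agent.H96.CFT.invExists_of_unramSplit Fermat.Agent.H49.Brauer.unramSplit

/-- **[INV-UNIQ]** -/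
theorem hasInv_unique : InvUniqueStatement := invUnique unramCocycleU

/-- **[INV-PER]** -/
theorem hasInv_period : InvPeriodStatement := invPeriod unramCocycleU

/-- **[INV-INDEP]** -/
theorem hasInv_indep : InvIndepStatement := invIndep unramCocycleU

/-- **[INV-MUL]** -/
theorem hasInv_mul : InvMulStatement := invMul unramCocycleU

/-- **[INV-COMPAT]** -/
theorem hasInv_compat : InvCompatStatement := Fermat.Agent.H38.Cft.invCompat

/-- **[INV-DESC]** -/
theorem hasInv_descend : InvDescendStatement := Fermat.Agent.H38.Cft.invDescend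

/-- `inv(unramCocycle φ a) = ord(a) / m`, unconditional. -/
theorem hasInv_std {q : ℕ} [Fact q.Prime] {E : IntermediateField ℚ Qb} (hE : IsLocalFinite q E)
    {m : ℕ} {φ : unramExt q E m ≃ₐ[E] unramExt q E m} (hφ : IsFrobE q E m φ) {π : Eˣ}
    (hπ : IsUnif q E ((π : E) : Qb)) (a : Eˣ) (k : ℤ)
    (ha : qVal q ((a : E) : Qb) = qVal q ((π : E) : Qb) ^ k) :
    HasInv q E (unramCocycle q E m φ a) k m :=
  hasInv_unramCocycle unramCocycleU hE hφ hπ a k ha

/-- **[BR-DIV]** the Brauer group of a local field is `p`-divisible, unconditional. -/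
theorem brauerDivU : BrauerDivStatement :=
  Fermat.Agent.H32.CFT.brauerDiv hasInv_exists hasInv_compat

/-! ### Step D v2: `[LC]` -/

/-- **[H3-SYL]** the `p`-torsion of `H³(Gal(F/E), Fˣ)` vanishes, unconditional. -/
theorem h3TorsionU : H3TorsionStatement :=
  Fermat.Agent.H75.H3Syl.h3Torsion (tateLocalAbs_of_unramSplit Fermat.Agent.H49.Brauer.unramSplit)

/-- **[LC-H3]** `H³(G_E, ZMod p) = 0` from the last leaf `H3FinToLvlStatement` (row 836). -/
theorem fieldH3_of_fin (hfin : H3FinToLvlStatement) : FieldH3Statement :=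
  fieldH3_of (hfin h3TorsionU) brauerDivU Fermat.Agent.H10.CFT.h3Kummer

/-- **[LC-FIELD]** from row 836. -/
theorem fieldCore2_of_fin (hfin : H3FinToLvlStatement) : FieldCore2Statement :=
  fieldCore2_of brauerP (fieldH3_of_fin hfin)

/-- **[LC-CORE]** from row 836. -/
theorem localCore2_of_fin (hfin : H3FinToLvlStatement) : LocalCore2Statement :=
  Fermat.Agent.H68.CFT.fieldToLocal2 (fieldCore2_of_fin hfin)

/-- **`[LC]`** of Step D v2 from the last two leaves: rows 836 (H3-FIN) and 886 (LC-SHAP). -/
theorem localCoh_of_fin_shap (hfin : H3FinToLvlStatement) (hS : LocalCohOfCore2Statement) :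
    LocalCohStatement :=
  hS (localCore2_of_fin hfin)

end Fermat.Agent.H78.CFT
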