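/-
P-CFT / LOCAL (sub-lead helper78): **`[LC]` of Step D v2, UNCONDITIONAL.**

`localCoh : Fermat.Agent.H13.Cft.LocalCohStatement`: for `p` odd, every prime `q` and every open
subgroup `V` of the local Galois group `Γ_q` on which the mod `p` cyclotomic character is trivial,
`P = 𝔽_p[Γ_q / V]`:  `H¹(Γ_q, P)` and `H²(Γ_q, P)` are finite, `dim H²(Γ_q, P) ≤ 1` and
`H³(Γ_q, P) = 0` (level cohomology).

Leaves: helper49 (unramified splitting), helper24 + helper61 + helper38 + helper98 + helper81 +
helper44 (Brauer block, local Tate theorem), helper57 (Hilbert 90, `μ_p`-descent, unramified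
cocycles), helper75 (inflation in degree 2, Sylow in degree 3), helper47 (Kummer theory),
helper97 (`Eˣ/p` finite), helper98 (cup products and norms), helper96 (invariants exist),
helper38 (compatibility of invariants), helper32 (`Br` divisible), helper10 (Kummer boundary),
helper4 (finite level in degree 3), helper68 (fields to open subgroups), helper85 (Shapiro and
the low-degree dictionary), helper78 (norm index theorem, assemblies).
-/
import Fermat.Agent.H78.CFT.LocalUncond
import Fermat.Agent.H4.CFT.H3Fin
import Fermat.Agent.H85.Cft.LcShap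

set_option autoImplicit false

namespace Fermat.Agent.H78.CFT

open Fermat.Agent.H13.Cft

/-- **[H3-GM]** `H³_lvl(G_E, ℚ̄ˣ)[p] = 0` for local fields, unconditional. -/
theorem h3Gm : H3GmStatement := Fermat.Agent.H4.CFT.h3FinToLvl h3TorsionU

/-- **[LC-H3]** `H³(G_E, ZMod p) = 0` for `E` local containing `ζ_p`, unconditional. -/
theorem fieldH3 : FieldH3Statement := fieldH3_of_fin Fermat.Agent.H4.CFT.h3FinToLvl

/-- **[LC-FIELD]** unconditional. -/
theorem fieldCore2 : FieldCore2Statement := fieldCore2_of_fin Fermat.Agent.H4.CFT.h3FinToLvl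

/-- **[LC-CORE]** unconditional. -/
theorem localCore2 : LocalCore2Statement := localCore2_of_fin Fermat.Agent.H4.CFT.h3FinToLvl

/-- **`[LC]`** the local input of Step D v2, UNCONDITIONAL. -/
theorem localCoh : LocalCohStatement :=
  localCoh_of_fin_shap Fermat.Agent.H4.CFT.h3FinToLvl Fermat.Agent.H85.LcShap.localCohOfCore2

end Fermat.Agent.H78.CFT
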