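/-
P-CFT (helper78): ORBIT COUNT in Mackey language (pure group theory; glue (g2a) of the global
count `[GC]`).

For `loc : Γ →* G`, a subgroup `U ≤ G` of finite index and a set `R` of representatives of the
double cosets `U \ G / loc(Γ)` (in the exact shape of `Fermat.Agent.H97.Shap.MackeyStatement`):

* `mackeyReps_finite`         : `R` is finite;
* `mackeySigmaEquiv`          : `(Σ g : R, Γ ⧸ Γ_g) ≃ G ⧸ U`, `(g, γ) ↦ loc(γ) g⁻¹ U`;
* `sum_index_mackeySubgroup`  : `∑_{g ∈ R} [Γ : Γ_g] = [G : U]`, `Γ_g = mackeySubgroup loc U g`;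
* `finsum_index_mackeySubgroup` : the same as a `finsum`.
-/
import Fermat.Agent.H97.Shap.Defs

set_option autoImplicit false

namespace Fermat.Agent.H78.CFT

open Fermat.Agent.H97.Shap

universe u

variable {G Γ : Type u} [Group G] [Group Γ] (loc : Γ →* G) (U : Subgroup G) (R : Set G)

/-- `R` is a set of representatives of the double cosets `U \ G / loc(Γ)`. -/
def IsMackeyReps : Prop :=
  ∀ x : G, ∃! g : G, g ∈ R ∧ ∃ (v : U) (γ : Γ), x = v * g * loc γ

variable {loc U R}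

/-- The map `Γ ⧸ Γ_g → G ⧸ U`, `γ ↦ loc(γ) g⁻¹ U`. -/
noncomputable def mackeyOrbitMap (loc : Γ →* G) (U : Subgroup G) (g : G) :
    Γ ⧸ mackeySubgroup loc U g → G ⧸ U :=
  Quotient.lift (fun γ : Γ => ((loc γ * g⁻¹ : G) : G ⧸ U)) (by
    intro a b hab
    have h : a⁻¹ * b ∈ mackeySubgroup loc U g := QuotientGroup.leftRel_apply.mp hab
    rw [mem_mackeySubgroup] at h
    apply QuotientGroup.eq.mpr
    have : (loc a * g⁻¹)⁻¹ * (loc b * g⁻¹) = g * loc (a⁻¹ * b) * g⁻¹ := by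
      rw [map_mul, map_inv]; group
    rw [this]
    exact h)

@[simp] lemma mackeyOrbitMap_mk (g : G) (γ : Γ) :
    mackeyOrbitMap loc U g (γ : Γ ⧸ mackeySubgroup loc U g) = ((loc γ * g⁻¹ : G) : G ⧸ U) := rfl

/-- The map `(Σ g : R, Γ ⧸ Γ_g) → G ⧸ U`. -/
noncomputable def mackeySigmaMap (loc : Γ →* G) (U : Subgroup G) (R : Set G) :
    (Σ g : R, Γ ⧸ mackeySubgroup loc U (g : G)) → G ⧸ U :=
  fun x => mackeyOrbitMap loc U (x.1 : G) x.2

lemma mackeySigmaMap_injective (hR : IsMackeyReps loc U R) :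
    Function.Injective (mackeySigmaMap loc U R) := by
  rintro ⟨⟨g, hg⟩, q⟩ ⟨⟨g', hg'⟩, q'⟩ h
  induction q using Quotient.inductionOn with | _ γ => ?_
  induction q' using Quotient.inductionOn with | _ γ' => ?_
  have h1 : ((loc γ * g⁻¹ : G) : G ⧸ U) = ((loc γ' * g'⁻¹ : G) : G ⧸ U) := h
  have h2 : (loc γ * g⁻¹)⁻¹ * (loc γ' * g'⁻¹) ∈ U := QuotientGroup.eq.mp h1
  -- `g' = u⁻¹ g loc(γ⁻¹ γ')`
  set u : G := (loc γ * g⁻¹)⁻¹ * (loc γ' * g'⁻¹) with hu
  have h3 : g' = (⟨u⁻¹, U.inv_mem h2⟩ : U) * g * loc (γ⁻¹ * γ') := by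
    show g' = u⁻¹ * g * loc (γ⁻¹ * γ')
    rw [hu, map_mul, map_inv]; group
  have h4 : g' = ((1 : U) : G) * g' * loc (1 : Γ) := by simp
  obtain ⟨g₀, -, huniq⟩ := hR g'
  have e1 : g = g₀ := huniq g ⟨hg, _, _, h3⟩
  have e2 : g' = g₀ := huniq g' ⟨hg', _, _, h4⟩
  have e : g = g' := e1.trans e2.symm
  subst e
  have h5 : γ⁻¹ * γ' ∈ mackeySubgroup loc U g := by
    rw [mem_mackeySubgroup]
    have : g * loc (γ⁻¹ * γ') * g⁻¹ = u := by
      rw [hu, map_mul, map_inv]; group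
    rw [this]
    exact h2
  have h6 : (γ : Γ ⧸ mackeySubgroup loc U g) = (γ' : Γ ⧸ mackeySubgroup loc U g) :=
    QuotientGroup.eq.mpr h5
  exact congrArg (fun q => (⟨⟨g, hg⟩, q⟩ : Σ g : R, Γ ⧸ mackeySubgroup loc U (g : G))) h6

lemma mackeySigmaMap_surjective (hR : IsMackeyReps loc U R) :
    Function.Surjective (mackeySigmaMap loc U R) := by
  intro c
  induction c using Quotient.inductionOn with | _ h => ?_
  obtain ⟨g, ⟨hg, v, γ, hx⟩, -⟩ := hR h⁻¹
  refine ⟨⟨⟨g, hg⟩, ((γ⁻¹ : Γ) : Γ ⧸ mackeySubgroup loc U g)⟩, ?_⟩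
  show ((loc γ⁻¹ * g⁻¹ : G) : G ⧸ U) = ((h : G) : G ⧸ U)
  apply QuotientGroup.eq.mpr
  have h1 : h = (loc γ)⁻¹ * g⁻¹ * (v : G)⁻¹ := by
    have := congrArg (fun y => y⁻¹) hx
    simp only [inv_inv, mul_inv_rev] at this
    rw [this]; group
  have : (loc γ⁻¹ * g⁻¹)⁻¹ * h = (v : G)⁻¹ := by
    rw [h1, map_inv]; group
  rw [this]
  exact U.inv_mem v.2

/-- **Orbit decomposition**: `(Σ g : R, Γ ⧸ Γ_g) ≃ G ⧸ U`. -/
noncomputable def mackeySigmaEquiv (hR : IsMackeyReps loc U R) :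
    (Σ g : R, Γ ⧸ mackeySubgroup loc U (g : G)) ≃ G ⧸ U :=
  Equiv.ofBijective _ ⟨mackeySigmaMap_injective hR, mackeySigmaMap_surjective hR⟩

/-- A set of double coset representatives of a subgroup of finite index is finite. -/
theorem mackeyReps_finite [U.FiniteIndex] (hR : IsMackeyReps loc U R) : R.Finite := by
  have hfin : Finite (Σ g : R, Γ ⧸ mackeySubgroup loc U (g : G)) :=
    Finite.of_equiv _ (mackeySigmaEquiv hR).symm
  have hinj : Function.Injective
      (fun g : R => (⟨g, ((1 : Γ) : Γ ⧸ mackeySubgroup loc U (g : G))⟩ :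
        Σ g : R, Γ ⧸ mackeySubgroup loc U (g : G))) := by
    intro a b hab
    exact congrArg Sigma.fst hab
  have : Finite R := Finite.of_injective _ hinj
  exact Set.toFinite R

/-- The Mackey subgroups have finite index. -/
theorem mackeySubgroup_finiteIndex [U.FiniteIndex] (loc : Γ →* G) (g : G) :
    (mackeySubgroup loc U g).FiniteIndex := by
  -- `Γ ⧸ Γ_g` embeds into `G ⧸ U`
  have hinj : Function.Injective (mackeyOrbitMap loc U g) := by
    intro q q' h
    induction q using Quotient.inductionOn with | _ γ => ?_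
    induction q' using Quotient.inductionOn with | _ γ' => ?_
    have h1 : ((loc γ * g⁻¹ : G) : G ⧸ U) = ((loc γ' * g⁻¹ : G) : G ⧸ U) := h
    have h2 : (loc γ * g⁻¹)⁻¹ * (loc γ' * g⁻¹) ∈ U := QuotientGroup.eq.mp h1
    apply QuotientGroup.eq.mpr
    rw [mem_mackeySubgroup]
    have : g * loc (γ⁻¹ * γ') * g⁻¹ = (loc γ * g⁻¹)⁻¹ * (loc γ' * g⁻¹) := by
      rw [map_mul, map_inv]; group
    rw [this]
    exact h2
  have : Finite (Γ ⧸ mackeySubgroup loc U g) := Finite.of_injective _ hinj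
  exact Subgroup.finiteIndex_of_finite_quotient

/-- **Orbit count**: `∑_{g ∈ R} [Γ : Γ_g] = [G : U]`. -/
theorem sum_index_mackeySubgroup [U.FiniteIndex] (hR : IsMackeyReps loc U R) :
    ∑ g ∈ (mackeyReps_finite hR).toFinset, (mackeySubgroup loc U g).index = U.index := by
  classical
  have hRfin : Finite R := (mackeyReps_finite hR).to_subtype
  letI : Fintype R := Fintype.ofFinite R
  have hfin : ∀ g : R, Finite (Γ ⧸ mackeySubgroup loc U (g : G)) := fun g =>
    haveI := mackeySubgroup_finiteIndex (U := U) loc (g : G)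
    inferInstance
  have h1 : Nat.card (G ⧸ U) = ∑ g : R, Nat.card (Γ ⧸ mackeySubgroup loc U (g : G)) := by
    rw [← Nat.card_congr (mackeySigmaEquiv hR), Nat.card_sigma]
  have h2 : ∑ g ∈ (mackeyReps_finite hR).toFinset, (mackeySubgroup loc U g).index =
      ∑ g : R, (mackeySubgroup loc U (g : G)).index := by
    rw [← Finset.sum_coe_sort]
    refine Fintype.sum_equiv (Equiv.subtypeEquivRight (fun g => by simp)) _ _ (fun g => rfl)
  rw [h2, Subgroup.index_eq_card, h1]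
  exact Finset.sum_congr rfl fun g _ => Subgroup.index_eq_card _

/-- **Orbit count**, `finsum` form. -/
theorem finsum_index_mackeySubgroup [U.FiniteIndex] (hR : IsMackeyReps loc U R) :
    ∑ᶠ g ∈ R, (mackeySubgroup loc U g).index = U.index := by
  rw [finsum_mem_eq_finite_toFinset_sum _ (mackeyReps_finite hR)]
  exact sum_index_mackeySubgroup hR

end Fermat.Agent.H78.CFT
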