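/-
P-CFT / LOCAL (helper78), row INV-FORMAL: the formal properties of the canonical local
invariant `HasInv`, from `UnramCocycleStatement` (row INV-STD).

* `unramCocycle_mul`, `unramCocycle_zpow` : multiplicativity in `a ∈ Eˣ`;
* `invIndep`  : `UnramCocycleStatement → InvIndepStatement`;
* `invUnique` : `UnramCocycleStatement → InvUniqueStatement`;
* `invPeriod` : `UnramCocycleStatement → InvPeriodStatement`;
* `invMul`    : `UnramCocycleStatement → InvMulStatement`;
* `hasInv_unramCocycle` : `inv(unramCocycle φ a) = ord(a) / m`;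
* `HasInv.inv`, `HasInv.zpow`, `HasInv.congr`.
-/
import Fermat.Agent.H78.CFT.LocalInvRows

set_option autoImplicit false
set_option synthInstance.maxHeartbeats 400000

namespace Fermat.Agent.H78.CFT

open Fermat.Agent.H13.Cft groupCohomology
open Fermat.Agent.H49.Unram Fermat.Agent.H61.CFT Fermat.Agent.H81.Local

variable {q : ℕ} [Fact q.Prime] {E : IntermediateField ℚ Qb}

theorem unramCocycle_mul (m : ℕ) (φ : unramExt q E m ≃ₐ[E] unramExt q E m) (a b : Eˣ)
    (x : E.fixingSubgroup × E.fixingSubgroup) :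
    unramCocycle q E m φ (a * b) x = unramCocycle q E m φ a x * unramCocycle q E m φ b x := by
  simp only [unramCocycle, inflE, map_mul, stdCocycle_mul]

theorem unramCocycle_zpow (m : ℕ) (φ : unramExt q E m ≃ₐ[E] unramExt q E m) (a : Eˣ) (k : ℤ)
    (x : E.fixingSubgroup × E.fixingSubgroup) :
    unramCocycle q E m φ (a ^ k) x = unramCocycle q E m φ a x ^ k := by
  simp only [unramCocycle, inflE, map_zpow, stdCocycle_zpow]

theorem unramCocycle_one (m : ℕ) (φ : unramExt q E m ≃ₐ[E] unramExt q E m)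
    (_x : E.fixingSubgroup × E.fixingSubgroup) :
    unramCocycle q E m φ 1 _x = 1 := by
  simp only [unramCocycle, inflE, map_one, stdCocycle_one]

/-- Level coboundaries only depend on the pointwise values. -/
theorem IsLvlMulCoboundary₂E.congr {c c' : E.fixingSubgroup × E.fixingSubgroup → Qbˣ}
    (h : IsLvlMulCoboundary₂E E c) (hcc' : ∀ x, c x = c' x) : IsLvlMulCoboundary₂E E c' := by
  have : c = c' := funext hcc'
  rwa [← this]

/-- Level coboundaries are closed under quotients. -/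
theorem IsLvlMulCoboundary₂E.div {c c' : E.fixingSubgroup × E.fixingSubgroup → Qbˣ}
    (h : IsLvlMulCoboundary₂E E c) (h' : IsLvlMulCoboundary₂E E c') :
    IsLvlMulCoboundary₂E E (fun x => c x / c' x) :=
  (h.mul h'.inv).congr fun x => (div_eq_mul_inv _ _).symm

/-- Two uniformizers have the same valuation. -/
theorem IsUnif.qVal_eq {π π' : Qb} (h : IsUnif q E π) (h' : IsUnif q E π') :
    qVal q π' = qVal q π := by
  obtain ⟨k, hk⟩ := h.2.2.2 π' h'.1 h'.2.1
  obtain ⟨l, hl⟩ := h'.2.2.2 π h.1 h.2.1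
  have hpos : 0 < qVal q π := h.pos
  have hlt : qVal q π < 1 := h.2.2.1
  have hpos' : 0 < qVal q π' := h'.pos
  have hlt' : qVal q π' < 1 := h'.2.2.1
  have hk1 : 0 < k := by
    rw [hk] at hlt'
    exact (zpow_lt_one_iff_right_of_lt_one₀ hpos hlt).mp hlt'
  have hl1 : 0 < l := by
    rw [hl] at hlt
    exact (zpow_lt_one_iff_right_of_lt_one₀ hpos' hlt').mp hlt
  have hkl : qVal q π ^ (k * l) = qVal q π ^ (1 : ℤ) := by
    rw [zpow_mul, ← hk, ← hl, zpow_one]
  have hinj := (zpow_right_strictAnti₀ hpos hlt).injective hkl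
  have hk' : k = 1 := by
    rcases Int.eq_one_or_neg_one_of_mul_eq_one hinj with h1 | h1
    · exact h1
    · omega
  rw [hk, hk', zpow_one]

/-- The quotient of two uniformizers is a unit of valuation `1`. -/
theorem qVal_div_unif {π π' : Eˣ} (h : IsUnif q E ((π : E) : Qb))
    (h' : IsUnif q E ((π' : E) : Qb)) :
    qVal q (((π' / π : Eˣ) : E) : Qb) = qVal q ((π : E) : Qb) ^ (0 : ℤ) := by
  have h1 : (((π' / π : Eˣ) : E) : Qb) = ((π' : E) : Qb) / ((π : E) : Qb) := by
    rw [Units.val_div_eq_div_val]; rfl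
  rw [h1, map_div₀, IsUnif.qVal_eq h h', zpow_zero]
  exact div_self (ne_of_gt h.pos)

section

variable (hU : UnramCocycleStatement)
include hU

/-- The unramified cocycle of a unit of valuation `1` is a level coboundary. -/
theorem unramCocycle_unit_coboundary (hE : IsLocalFinite q E) {m : ℕ}
    {φ : unramExt q E m ≃ₐ[E] unramExt q E m} (hφ : IsFrobE q E m φ) {π : Eˣ}
    (hπ : IsUnif q E ((π : E) : Qb)) {w : Eˣ}
    (hw : qVal q ((w : E) : Qb) = qVal q ((π : E) : Qb) ^ (0 : ℤ)) :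
    IsLvlMulCoboundary₂E E (unramCocycle q E m φ w) :=
  (hU q E hE m φ hφ π w 0 hπ hw).2 (dvd_zero _)

/-- **[INV-INDEP]** -/
theorem invIndep : InvIndepStatement := by
  intro q _ E hE m c j ⟨π₀, φ₀, hπ₀, hφ₀, hc⟩ π φ hπ hφ
  have hφφ : φ₀ = φ := IsFrobE.unique hφ₀ hφ
  subst hφφ
  -- `π = π₀ * w`
  have hw := qVal_div_unif hπ₀ hπ
  have hw' : qVal q ((((π / π₀) ^ j : Eˣ) : E) : Qb) = qVal q ((π₀ : E) : Qb) ^ (0 : ℤ) := by
    have : ((((π / π₀) ^ j : Eˣ) : E) : Qb) = ((((π / π₀ : Eˣ) : E) : Qb)) ^ j := by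
      rw [Units.val_zpow_eq_zpow_val]; rfl
    rw [this, map_zpow₀, hw, zpow_zero, one_zpow]
  have h1 := unramCocycle_unit_coboundary hU hE hφ₀ hπ₀ hw'
  refine (hc.div h1).congr fun x => ?_
  have h2 : π = π₀ * (π / π₀) := by rw [mul_div_cancel]
  conv_rhs => rw [h2]
  rw [unramCocycle_mul, unramCocycle_zpow, mul_zpow, div_div]

/-- **[INV-UNIQ]** -/
theorem invUnique : InvUniqueStatement := by
  intro q _ E hE m c j j' hj hj'
  obtain ⟨π, φ, hπ, hφ, hc⟩ := hj
  have hc' := invIndep hU q E hE m c j' hj' π φ hπ hφ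
  have h1 : IsLvlMulCoboundary₂E E (unramCocycle q E m φ (π ^ (j - j'))) := by
    refine (hc'.div hc).congr fun x => ?_
    rw [unramCocycle_zpow, zpow_sub, ← div_eq_mul_inv]
    show c x / unramCocycle q E m φ π x ^ j' / (c x / unramCocycle q E m φ π x ^ j) = _
    rw [div_div_div_cancel_left]
  have h2 : qVal q ((((π ^ (j - j') : Eˣ)) : E) : Qb) = qVal q ((π : E) : Qb) ^ (j - j') := by
    have : ((((π ^ (j - j') : Eˣ)) : E) : Qb) = ((π : E) : Qb) ^ (j - j') := by
      rw [Units.val_zpow_eq_zpow_val]; rfl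
    rw [this, map_zpow₀]
  exact (hU q E hE m φ hφ π (π ^ (j - j')) (j - j') hπ h2).1 h1

/-- **[INV-PER]** -/
theorem invPeriod : InvPeriodStatement := by
  intro q _ E hE m c j j' hj hdvd
  obtain ⟨π, φ, hπ, hφ, hc⟩ := hj
  refine ⟨π, φ, hπ, hφ, ?_⟩
  have h2 : qVal q ((((π ^ (j - j') : Eˣ)) : E) : Qb) = qVal q ((π : E) : Qb) ^ (j - j') := by
    have : ((((π ^ (j - j') : Eˣ)) : E) : Qb) = ((π : E) : Qb) ^ (j - j') := by
      rw [Units.val_zpow_eq_zpow_val]; rfl
    rw [this, map_zpow₀]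
  have h1 := (hU q E hE m φ hφ π (π ^ (j - j')) (j - j') hπ h2).2 hdvd
  refine (hc.mul h1).congr fun x => ?_
  rw [unramCocycle_zpow, zpow_sub, ← div_eq_mul_inv]
  show c x / unramCocycle q E m φ π x ^ j *
    (unramCocycle q E m φ π x ^ j / unramCocycle q E m φ π x ^ j') = _
  rw [div_mul_div_cancel]

/-- **[INV-MUL]** -/
theorem invMul : InvMulStatement := by
  intro q _ E hE m c c' j j' hj hj'
  obtain ⟨π, φ, hπ, hφ, hc⟩ := hj
  have hc' := invIndep hU q E hE m c' j' hj' π φ hπ hφ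
  refine ⟨π, φ, hπ, hφ, (hc.mul hc').congr fun x => ?_⟩
  show c x / unramCocycle q E m φ π x ^ j * (c' x / unramCocycle q E m φ π x ^ j') = _
  rw [zpow_add, div_mul_div_comm]

/-- `inv(unramCocycle φ a) = ord(a) / m`. -/
theorem hasInv_unramCocycle (hE : IsLocalFinite q E) {m : ℕ}
    {φ : unramExt q E m ≃ₐ[E] unramExt q E m} (hφ : IsFrobE q E m φ) {π : Eˣ}
    (hπ : IsUnif q E ((π : E) : Qb)) (a : Eˣ) (k : ℤ)
    (ha : qVal q ((a : E) : Qb) = qVal q ((π : E) : Qb) ^ k) :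
    HasInv q E (unramCocycle q E m φ a) k m := by
  refine ⟨π, φ, hπ, hφ, ?_⟩
  have hw : qVal q (((a / π ^ k : Eˣ) : E) : Qb) = qVal q ((π : E) : Qb) ^ (0 : ℤ) := by
    have : (((a / π ^ k : Eˣ) : E) : Qb) = ((a : E) : Qb) / ((π : E) : Qb) ^ k := by
      rw [Units.val_div_eq_div_val, Units.val_zpow_eq_zpow_val]; rfl
    rw [this, map_div₀, map_zpow₀, ha, zpow_zero]
    exact div_self (zpow_ne_zero _ (ne_of_gt hπ.pos))
  refine (unramCocycle_unit_coboundary hU hE hφ hπ hw).congr fun x => ?_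
  have h1 : a / π ^ k = a * π ^ (-k) := by rw [zpow_neg, div_eq_mul_inv]
  rw [h1, unramCocycle_mul, unramCocycle_zpow, zpow_neg, div_eq_mul_inv]

end

/-- The invariant of the inverse. -/
theorem HasInv.inv {c : E.fixingSubgroup × E.fixingSubgroup → Qbˣ} {j : ℤ} {m : ℕ}
    (h : HasInv q E c j m) : HasInv q E (fun x => (c x)⁻¹) (-j) m := by
  obtain ⟨π, φ, hπ, hφ, hc⟩ := h
  refine ⟨π, φ, hπ, hφ, hc.inv.congr fun x => ?_⟩
  show (c x / unramCocycle q E m φ π x ^ j)⁻¹ = (c x)⁻¹ / unramCocycle q E m φ π x ^ (-j)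
  rw [zpow_neg, inv_div, div_inv_eq_mul, div_eq_mul_inv, mul_comm]

/-- The invariant of a power. -/
theorem HasInv.zpow {c : E.fixingSubgroup × E.fixingSubgroup → Qbˣ} {j : ℤ} {m : ℕ}
    (h : HasInv q E c j m) (k : ℕ) : HasInv q E (fun x => c x ^ k) (j * k) m := by
  obtain ⟨π, φ, hπ, hφ, hc⟩ := h
  refine ⟨π, φ, hπ, hφ, ?_⟩
  induction k with
  | zero =>
    refine (isLvlMulCoboundary₂E_one E).congr fun x => ?_
    simp
  | succ k ih =>
    refine (ih.mul hc).congr fun x => ?_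
    show c x ^ k / unramCocycle q E m φ π x ^ (j * (k : ℤ)) *
      (c x / unramCocycle q E m φ π x ^ j) = c x ^ (k + 1) /
        unramCocycle q E m φ π x ^ (j * ((k + 1 : ℕ) : ℤ))
    rw [div_mul_div_comm, ← pow_succ, ← zpow_add]
    congr 2
    push_cast
    ring

/-- The invariant only depends on the class: multiplication by a level coboundary. -/
theorem HasInv.mul_coboundary {c b : E.fixingSubgroup × E.fixingSubgroup → Qbˣ} {j : ℤ} {m : ℕ}
    (h : HasInv q E c j m) (hb : IsLvlMulCoboundary₂E E b) :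
    HasInv q E (fun x => c x * b x) j m := by
  obtain ⟨π, φ, hπ, hφ, hc⟩ := h
  refine ⟨π, φ, hπ, hφ, (hc.mul hb).congr fun x => ?_⟩
  show c x / unramCocycle q E m φ π x ^ j * b x = c x * b x / unramCocycle q E m φ π x ^ j
  rw [div_mul_eq_mul_div]

end Fermat.Agent.H78.CFT
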