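/-
P-CFT / LOCAL (sub-lead helper78): ASSEMBLY of the local target from the leaves.

`localCore_of_leaves` : `LocalCoreStatement` (local Tate duality for the trivial module on every
open subgroup of the local Galois group on which the cyclotomic character is trivial) from

* `BrauerPStatement`        (row 631, LOC-6)
* `Lvl2FiniteStatement`, `Inf2LvlStatement`-consumers (row 627, LOC-INF2)
* `InflCoboundaryStatement` (LOC-INFL)
* `MuDescentStatement`      (row 626, LOC-H90)
* `CupNormStatement`        (row 629, LOC-8)
* `PowFiniteStatement`      (row 630, LOC-7)

using the landed `KummerEStatement` (helper47), `FieldToLocalStatement` (helper81) and the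
local norm index theorem (helper78).
-/
import Fermat.Agent.H78.CFT.LocalH2
import Fermat.Agent.H47.Cft.KummerE
import Fermat.Agent.H81.Local.B5

set_option autoImplicit false

namespace Fermat.Agent.H78.CFT

/-- The local target over fields from the leaves. -/
theorem fieldCore_of_leaves (hbr : BrauerPStatement) (hfin : Lvl2FiniteStatement)
    (hinfl : InflCoboundaryStatement) (hmu : MuDescentStatement) (hcup : CupNormStatement)
    (hpow : PowFiniteStatement) : FieldCoreStatement :=
  fieldCore_of_parts (fieldCup_of hcup Fermat.Agent.H47.Cft.kummerE)
    (fieldH2_of hbr hfin hmu hcup Fermat.Agent.H47.Cft.kummerE hinfl)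
    (Fermat.Agent.H47.Cft.fieldH1Finite_of hpow Fermat.Agent.H47.Cft.kummerE)

/-- **The local target** from the leaves. -/
theorem localCore_of_leaves (hbr : BrauerPStatement) (hfin : Lvl2FiniteStatement)
    (hinfl : InflCoboundaryStatement) (hmu : MuDescentStatement) (hcup : CupNormStatement)
    (hpow : PowFiniteStatement) : LocalCoreStatement :=
  Fermat.Agent.H81.Local.fieldToLocal (fieldCore_of_leaves hbr hfin hinfl hmu hcup hpow)

end Fermat.Agent.H78.CFT
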