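/-
P-CFT / LOCAL (helper78): restriction of level cochains `G_E → G_{E'}` (`E ≤ E'`) and the
"inert" special case of `[INV-RES]`: a class with an invariant `j / m` over `E` dies in every
`E'` containing the unramified extension of degree `m` of `E`.

* `IsLvlFun₁.res`, `IsLvlFun₂.res`, `IsMulCocycle₂E.res`, `IsLvlMulCoboundary₂E.res`;
* `resCochain₂_unramCocycle` : the restriction of `unramCocycle q E m φ a` to `G_{E'}` is
  trivial (as a cochain) if `unramExt q E m ⊆ E'`;
* `HasInv.res_coboundary` : `HasInv q E c j m` and `unramExt q E m ⊆ E'` imply that the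
  restriction of `c` to `G_{E'}` is a level coboundary;
* `HasInv.res_coboundary_of_resCard` : the same for `E'` local with
  `resCard q E' = resCard q E ^ f`, `m ∣ f`.
-/
import Fermat.Agent.H78.CFT.LocalInvFormal
import Fermat.Agent.H49.CFT.UnramHensel
import Fermat.Agent.H75.Inf2Galois

set_option autoImplicit false
set_option synthInstance.maxHeartbeats 400000

namespace Fermat.Agent.H78.CFT

open Fermat.Agent.H13.Cft groupCohomology
open Fermat.Agent.H49.Unram Fermat.Agent.H61.CFT Fermat.Agent.H81.Local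

variable {E E' : IntermediateField ℚ Qb}

/-- The inclusion `G_{E'} → G_E`. -/
noncomputable def inclGal (h : E ≤ E') : E'.fixingSubgroup →* E.fixingSubgroup :=
  Subgroup.inclusion (IntermediateField.fixingSubgroup_le h)

@[simp] lemma coe_inclGal (h : E ≤ E') (g : E'.fixingSubgroup) :
    ((inclGal h g : E.fixingSubgroup) : Qb ≃ₐ[ℚ] Qb) = (g : Qb ≃ₐ[ℚ] Qb) := rfl

lemma resCochain₂_apply (h : E ≤ E') {M : Type}
    (c : E.fixingSubgroup × E.fixingSubgroup → M) (x : E'.fixingSubgroup × E'.fixingSubgroup) :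
    resCochain₂ h c x = c (inclGal h x.1, inclGal h x.2) := rfl

/-- The preimage of a level of `G_E` is a level of `G_{E'}`. -/
lemma comap_inclGal_mem_lvlE (h : E ≤ E') {N : Subgroup E.fixingSubgroup}
    (hN : N ∈ (lvlE E).sets) : N.comap (inclGal h) ∈ (lvlE E').sets := by
  obtain ⟨hN1, hN2, F, hF, hFN⟩ := hN
  have hfi : (N.comap (inclGal h)).FiniteIndex := by
    refine ⟨?_⟩
    rw [Subgroup.index_comap]
    exact (Subgroup.instFiniteIndex_subgroupOf N (inclGal h).range).index_ne_zero
  refine ⟨inferInstance, hfi, F, hF, ?_⟩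
  intro g hg
  rw [Subgroup.mem_comap] at hg ⊢
  apply hFN
  rw [Subgroup.mem_comap]
  exact hg

/-- Restriction of level 1-cochains. -/
theorem IsLvlFun₁.res (h : E ≤ E') {M : Type} {x : E.fixingSubgroup → M}
    (hx : IsLvlFun₁ (lvlE E) x) : IsLvlFun₁ (lvlE E') (fun g => x (inclGal h g)) := by
  obtain ⟨N, hN, hxN⟩ := hx
  refine ⟨N.comap (inclGal h), comap_inclGal_mem_lvlE h hN, fun g n hn => ?_⟩
  show x (inclGal h (g * n)) = x (inclGal h g)
  rw [map_mul]
  exact hxN _ _ hn

/-- Restriction of level 2-cochains. -/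
theorem IsLvlFun₂.res (h : E ≤ E') {M : Type} {c : E.fixingSubgroup × E.fixingSubgroup → M}
    (hc : IsLvlFun₂ (lvlE E) c) : IsLvlFun₂ (lvlE E') (resCochain₂ h c) := by
  obtain ⟨N, hN, hcN⟩ := hc
  refine ⟨N.comap (inclGal h), comap_inclGal_mem_lvlE h hN, fun g g' n hn n' hn' => ?_⟩
  rw [resCochain₂_apply, resCochain₂_apply]
  show c (inclGal h (g * n), inclGal h (g' * n')) = _
  rw [map_mul, map_mul]
  exact hcN _ _ _ hn _ hn'

/-- Restriction of 2-cocycles. -/
theorem IsMulCocycle₂E.res (h : E ≤ E') {c : E.fixingSubgroup × E.fixingSubgroup → Qbˣ}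
    (hc : IsMulCocycle₂E E c) : IsMulCocycle₂E E' (resCochain₂ h c) := by
  intro g g' g''
  have := hc (inclGal h g) (inclGal h g') (inclGal h g'')
  simpa only [resCochain₂_apply, map_mul, coe_inclGal] using this

/-- Restriction of level coboundaries. -/
theorem IsLvlMulCoboundary₂E.res (h : E ≤ E') {c : E.fixingSubgroup × E.fixingSubgroup → Qbˣ}
    (hc : IsLvlMulCoboundary₂E E c) : IsLvlMulCoboundary₂E E' (resCochain₂ h c) := by
  obtain ⟨x, hx, hxc⟩ := hc
  refine ⟨fun g => x (inclGal h g), hx.res h, fun gh => ?_⟩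
  rw [resCochain₂_apply, ← hxc]
  simp only [mulD₁E, map_mul, coe_inclGal]

/-- The standard cocycle is trivial at `(1, 1)`. -/
lemma stdCocycle_one_one {G M : Type*} [Group G] [CommGroup M] (g : G) (a : M) :
    stdCocycle g a (1, 1) = 1 := by
  have h0 : dlog g (1 : G) = 0 := by
    unfold dlog
    exact Nat.sInf_eq_zero.2 (Or.inl (by simp))
  rw [stdCocycle_apply, h0, Nat.zero_add, Nat.zero_div, pow_zero]

/-- The restriction of the unramified cocycle of degree `m` to `G_{E'}` is trivial if `E'`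
contains the unramified extension of degree `m` of `E`. -/
theorem resCochain₂_unramCocycle {q : ℕ} [Fact q.Prime] (h : E ≤ E') (m : ℕ)
    (φ : unramExt q E m ≃ₐ[E] unramExt q E m) (a : Eˣ)
    (hF : ∀ x : Qb, x ∈ unramExt q E m → x ∈ E') (x : E'.fixingSubgroup × E'.fixingSubgroup) :
    resCochain₂ h (unramCocycle q E m φ a) x = 1 := by
  have key : ∀ g : E'.fixingSubgroup, resEF E (unramExt q E m) (inclGal h g) = 1 := by
    intro g
    rw [Fermat.Agent.H75.Inf2.resEF_eq_one_iff]
    intro y
    rw [coe_inclGal]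
    exact g.2 ⟨(y : Qb), hF _ y.2⟩
  rw [resCochain₂_apply]
  show Units.map _ (stdCocycle φ _ (resEF E (unramExt q E m) (inclGal h x.1),
    resEF E (unramExt q E m) (inclGal h x.2))) = 1
  rw [key, key, stdCocycle_one_one, map_one]

/-- **[INV-RES], inert case**: a class with an invariant `j / m` over `E` becomes trivial over
every field `E'` containing the unramified extension of degree `m` of `E`. -/
theorem HasInv.res_coboundary {q : ℕ} [Fact q.Prime] (h : E ≤ E')
    {c : E.fixingSubgroup × E.fixingSubgroup → Qbˣ} {j : ℤ} {m : ℕ} (hc : HasInv q E c j m)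
    (hF : ∀ x : Qb, x ∈ unramExt q E m → x ∈ E') :
    IsLvlMulCoboundary₂E E' (resCochain₂ h c) := by
  obtain ⟨π, φ, -, -, hcb⟩ := hc
  refine (hcb.res h).congr fun x => ?_
  rw [resCochain₂_apply]
  show c _ / unramCocycle q E m φ π (inclGal h x.1, inclGal h x.2) ^ j = _
  have h1 := resCochain₂_unramCocycle h m φ π hF x
  rw [resCochain₂_apply] at h1
  rw [h1, one_zpow, div_one, resCochain₂_apply]

/-- **[INV-RES], inert case** for a local field `E'` whose residue field has degree `f` over
that of `E`, `m ∣ f`. -/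
theorem HasInv.res_coboundary_of_resCard {q : ℕ} [Fact q.Prime] (h : E ≤ E')
    (hE' : IsLocalFinite q E') {f : ℕ} (hf : resCard q E' = resCard q E ^ f)
    {c : E.fixingSubgroup × E.fixingSubgroup → Qbˣ} {j : ℤ} {m : ℕ} (hc : HasInv q E c j m)
    (hmf : m ∣ f) : IsLvlMulCoboundary₂E E' (resCochain₂ h c) :=
  hc.res_coboundary h fun _ hx => unramExt_le h hE' hf (unramExt_mono E hmf hx)

end Fermat.Agent.H78.CFT
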