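/-
P-CFT / LOCAL (helper78): THE LOCAL PRODUCT FORMULA for the global count `[GC-U]`
(row 965 GC-FIELD, step (3), local side).

* `relfinrank_eq_relIndex_fixingSubgroup` : `[E : F] = [Gal(K/F) : Gal(K/E)]` for intermediate
  fields `F ≤ E` of a Galois extension (pure Galois theory, Mathlib only);
* `localH1Card_comp`, `localH1Card_restrict` : for an open subgroup `V` of the local Galois group
  `Γ_q` on which the mod `p` cyclotomic character is trivial,
  `# H¹(V, ZMod p) = p ^ (2 + [Γ_q : V])` if `q = p` and `p ^ 2` otherwise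
  (helper97's `fieldH1Card` + helper81's dictionary `V ≃ Gal(ℚ̄/E)` + `[E : K_v] = [Γ_q : V]`);
* `localProd` : for `U ≤ G_ℚ` `χ`-open and systems of representatives `R v` of the places of `U`
  over `v ∈ S`:
  `∏_v ∏_{g ∈ R v} # H¹(D_{v,g}, ZMod p) = p ^ (2 ∑_v #(R v) + [G_ℚ : U])`
  (the local count + the orbit count `∑_{g ∈ R_p} [Γ_p : D_{p,g}] = [G_ℚ : U]` of `OrbitCount`).
  This is exactly the product on the left-hand side of
  `Fermat.Agent.H13.Cft.GlobalCountUStatement`.
-/
import Fermat.Agent.H13.Cft.ULang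
import Fermat.Agent.H78.CFT.OrbitCount
import Fermat.Agent.H97.Cft.FieldH1Card
import Fermat.Agent.H81.Local.B5
import Fermat.Agent.H85.Cft.LcShap

set_option autoImplicit false

namespace Fermat.Agent.H78.CFT

open Fermat.Agent.H13.Cft ExtCitation Fermat.Agent.H97.Shap Fermat.Agent.H81.Local

/-! ### Galois theory: degree = relative index -/

section galois

variable {k K : Type*} [Field k] [Field K] [Algebra k K]

/-- `[E : F] = [Gal(K/F) : Gal(K/E)]` for intermediate fields `F ≤ E` of a Galois extension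
`K / k` (both sides are `0` in the infinite case). -/
theorem relfinrank_eq_relIndex_fixingSubgroup [IsGalois k K] {F E : IntermediateField k K}
    (h : F ≤ E) :
    IntermediateField.relfinrank F E = E.fixingSubgroup.relIndex F.fixingSubgroup := by
  rw [IntermediateField.relfinrank_eq_finrank_of_le h,
    IntermediateField.finrank_eq_fixingSubgroup_index]
  rw [Subgroup.relIndex,
    ← Subgroup.index_comap_of_surjective (IntermediateField.extendScalars h).fixingSubgroup
      (f := (IntermediateField.fixingSubgroupEquiv F).toMonoidHom)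
      (IntermediateField.fixingSubgroupEquiv F).surjective]
  rfl

end galois

/-! ### Level homomorphisms for cofinal level systems -/

section finer

variable {G : Type} [Group G] {𝒲 𝒰 : LevelSys G} {A : Type}

lemma IsLvl₁.of_finer (h : Fermat.Agent.H85.LcShap.Finer 𝒲 𝒰) {x : G → A}
    (hx : IsLvl₁ 𝒲 x) : IsLvl₁ 𝒰 x := by
  obtain ⟨N, hN, hinv⟩ := hx
  obtain ⟨N', hN', hle⟩ := h N hN
  exact ⟨N', hN', fun g n hn => hinv g n (hle hn)⟩

lemma IsLvlHom.of_finer [AddCommGroup A] (h : Fermat.Agent.H85.LcShap.Finer 𝒲 𝒰) {x : G → A}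
    (hx : IsLvlHom 𝒲 x) : IsLvlHom 𝒰 x :=
  ⟨hx.1, IsLvl₁.of_finer h hx.2⟩

end finer

/-! ### The local count -/

section count

variable (p : ℕ) [Fact p.Prime]

/-- The index of an open subgroup `V` of `Γ_q` is the degree over `K_v` of the fixed field of
its image in `G_ℚ`. -/
theorem relfinrank_fixedField_map (q : Nat.Primes) (V : Subgroup (primeLocalGaloisGroup q))
    (hV : ∃ N ∈ (pullbackLevelSys (primeLocalToGlobal q)).sets, N ≤ V) :
    IntermediateField.relfinrank (@localField (q : ℕ) ⟨q.2⟩)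
      (IntermediateField.fixedField (V.map (primeLocalToGlobal q))) = V.index := by
  have : Fact (q : ℕ).Prime := ⟨q.2⟩
  have hgal := Fermat.Agent.H81.isGalois_rat_Qbar
  obtain ⟨N, ⟨-, -, F, hF, hFN⟩, hNV⟩ := hV
  have := hF
  set r : primeLocalGaloisGroup q →* Fermat.Agent.H13.Cft.GQ := primeLocalToGlobal q with hr
  have hrange : r.range = Dq (q : ℕ) := range_localGaloisToGlobal (q : ℕ)
  have hinj : Function.Injective r := localGaloisToGlobal_injective (q : ℕ)
  set W : Subgroup Fermat.Agent.H13.Cft.GQ := V.map r with hWdef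
  have hWD : W ≤ Dq (q : ℕ) := by
    rw [← hrange]
    rintro _ ⟨v, _, rfl⟩
    exact ⟨v, rfl⟩
  have hUW : F.fixingSubgroup ⊓ Dq (q : ℕ) ≤ W := by
    rintro σ ⟨hσF, hσD⟩
    rw [← hrange] at hσD
    obtain ⟨τ, rfl⟩ := hσD
    exact ⟨τ, hNV (hFN hσF), rfl⟩
  have hE : IsLocalFinite (q : ℕ) (IntermediateField.fixedField W) :=
    isLocalFinite_fixedField_of_between (q : ℕ) hWD F hUW
  have hfix : (IntermediateField.fixedField W).fixingSubgroup = W :=
    fixingSubgroup_fixedField_of_between (q : ℕ) hWD F hUW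
  rw [relfinrank_eq_relIndex_fixingSubgroup hE.le, hfix, fixingSubgroup_localField, ← hrange,
    MonoidHom.range_eq_map, hWdef, Subgroup.relIndex_map_map_of_injective _ _ hinj,
    Subgroup.relIndex_top_right]

/-- **The local `H¹` count**, level system `pullbackLevelSys (loc ∘ V.subtype)`. -/
theorem localH1Card_comp (hp2 : p ≠ 2) (q : Nat.Primes)
    (V : Subgroup (primeLocalGaloisGroup q))
    (hV : ∃ N ∈ (pullbackLevelSys (primeLocalToGlobal q)).sets, N ≤ V)
    (hχ : ∀ s ∈ V, cycloChar p (primeLocalToGlobal q s) = 1) :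
    Nat.card {ψ : V → ZMod p //
        IsLvlHom (pullbackLevelSys ((primeLocalToGlobal q).comp V.subtype)) ψ}
      = if (q : ℕ) = p then p ^ (2 + V.index) else p ^ 2 := by
  have : Fact (q : ℕ).Prime := ⟨q.2⟩
  have hp : p.Prime := Fact.out
  have : NeZero p := ⟨hp.ne_zero⟩
  have hidx := relfinrank_fixedField_map q V hV
  obtain ⟨N, ⟨-, -, F, hF, hFN⟩, hNV⟩ := hV
  have := hF
  set r : primeLocalGaloisGroup q →* Fermat.Agent.H13.Cft.GQ := primeLocalToGlobal q with hr
  have hrange : r.range = Dq (q : ℕ) := range_localGaloisToGlobal (q : ℕ)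
  have hinj : Function.Injective r := localGaloisToGlobal_injective (q : ℕ)
  set W : Subgroup Fermat.Agent.H13.Cft.GQ := V.map r with hWdef
  have hWD : W ≤ Dq (q : ℕ) := by
    rw [← hrange]
    rintro _ ⟨v, _, rfl⟩
    exact ⟨v, rfl⟩
  have hUW : F.fixingSubgroup ⊓ Dq (q : ℕ) ≤ W := by
    rintro σ ⟨hσF, hσD⟩
    rw [← hrange] at hσD
    obtain ⟨τ, rfl⟩ := hσD
    exact ⟨τ, hNV (hFN hσF), rfl⟩
  set E : IntermediateField ℚ (AlgebraicClosure ℚ) := IntermediateField.fixedField W with hEdef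
  have hE : IsLocalFinite (q : ℕ) E := isLocalFinite_fixedField_of_between (q : ℕ) hWD F hUW
  have hfix : E.fixingSubgroup = W := fixingSubgroup_fixedField_of_between (q : ℕ) hWD F hUW
  -- `ζ_p ∈ E`
  obtain ⟨ζ, hζ⟩ := HasEnoughRootsOfUnity.exists_primitiveRoot (AlgebraicClosure ℚ) p
  have hζE : ζ ∈ E := by
    rw [hEdef, IntermediateField.mem_fixedField_iff]
    rintro σ ⟨v, hv, rfl⟩
    exact apply_eq_of_cycloChar_eq_one p (hχ v hv) hζ.pow_eq_one
  -- the isomorphism `V ≃* Gal(ℚ̄/E)`
  have hmem : ∀ v : V, (r.comp V.subtype) v ∈ E.fixingSubgroup := by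
    intro v
    rw [hfix]
    exact ⟨v, v.2, rfl⟩
  set f : V →* E.fixingSubgroup := (r.comp V.subtype).codRestrict E.fixingSubgroup hmem with hf
  have hbij : Function.Bijective f := by
    constructor
    · intro v v' hvv'
      have h1 : r v = r v' := congrArg Subtype.val hvv'
      exact Subtype.ext (hinj h1)
    · rintro ⟨σ, hσ⟩
      rw [hfix] at hσ
      obtain ⟨v, hv, rfl⟩ := hσ
      exact ⟨⟨v, hv⟩, rfl⟩
  set e : V ≃* E.fixingSubgroup := MulEquiv.ofBijective f hbij with he
  have h1 : ∀ g, E.fixingSubgroup.subtype (e g) = (r.comp V.subtype) g := fun _ => rfl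
  have h2 : ∀ g', (r.comp V.subtype) (e.symm g') = E.fixingSubgroup.subtype g' := by
    intro g'
    rw [← h1, MulEquiv.apply_symm_apply]
  have hcard := Fermat.Agent.H97.fieldH1Card p hp2 (q : ℕ) E hE ⟨ζ, hζE, hζ⟩
  rw [hidx] at hcard
  rw [← hcard]
  refine Nat.card_congr
    { toFun := fun ψ => ⟨fun g' => ψ.1 (e.symm g'),
        isLvlHom_comp e.symm E.fixingSubgroup.subtype (r.comp V.subtype) h2 ψ.2⟩
      invFun := fun χ => ⟨fun g => χ.1 (e g),
        isLvlHom_comp e (r.comp V.subtype) E.fixingSubgroup.subtype h1 χ.2⟩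
      left_inv := ?_
      right_inv := ?_ }
  · intro ψ
    apply Subtype.ext
    funext g
    simp
  · intro χ
    apply Subtype.ext
    funext g
    simp

/-- **The local `H¹` count**, level system `(pullbackLevelSys loc).restrict V` (the level system
of the frame and of the `U`-language). -/
theorem localH1Card_restrict (hp2 : p ≠ 2) (q : Nat.Primes)
    (V : Subgroup (primeLocalGaloisGroup q))
    (hV : ∃ N ∈ (pullbackLevelSys (primeLocalToGlobal q)).sets, N ≤ V)
    (hχ : ∀ s ∈ V, cycloChar p (primeLocalToGlobal q s) = 1) :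
    Nat.card {ψ : V → ZMod p //
        IsLvlHom ((pullbackLevelSys (primeLocalToGlobal q)).restrict V hV) ψ}
      = if (q : ℕ) = p then p ^ (2 + V.index) else p ^ 2 := by
  rw [← localH1Card_comp p hp2 q V hV hχ]
  exact Nat.card_congr (Equiv.subtypeEquivRight fun ψ =>
    ⟨IsLvlHom.of_finer (Fermat.Agent.H85.LcShap.lcs_finer_restrict _ V hV),
      IsLvlHom.of_finer (Fermat.Agent.H85.LcShap.lcs_finer_pullback _ V hV)⟩)

end count

/-! ### The product over the places of `U` -/

section prod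

variable (p : ℕ) [Fact p.Prime]

/-- `χ ∘ loc` is trivial on the decomposition subgroups of a subgroup on which `χ` is trivial. -/
lemma cycloChar_loc_eq_one_of_mem_mackeySubgroup {q : Nat.Primes}
    {U : Subgroup Fermat.Agent.H13.Cft.GQ} (hU : ∀ u ∈ U, cycloChar p u = 1)
    (g : Fermat.Agent.H13.Cft.GQ) {s : primeLocalGaloisGroup q}
    (hs : s ∈ mackeySubgroup (primeLocalToGlobal q) U g) :
    cycloChar p (primeLocalToGlobal q s) = 1 := by
  have h := hU _ ((mem_mackeySubgroup _ _ _).mp hs)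
  rw [map_mul, map_mul, map_inv, mul_comm (cycloChar p g), mul_inv_cancel_right] at h
  exact h

/-- **The local `H¹` count at a place `(v, g)` of `U`.** -/
theorem decH1Card (hp2 : p ≠ 2) (S : Finset Nat.Primes)
    (hχ : ∃ N ∈ (globalLevelSys S).sets, ∀ s ∈ N, cycloChar p s = 1)
    (U : Subgroup Fermat.Agent.H13.Cft.GQ)
    (hU : IsChiOpen (globalLevelSys S) (cycloChar p) U)
    (v : ↥S) (g : Fermat.Agent.H13.Cft.GQ) :
    Nat.card {ψ : mackeySubgroup ((arithDatumQ p S hχ).loc v) U g → ZMod p //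
        IsLvlHom (decLvl (arithDatumQ p S hχ) U hU.1 v g) ψ}
      = p ^ (2 + if ((v : Nat.Primes) : ℕ) = p then
          (mackeySubgroup ((arithDatumQ p S hχ).loc v) U g).index else 0) := by
  have h := localH1Card_restrict p hp2 v.1
    (mackeySubgroup ((arithDatumQ p S hχ).loc v) U g)
    (mackeySubgroup_open ((arithDatumQ p S hχ).loc v) U g ((arithDatumQ p S hχ).compat v) hU.1)
    (fun s hs => cycloChar_loc_eq_one_of_mem_mackeySubgroup p hU.2 g hs)
  split_ifs with hv
  · rw [if_pos hv] at h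
    exact h
  · rw [if_neg hv] at h
    exact h

/-- **THE LOCAL PRODUCT FORMULA.**  For `U ≤ G_ℚ` `χ`-open and systems of representatives `R v`
of the places of `U` over the primes `v ∈ S` (`p ∈ S`):
`∏_v ∏_{g ∈ R v} # H¹(D_{v,g}, ZMod p) = p ^ (2 ∑_v #(R v) + [G_ℚ : U])`. -/
theorem localProd (hp2 : p ≠ 2) (S : Finset Nat.Primes) (hpS : pPrime p ∈ S)
    (hχ : ∃ N ∈ (globalLevelSys S).sets, ∀ s ∈ N, cycloChar p s = 1)
    (U : Subgroup Fermat.Agent.H13.Cft.GQ)
    (hU : IsChiOpen (globalLevelSys S) (cycloChar p) U)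
    (R : (arithDatumQ p S hχ).ι → Finset Fermat.Agent.H13.Cft.GQ)
    (hR : ∀ v, IsPlaceReps (arithDatumQ p S hχ) U v (R v)) :
    (∏ v, ∏ g ∈ R v,
        Nat.card {ψ : mackeySubgroup ((arithDatumQ p S hχ).loc v) U g → ZMod p //
          IsLvlHom (decLvl (arithDatumQ p S hχ) U hU.1 v g) ψ})
      = p ^ (2 * (∑ v, (R v).card) + U.index) := by
  classical
  have : U.FiniteIndex := by
    obtain ⟨N, hN, hNU⟩ := hU.1
    have := (globalLevelSys S).finiteIndex N hN
    exact Subgroup.finiteIndex_of_le hNU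
  simp_rw [decH1Card p hp2 S hχ U hU]
  rw [Finset.prod_congr rfl (fun v _ => Finset.prod_pow_eq_pow_sum (R v) _ p),
    Finset.prod_pow_eq_pow_sum]
  congr 1
  simp_rw [Finset.sum_add_distrib, Finset.sum_const, smul_eq_mul]
  rw [Finset.mul_sum]
  congr 1
  · exact Finset.sum_congr rfl (fun v _ => mul_comm _ _)
  · -- only `v = p` contributes
    set vp : (arithDatumQ p S hχ).ι := (⟨pPrime p, hpS⟩ : ↥S) with hvp
    rw [Finset.sum_eq_single vp]
    · have hR' : IsMackeyReps ((arithDatumQ p S hχ).loc vp) U (↑(R vp) : Set _) := hR vp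
      have hfin : (mackeyReps_finite hR').toFinset = R vp := by
        ext g
        simp
      have hsum := sum_index_mackeySubgroup hR'
      rw [hfin] at hsum
      rw [← hsum]
      refine Finset.sum_congr rfl (fun g _ => ?_)
      rw [if_pos]
      rfl
    · intro v _ hv
      refine Finset.sum_eq_zero (fun g _ => ?_)
      rw [if_neg]
      intro h
      apply hv
      apply Subtype.ext
      apply Subtype.ext
      exact h
    · intro h
      exact absurd (Finset.mem_univ _) h

end prod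

/-! ### `[GC-U]` with the local product evaluated -/

/-- **[GC-U-RED]** `GlobalCountUStatement` with the local product evaluated: what remains is
`p ^ (2 ∑_v #(R v) + [G_ℚ : U]) · (# Rsha)² ≤ (# H¹(U, ZMod p))²`. -/
def GlobalCountURedStatement : Prop :=
  ∀ (p : ℕ) [Fact p.Prime], p ≠ 2 → ∀ (S : Finset Nat.Primes), pPrime p ∈ S →
    ∀ (hχ : ∃ N ∈ (globalLevelSys S).sets, ∀ s ∈ N, cycloChar p s = 1)
      (U : Subgroup Fermat.Agent.H13.Cft.GQ)
      (hU : IsChiOpen (globalLevelSys S) (cycloChar p) U),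
    H1Finite ((globalLevelSys S).restrict U hU.1) p ∧
    ∃ Rsha : Finset (U × U → ZMod p),
      (∀ c : U × U → ZMod p, IsLvl₂ ((globalLevelSys S).restrict U hU.1) c → IsTrivCocycle₂ c →
        (∀ (v : (arithDatumQ p S hχ).ι) (g : Fermat.Agent.H13.Cft.GQ),
          IsLocTriv₂ (arithDatumQ p S hχ) U hU.1 c v g) →
        ∃ r ∈ Rsha, IsLvlCoboundary₂ ((globalLevelSys S).restrict U hU.1)
          (fun x => c x - r x)) ∧
      ∀ R : (arithDatumQ p S hχ).ι → Finset Fermat.Agent.H13.Cft.GQ,
        (∀ v, IsPlaceReps (arithDatumQ p S hχ) U v (R v)) →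
        p ^ (2 * (∑ v, (R v).card) + U.index) * Rsha.card ^ 2
          ≤ Nat.card {ψ : U → ZMod p // IsLvlHom ((globalLevelSys S).restrict U hU.1) ψ} ^ 2

/-- `[GC-U]` from `[GC-U-RED]`. -/
theorem globalCountU_of_red (h : GlobalCountURedStatement) : GlobalCountUStatement := by
  intro p _ hp2 S hpS hχ U hU
  obtain ⟨h1, Rsha, hsha, hcount⟩ := h p hp2 S hpS hχ U hU
  refine ⟨h1, Rsha, hsha, fun R hR => ?_⟩
  rw [localProd p hp2 S hpS hχ U hU R hR]
  exact hcount R hR

end Fermat.Agent.H78.CFT
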