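/-
P-CFT / LOCAL (helper78): the local count in the two interface shapes of `[GC-FIELD]`:

* `localCountU : Fermat.Agent.H76.Cft.LocalCountUStatement`   (row 982 GC-LOC-U, helper76);
* `localProdU  : Fermat.Agent.H79.GC.LocalProdStatement`      (row 965 GC-L, helper79).
Both are immediate from `Fermat.Agent.H78.CFT.LocalProd`.
-/
import Fermat.Agent.H78.CFT.LocalProd
import Fermat.Agent.H76.Cft.FieldDictInterfaces
import Fermat.Agent.H79.GC.Interfaces

set_option autoImplicit false

namespace Fermat.Agent.H78.CFT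

open Fermat.Agent.H13.Cft ExtCitation Fermat.Agent.H97.Shap

/-- **[GC-LOC-U]** (row 982) the local count in U-language. -/
theorem localCountU : Fermat.Agent.H76.Cft.LocalCountUStatement := by
  intro p _ hp2 S _ hχ U hU v g
  have h := localH1Card_restrict p hp2 (v : ↥S).1
    (mackeySubgroup ((arithDatumQ p S hχ).loc v) U g)
    (mackeySubgroup_open ((arithDatumQ p S hχ).loc v) U g ((arithDatumQ p S hχ).compat v) hU.1)
    (fun s hs => cycloChar_loc_eq_one_of_mem_mackeySubgroup p hU.2 g hs)
  by_cases hv : (v : ↥S).1 = pPrime p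
  · rw [if_pos hv]
    have hv' : (((v : ↥S).1 : Nat.Primes) : ℕ) = p := by rw [hv]; rfl
    rw [if_pos hv'] at h
    exact h
  · rw [if_neg hv]
    have hv' : ¬ (((v : ↥S).1 : Nat.Primes) : ℕ) = p := fun h' => hv (Subtype.ext h')
    rw [if_neg hv'] at h
    exact h

/-- **[GC-L]** (row 965) the product of the local `# H¹`. -/
theorem localProdU : Fermat.Agent.H79.GC.LocalProdStatement :=
  fun p _ hp2 S hpS hχ U hU R hR => localProd p hp2 S hpS hχ U hU R hR

end Fermat.Agent.H78.CFT
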