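/-
P-CFT / LOCAL (sub-lead helper78): the bridge from the elementary local target
`LocalCoreStatement` (local duality for the TRIVIAL module on open subgroups, cocycle language)
to the FRAME local base case `LocalBase` of helper13 (`Fermat.Agent.H13.Cft.Local`).

`LocalBaseOfCoreStatement` is the Shapiro transfer: for a local trace `Tv` at `q` which is
nonzero on some level 2-cocycle, the permutation modules `F_p[Γ_q / V]` (`V` open of index
prime to `p`, cyclotomic character trivial on `V`) satisfy `LDualityP`.
-/
import Fermat.Agent.H78.CFT.LocalTarget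
import Fermat.Agent.H13.Cft.Local

set_option autoImplicit false

namespace Fermat.Agent.H78.CFT

open Fermat.Agent.H13.Cft ExtCitation

/-- A local trace is nonzero on cohomology: it does not vanish on some level 2-cocycle. -/
def LTrace.IsNonzero {k : Type} [CommRing k] {Γ : Type} [Group Γ] {𝒱 : LevelSys Γ}
    {χ : Γ →* kˣ} (T : LTrace 𝒱 χ) : Prop :=
  ∃ c : lvlCochains 𝒱 (muRep χ) 2, lvlD 𝒱 (muRep χ) 2 c = 0 ∧ T.t c ≠ 0

/-- **[LOC-SHAP]** the FRAME local base case from the elementary local target (Shapiro). -/
def LocalBaseOfCoreStatement : Prop :=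
  LocalCoreStatement →
    ∀ (p : ℕ) [Fact p.Prime], p ≠ 2 → ∀ (q : Nat.Primes)
      (Tv : LTrace (pullbackLevelSys (primeLocalToGlobal q))
        ((cycloChar p).comp (primeLocalToGlobal q)))
      (hc : ∀ M : Rep (ZMod p) (primeLocalGaloisGroup q), LThetaComm Tv M),
      LTrace.IsNonzero Tv →
      LocalBase (pullbackLevelSys (primeLocalToGlobal q))
        ((cycloChar p).comp (primeLocalToGlobal q)) Tv hc

end Fermat.Agent.H78.CFT
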