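/-
P-CFT / [TR] (helper78): THE LOCAL TRACE FORMS and THE LAST STEP of `[TR]`.

In helper25's dictionary (`Fermat.Agent.H25.Recip.TraceInterfaces`: `locCoch`, `globCoch`,
`zetaPow`), for a fixed primitive `p`-th root of unity `ζ`:

* `LocalTraceFormStatement` / `localTraceForm` : for every prime `q` a LINEAR form `t_q` on the
  FRAME local cochains `C²(Γ_q, μ)` which vanishes on the coboundaries of level 1-cochains, is
  nonzero on some cocycle and whose value on a cocycle `a` is the canonical invariant: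
  `t_q a = j` whenever `HasInv q K_q (ζ ^ a) j p`
  (from `TraceDictStatement`, `TraceKummerStatement` and the invariant package
  `hasInv_exists / hasInv_unique / hasInv_mul / hasInv_zero_iff`);
* `recip_of` : `RecipQStatement → TraceDictStatement → TraceKummerStatement →
  TraceUnramStatement → Fermat.Agent.H13.Cft.RecipStatement`  (the input `[TR-C]` of the frame).
-/
import Fermat.Agent.H25.Recip.TraceInterfaces
import Fermat.Agent.H78.CFT.LocalUncond
import Fermat.Agent.H13.Cft.ULang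
import Fermat.Agent.H98.Cft.ThetaComm

set_option autoImplicit false
set_option synthInstance.maxHeartbeats 400000

namespace Fermat.Agent.H78.CFT

open Fermat.Agent.H13.Cft ExtCitation Fermat.Agent.H81.Local Fermat.Agent.H25.Recip

/-! ### `ζ ^ c` -/

section zeta

variable {p : ℕ} {ζ : Qbˣ} {X : Type}

lemma zetaPow_add_apply [Fact p.Prime] (hζ : ζ ^ p = 1) (c c' : X → ZMod p) (x : X) :
    zetaPow ζ (c + c') x = zetaPow ζ c x * zetaPow ζ c' x := by
  show ζ ^ (c x + c' x).val = ζ ^ (c x).val * ζ ^ (c' x).val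
  rw [ZMod.val_add, ← pow_add]
  exact (pow_eq_pow_mod _ hζ).symm

lemma zetaPow_pow_apply (hζ : ζ ^ p = 1) (c : X → ZMod p) (x : X) :
    zetaPow ζ c x ^ p = 1 := by
  show (ζ ^ (c x).val) ^ p = 1
  rw [← pow_mul, mul_comm, pow_mul, hζ, one_pow]

end zeta

/-! ### The local trace forms -/

/-- **[TR-LOC]** the local trace forms: for every prime `q` a linear form on the FRAME local
2-cochains with values in `μ` which vanishes on coboundaries, does not vanish on some cocycle,
and computes the canonical invariant (with respect to `ζ`) of every cocycle. -/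
def LocalTraceFormStatement : Prop :=
  ∀ (p : ℕ) [Fact p.Prime], p ≠ 2 → ∀ (ζ : Qbˣ), IsPrimitiveRoot (ζ : Qb) p →
    ∀ (q : Nat.Primes) [Fact (q : ℕ).Prime],
    ∃ t : lvlCochains (pullbackLevelSys (primeLocalToGlobal q))
        (Rep.res (primeLocalToGlobal q) (muRep (cycloChar p))) 2 →ₗ[ZMod p] ZMod p,
      (∀ b : lvlCochains (pullbackLevelSys (primeLocalToGlobal q))
          (Rep.res (primeLocalToGlobal q) (muRep (cycloChar p))) 1,
        t (lvlD (pullbackLevelSys (primeLocalToGlobal q))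
          (Rep.res (primeLocalToGlobal q) (muRep (cycloChar p))) 1 b) = 0) ∧
      (∃ a, lvlD (pullbackLevelSys (primeLocalToGlobal q))
          (Rep.res (primeLocalToGlobal q) (muRep (cycloChar p))) 2 a = 0 ∧ t a ≠ 0) ∧
      ∀ a, lvlD (pullbackLevelSys (primeLocalToGlobal q))
          (Rep.res (primeLocalToGlobal q) (muRep (cycloChar p))) 2 a = 0 →
        HasInv (q : ℕ) (localField (q : ℕ)) (zetaPow ζ (locCoch q a.1)) ((t a).val : ℤ) p ∧
        ∀ j : ℤ, HasInv (q : ℕ) (localField (q : ℕ)) (zetaPow ζ (locCoch q a.1)) j p →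
          t a = (j : ZMod p)

/-- **[TR-LOC]** from the dictionary and Kummer surjectivity. -/
theorem localTraceForm (hD : TraceDictStatement) (hK : TraceKummerStatement) :
    LocalTraceFormStatement := by
  classical
  intro p _ _ ζ hζ q _
  have hp : p.Prime := Fact.out
  have hζu : ζ ^ p = 1 := (IsPrimitiveRoot.coe_units_iff.mp hζ).pow_eq_one
  obtain ⟨-, hDloc, hDcob⟩ := hD p ζ hζ
  have hE : IsLocalFinite (q : ℕ) (localField (q : ℕ)) := isLocalFinite_localField (q : ℕ)
  -- the invariant exists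
  have hex : ∀ a : lvlCochains (pullbackLevelSys (primeLocalToGlobal q))
      (Rep.res (primeLocalToGlobal q) (muRep (cycloChar p))) 2,
      lvlD (pullbackLevelSys (primeLocalToGlobal q))
        (Rep.res (primeLocalToGlobal q) (muRep (cycloChar p))) 2 a = 0 →
      ∃ j : ℤ, HasInv (q : ℕ) (localField (q : ℕ)) (zetaPow ζ (locCoch q a.1)) j p := by
    intro a ha
    have h1 := (hDloc q a).1
    have h2 := (hDloc q a).2 ha
    have h3 : IsLvlMulCoboundary₂E (localField (q : ℕ))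
        (fun x => zetaPow ζ (locCoch q a.1) x ^ p ^ 1) := by
      refine (isLvlMulCoboundary₂E_one (localField (q : ℕ))).congr (fun x => ?_)
      rw [pow_one]
      exact (zetaPow_pow_apply hζu _ x).symm
    obtain ⟨j, hj⟩ := hasInv_exists p (q : ℕ) (localField (q : ℕ)) hE 1 _ h1 h2 h3
    rw [pow_one] at hj
    exact ⟨j, hj⟩
  -- the invariant as a function on the cocycles
  let Z : Submodule (ZMod p) (lvlCochains (pullbackLevelSys (primeLocalToGlobal q))
      (Rep.res (primeLocalToGlobal q) (muRep (cycloChar p))) 2) :=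
    LinearMap.ker (lvlD (pullbackLevelSys (primeLocalToGlobal q))
      (Rep.res (primeLocalToGlobal q) (muRep (cycloChar p))) 2)
  have hZ : ∀ a : Z, lvlD (pullbackLevelSys (primeLocalToGlobal q))
      (Rep.res (primeLocalToGlobal q) (muRep (cycloChar p))) 2 a.1 = 0 := fun a => a.2
  let f0 : Z → ZMod p := fun a => ((Classical.choose (hex a.1 (hZ a)) : ℤ) : ZMod p)
  have hf0 : ∀ (a : Z) (j : ℤ),
      HasInv (q : ℕ) (localField (q : ℕ)) (zetaPow ζ (locCoch q a.1.1)) j p →
      f0 a = (j : ZMod p) := by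
    intro a j hj
    have h := hasInv_unique (q : ℕ) _ hE p _ _ _ hj (Classical.choose_spec (hex a.1 (hZ a)))
    exact (ZMod.intCast_eq_intCast_iff_dvd_sub _ _ p).mpr h
  have hadd : ∀ a b : Z, f0 (a + b) = f0 a + f0 b := by
    intro a b
    have ha := Classical.choose_spec (hex a.1 (hZ a))
    have hb := Classical.choose_spec (hex b.1 (hZ b))
    have hab := hasInv_mul (q : ℕ) _ hE p _ _ _ _ ha hb
    have e : zetaPow ζ (locCoch q (a + b).1.1) =
        fun x => zetaPow ζ (locCoch q a.1.1) x * zetaPow ζ (locCoch q b.1.1) x := by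
      funext x
      exact zetaPow_add_apply hζu (locCoch q a.1.1) (locCoch q b.1.1) x
    rw [hf0 (a + b) _ (e ▸ hab)]
    push_cast
    rfl
  let f : Z →ₗ[ZMod p] ZMod p := AddMonoidHom.toZModLinearMap p (AddMonoidHom.mk' f0 hadd)
  obtain ⟨t, ht⟩ := LinearMap.exists_extend f
  have htf : ∀ a : Z, t a.1 = f0 a := fun a => LinearMap.congr_fun ht a
  refine ⟨t, ?_, ?_, ?_⟩
  · intro b
    have hmem : lvlD (pullbackLevelSys (primeLocalToGlobal q))
        (Rep.res (primeLocalToGlobal q) (muRep (cycloChar p))) 2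
        (lvlD (pullbackLevelSys (primeLocalToGlobal q))
          (Rep.res (primeLocalToGlobal q) (muRep (cycloChar p))) 1 b) = 0 :=
      LinearMap.congr_fun (lvlD_comp_lvlD _ _ 1) b
    have h0 := (hasInv_zero_iff hE hp.pos _).mpr (hDcob q b)
    have := hf0 ⟨_, hmem⟩ 0 h0
    rw [← htf] at this
    simpa using this
  · obtain ⟨a, ha, hinv⟩ := hK p ζ hζ q
    refine ⟨a, ha, ?_⟩
    have := hf0 ⟨a, ha⟩ 1 hinv
    rw [← htf] at this
    rw [this]
    have : Fact (1 < p) := ⟨hp.one_lt⟩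
    simp
  · intro a ha
    refine ⟨?_, fun j hj => ?_⟩
    · have hj := Classical.choose_spec (hex a ha)
      have h1 : t a = ((Classical.choose (hex a ha) : ℤ) : ZMod p) := htf ⟨a, ha⟩
      refine hasInv_period (q : ℕ) _ hE p _ _ _ hj ?_
      rw [← ZMod.intCast_eq_intCast_iff_dvd_sub, ← h1]
      simp
    · have := hf0 ⟨a, ha⟩ j hj
      rw [← htf] at this
      exact this

/-! ### The last step of `[TR]` -/

/-- Restriction to the decomposition group commutes with the dictionary. -/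
theorem resCochain₂_zetaPow_globCoch (p : ℕ) [Fact p.Prime] (ζ : Qbˣ) (S : Finset Nat.Primes)
    (hχ : ∃ N ∈ (globalLevelSys S).sets, ∀ s ∈ N, cycloChar p s = 1)
    (q : ℕ) [Fact q.Prime] (hq : (⟨q, Fact.out⟩ : Nat.Primes) ∈ S)
    (z : lvlCochains (globalLevelSys S) (muRep (cycloChar p)) 2) :
    resCochain₂ (bot_le : Q0 ≤ localField q) (zetaPow ζ (globCoch z.1)) =
      zetaPow ζ (locCoch (⟨q, Fact.out⟩ : Nat.Primes)
        (locRes (arithDatumQ p S hχ) (muRep (cycloChar p))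
          (⟨⟨q, Fact.out⟩, hq⟩ : ↥S) 2 z).1) := by
  funext x
  show ζ ^ (z.1 _).val = ζ ^ ((locRes (arithDatumQ p S hχ) (muRep (cycloChar p))
    (⟨⟨q, Fact.out⟩, hq⟩ : ↥S) 2 z).1 _).val
  rw [Fermat.Agent.H98.Cft.locRes_coe]
  refine congrArg (fun w => ζ ^ (z.1 w).val) ?_
  funext i
  fin_cases i
  · show ((x.1 : (localField q).fixingSubgroup) : Qb ≃ₐ[ℚ] Qb) =
      primeLocalToGlobal ⟨q, Fact.out⟩ ((locEquiv ⟨q, Fact.out⟩).symm x.1)
    rw [← coe_locEquiv, MulEquiv.apply_symm_apply]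
  · show ((x.2 : (localField q).fixingSubgroup) : Qb ≃ₐ[ℚ] Qb) =
      primeLocalToGlobal ⟨q, Fact.out⟩ ((locEquiv ⟨q, Fact.out⟩).symm x.2)
    rw [← coe_locEquiv, MulEquiv.apply_symm_apply]

/-- **[TR-C]** the reciprocity statement of the frame from the reciprocity law `RecipQStatement`
for `Br(ℚ)[p]`, the dictionary, Kummer surjectivity and local triviality outside `S`. -/
theorem recip_of (hRQ : RecipQStatement) (hD : TraceDictStatement) (hK : TraceKummerStatement)
    (hU : TraceUnramStatement) : RecipStatement := by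
  classical
  intro p _ hp2 S hpS hχ
  have hp : p.Prime := Fact.out
  have : NeZero p := ⟨hp.ne_zero⟩
  obtain ⟨ζ0, hζ0⟩ := HasEnoughRootsOfUnity.exists_primitiveRoot Qb p
  set ζ : Qbˣ := Units.mk0 ζ0 (hζ0.ne_zero hp.ne_zero) with hζdef
  have hζ : IsPrimitiveRoot (ζ : Qb) p := hζ0
  have hζu : ζ ^ p = 1 := (IsPrimitiveRoot.coe_units_iff.mp hζ).pow_eq_one
  have hLT := fun (v : ↥S) =>
    @localTraceForm hD hK p _ hp2 ζ hζ v.1 (factPrime v.1)
  choose t ht1 ht2 ht3 using hLT
  refine ⟨t, ht1, ht2, ?_⟩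
  intro z hz
  -- the multiplicative cocycle of `G_ℚ`
  have hc1 : IsLvlFun₂ (lvlE Q0) (zetaPow ζ (globCoch z.1)) := ((hD p ζ hζ).1 S z).1
  have hc2 : IsMulCocycle₂E Q0 (zetaPow ζ (globCoch z.1)) := ((hD p ζ hζ).1 S z).2 hz
  have hc3 : IsLvlMulCoboundary₂E Q0 (fun x => zetaPow ζ (globCoch z.1) x ^ p) :=
    (isLvlMulCoboundary₂E_one Q0).congr (fun x => (zetaPow_pow_apply hζu _ x).symm)
  -- the local invariants
  let j : ℕ → ℤ := fun q =>
    if h : ∃ hq : q.Prime, (⟨q, hq⟩ : Nat.Primes) ∈ S then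
      (((t ⟨⟨q, h.fst⟩, h.snd⟩ (locRes (arithDatumQ p S hχ) (muRep (cycloChar p))
        (⟨⟨q, h.fst⟩, h.snd⟩ : ↥S) 2 z)).val : ℕ) : ℤ)
    else 0
  have hj : ∀ v : ↥S, ((j ((v : Nat.Primes) : ℕ) : ℤ) : ZMod p) =
      t v (locRes (arithDatumQ p S hχ) (muRep (cycloChar p)) v 2 z) := by
    intro v
    have h : ∃ hq : ((v : Nat.Primes) : ℕ).Prime,
        (⟨((v : Nat.Primes) : ℕ), hq⟩ : Nat.Primes) ∈ S := ⟨v.1.2, v.2⟩
    show ((dite _ _ _ : ℤ) : ZMod p) = _
    rw [dif_pos h, Int.cast_natCast, ZMod.natCast_zmod_val]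
    rfl
  have hout : ∀ (q : ℕ) [Fact q.Prime], q ∉ S.image (fun q : Nat.Primes => (q : ℕ)) →
      IsLvlMulCoboundary₂E (localField q)
        (resCochain₂ (bot_le : Q0 ≤ localField q) (zetaPow ζ (globCoch z.1))) := by
    intro q _ hq
    refine hU p ζ hζ S hpS z hz q ?_
    intro hmem
    exact hq (Finset.mem_image.mpr ⟨_, hmem, rfl⟩)
  have hin : ∀ (q : ℕ) [Fact q.Prime], q ∈ S.image (fun q : Nat.Primes => (q : ℕ)) →
      HasInv q (localField q)
        (resCochain₂ (bot_le : Q0 ≤ localField q) (zetaPow ζ (globCoch z.1))) (j q) p := by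
    intro q hqF hq
    obtain ⟨v, hvS, hvq⟩ := Finset.mem_image.mp hq
    have hmem : (⟨q, Fact.out⟩ : Nat.Primes) ∈ S := by
      have : (⟨q, Fact.out⟩ : Nat.Primes) = v := Subtype.ext hvq.symm
      rw [this]
      exact hvS
    have h : ∃ hq' : q.Prime, (⟨q, hq'⟩ : Nat.Primes) ∈ S := ⟨Fact.out, hmem⟩
    have hjq : j q = (((t ⟨⟨q, Fact.out⟩, hmem⟩ (locRes (arithDatumQ p S hχ)
        (muRep (cycloChar p)) (⟨⟨q, Fact.out⟩, hmem⟩ : ↥S) 2 z)).val : ℕ) : ℤ) := by
      show dite _ _ _ = _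
      rw [dif_pos h]
    rw [hjq, resCochain₂_zetaPow_globCoch p ζ S hχ q hmem z]
    have hcoc : lvlD (pullbackLevelSys (primeLocalToGlobal ⟨q, Fact.out⟩))
        (Rep.res (primeLocalToGlobal ⟨q, Fact.out⟩) (muRep (cycloChar p))) 2
        (locRes (arithDatumQ p S hχ) (muRep (cycloChar p))
          (⟨⟨q, Fact.out⟩, hmem⟩ : ↥S) 2 z) = 0 := by
      have := Fermat.Agent.H98.Cft.locRes_lvlD (arithDatumQ p S hχ) (muRep (cycloChar p))
        (⟨⟨q, Fact.out⟩, hmem⟩ : ↥S) 2 z
      exact this.symm.trans ((congrArg _ hz).trans (map_zero _))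
    exact (ht3 ⟨⟨q, Fact.out⟩, hmem⟩ _ hcoc).1
  have hT : ∀ q ∈ S.image (fun q : Nat.Primes => (q : ℕ)), q.Prime := by
    intro q hq
    obtain ⟨v, -, rfl⟩ := Finset.mem_image.mp hq
    exact v.2
  have key := hRQ p hp2 (zetaPow ζ (globCoch z.1)) hc1 hc2 hc3
    (S.image (fun q : Nat.Primes => (q : ℕ))) j hT hout hin
  have e1 : ∑ n ∈ S.image (fun q : Nat.Primes => (q : ℕ)), ((j n : ℤ) : ZMod p) =
      ∑ q ∈ S, ((j (q : ℕ) : ℤ) : ZMod p) :=
    Finset.sum_image (s := S) (g := fun q : Nat.Primes => (q : ℕ))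
      (f := fun n => ((j n : ℤ) : ZMod p)) (fun a _ b _ hab => Subtype.ext hab)
  have h1 : ∑ v : ↥S, t v (locRes (arithDatumQ p S hχ) (muRep (cycloChar p)) v 2 z) =
      ((∑ q ∈ S.image (fun q : Nat.Primes => (q : ℕ)), j q : ℤ) : ZMod p) := by
    rw [Int.cast_sum, e1,
      ← Finset.sum_coe_sort S (fun q : Nat.Primes => ((j (q : ℕ) : ℤ) : ZMod p))]
    exact Finset.sum_congr rfl (fun v _ => (hj v).symm)
  exact h1.trans ((ZMod.intCast_zmod_eq_zero_iff_dvd _ p).mpr key)

end Fermat.Agent.H78.CFT
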