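/-
P-CFT / [TR], row 1036 TR-UNR (helper78, second seat):
`traceUnram : Fermat.Agent.H25.Recip.TraceUnramStatement`, UNCONDITIONAL.

An `S`-level global `μ_p`-valued 2-cocycle `x` of `G_ℚ` is locally trivial (in `ℚ̄ˣ`) at every
prime `q ∉ S`.  Route (prime-to-`p` descent, no unit-valued local statement needed):

* `c = ζ ^ x` restricted to `E = K_q` has an invariant `j / p` (`hasInv_exists`, `c ^ p = 1`);
* over `L = ℚ(ζ)` the cocycle `x` has trivial coefficients and is `S`-level, hence helper49's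
  `isLocTrivAt_of_unram` makes it a coboundary on `D_q ∩ G_L`; so the restriction of `c` to
  `E' = L · K_q` is a level coboundary (helper73's `locTrivAtE_of_locTrivAt`);
* restriction multiplies the invariant by `[E' : E]` (helper64's `invResStatement`), which
  divides `p - 1`; uniqueness of the invariant gives `p ∣ j`.
-/
import Fermat.Agent.H25.Recip.TraceInterfaces
import Fermat.Agent.H62.Cft.TraceDict
import Fermat.Agent.H49.BS6.UnramTriv
import Fermat.Agent.H73.Cft.PairMu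
import Fermat.Agent.H64.CFT.InvResFinal
import Fermat.Agent.H78.CFT.LocalUncond
import Fermat.Agent.H78.CFT.LocalInvRes
import Fermat.Agent.H78.CFT.LocalProd
import Fermat.Agent.H94.Cft.CycloLevel
import Fermat.Agent.H21.Cft.BridgeLevels
import Fermat.Agent.H81.Local.Dense

set_option autoImplicit false
set_option synthInstance.maxHeartbeats 400000
set_option linter.style.haveILetI false

namespace Fermat.Agent.H78.CFT

open Fermat.Agent.H13.Cft Fermat.Agent.H81.Local Fermat.Agent.H25.Recip ExtCitation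
open groupCohomology

/-! ### The field `ℚ(ζ)` -/

section Field

variable {p : ℕ} [Fact p.Prime] (ζ : Qbˣ)

/-- The field `ℚ(ζ)` inside `ℚ̄`. -/
noncomputable def truField : IntermediateField ℚ Qb :=
  IntermediateField.adjoin ℚ {(ζ : Qb)}

theorem zeta_mem_truField : (ζ : Qb) ∈ truField ζ :=
  IntermediateField.mem_adjoin_simple_self ℚ (ζ : Qb)

theorem truField_finiteDimensional : FiniteDimensional ℚ (truField ζ) := by
  haveI := Fermat.Agent.H81.isAlgebraic_rat_Qbar
  have h : IsIntegral ℚ (ζ : Qb) := Algebra.IsIntegral.isIntegral _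
  exact IntermediateField.adjoin.finiteDimensional h

variable {ζ}

/-- The cyclotomic character is trivial on `G_{ℚ(ζ)}`. -/
theorem cycloChar_eq_one_of_mem_truField (hζ : IsPrimitiveRoot (ζ : Qb) p)
    {s : Qb ≃ₐ[ℚ] Qb} (hs : s ∈ (truField ζ).fixingSubgroup) : cycloChar p s = 1 := by
  have hp : p.Prime := Fact.out
  refine Fermat.Agent.H94.Cft.cycloChar_eq_one_of_fix p s fun t ht => ?_
  obtain ⟨i, -, rfl⟩ := hζ.eq_pow_of_pow_eq_one ht
  have h1 : s (ζ : Qb) = (ζ : Qb) :=
    (IntermediateField.mem_fixingSubgroup_iff _ s).1 hs _ (zeta_mem_truField ζ)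
  rw [map_pow, h1]

/-- The kernel of the cyclotomic character fixes `ℚ(ζ)`. -/
theorem ker_cycloChar_le_truField (hζ : IsPrimitiveRoot (ζ : Qb) p) :
    (cycloChar p).ker ≤ (truField ζ).fixingSubgroup := by
  have hp : p.Prime := Fact.out
  haveI : Fact (1 < p) := ⟨hp.one_lt⟩
  rw [← IntermediateField.le_iff_le]
  refine IntermediateField.adjoin_le_iff.2 (Set.singleton_subset_iff.2 ?_)
  show (ζ : Qb) ∈ IntermediateField.fixedField (cycloChar p).ker
  rw [IntermediateField.mem_fixedField_iff]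
  intro s hs
  have h1 := Fermat.Agent.H62.Cft.trd_act_zeta ζ hζ s
  rw [MonoidHom.mem_ker.1 hs, Units.val_one, ZMod.val_one, pow_one] at h1
  have h2 := congrArg (fun u : Qbˣ => (u : Qb)) h1
  exact h2

end Field

/-! ### The degree of `K_q(ζ) / K_q` -/

section Degree

variable {p : ℕ} [Fact p.Prime]

/-- The relative index of the kernel of the cyclotomic character in any subgroup divides
`p - 1`. -/
theorem relIndex_ker_cycloChar_dvd (H : Subgroup (Qb ≃ₐ[ℚ] Qb)) :
    (cycloChar p).ker.relIndex H ∣ p - 1 := by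
  have hp : p.Prime := Fact.out
  haveI : NeZero p := ⟨hp.ne_zero⟩
  have h1 : (cycloChar p).ker.relIndex H = ((cycloChar p).comp H.subtype).ker.index := by
    rw [Subgroup.relIndex, Subgroup.subgroupOf, MonoidHom.comap_ker]
  rw [h1, Subgroup.index_ker]
  have h2 : Nat.card (ZMod p)ˣ = p - 1 := by
    rw [Nat.card_eq_fintype_card, ZMod.card_units_eq_totient, Nat.totient_prime hp]
  rw [← h2]
  exact Subgroup.card_subgroup_dvd_card _

end Degree

/-! ### The restriction of the FRAME cocycle to `G_{ℚ(ζ)}` -/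

section Main

variable {p : ℕ} [Fact p.Prime]

/-- Over `ℚ(ζ)` the FRAME `μ_p`-cocycle is a cocycle for the trivial action. -/
theorem isCocycle₂_res_globCoch {ζ : Qbˣ} (hζ : IsPrimitiveRoot (ζ : Qb) p)
    (S : Finset Nat.Primes) (x : lvlCochains (globalLevelSys S) (muRep (cycloChar p)) 2)
    (hx : lvlD (globalLevelSys S) (muRep (cycloChar p)) 2 x = 0) :
    Fermat.Agent.H54.Cft.IsCocycle₂
      (resCochain₂ (bot_le : Q0 ≤ truField ζ) (globCoch x.1)) := by
  have hx' : (inhomogeneousCochains.d (muRep (cycloChar p)) 2).hom x.1 = 0 := by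
    have h := congrArg Subtype.val hx
    rw [lvlD_coe] at h
    exact h
  have hf : ∀ g0 g1 g2 : (Qb ≃ₐ[ℚ] Qb),
      ((cycloChar p g0 : (ZMod p)ˣ) : ZMod p) * x.1 ![g1, g2]
        - x.1 ![g0 * g1, g2] + x.1 ![g0, g1 * g2] - x.1 ![g0, g1] = 0 := by
    intro g0 g1 g2
    have h := congrFun hx' ![g0, g1, g2]
    rw [Fermat.Agent.H62.Cft.trd_d2_apply] at h
    exact h
  intro g h k
  have h1 := hf (g : Qb ≃ₐ[ℚ] Qb) (h : Qb ≃ₐ[ℚ] Qb) (k : Qb ≃ₐ[ℚ] Qb)
  rw [cycloChar_eq_one_of_mem_truField hζ g.2, Units.val_one, one_mul] at h1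
  exact h1

/-- Over `ℚ(ζ)` the FRAME `S`-level cochain is `S`-level in the field language. -/
theorem isSLvl₂_res_globCoch (ζ : Qbˣ)
    (S : Finset Nat.Primes) (x : lvlCochains (globalLevelSys S) (muRep (cycloChar p)) 2) :
    Fermat.Agent.H54.Cft.IsSLvl₂ S (truField ζ)
      (resCochain₂ (bot_le : Q0 ≤ truField ζ) (globCoch x.1)) := by
  obtain ⟨N, hN, hxN⟩ := x.2
  obtain ⟨F, hF, hFN⟩ := Fermat.Agent.H21.Cft.exists_unramified_field_of_level S hN
  refine ⟨F, hF, fun g h n m hn hm => ?_⟩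
  show x.1 ![((g * n : (truField ζ).fixingSubgroup) : Qb ≃ₐ[ℚ] Qb),
      ((h * m : (truField ζ).fixingSubgroup) : Qb ≃ₐ[ℚ] Qb)] =
    x.1 ![(g : Qb ≃ₐ[ℚ] Qb), (h : Qb ≃ₐ[ℚ] Qb)]
  have h1 : ![((g * n : (truField ζ).fixingSubgroup) : Qb ≃ₐ[ℚ] Qb),
      ((h * m : (truField ζ).fixingSubgroup) : Qb ≃ₐ[ℚ] Qb)] =
      ![(g : Qb ≃ₐ[ℚ] Qb), (h : Qb ≃ₐ[ℚ] Qb)] * ![(n : Qb ≃ₐ[ℚ] Qb), (m : Qb ≃ₐ[ℚ] Qb)] := by
    funext i; fin_cases i <;> rfl
  have h2 : ∀ i, ![(n : Qb ≃ₐ[ℚ] Qb), (m : Qb ≃ₐ[ℚ] Qb)] i ∈ N := by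
    intro i
    fin_cases i
    · exact hFN ▸ hn
    · exact hFN ▸ hm
  rw [h1, hxN.1 _ _ h2]

/-- The degree of `K_q(ζ)` over `K_q` divides `p - 1`. -/
theorem relfinrank_locFieldAt_truField_dvd {ζ : Qbˣ} (hζ : IsPrimitiveRoot (ζ : Qb) p)
    (q : ℕ) [Fact q.Prime]
    (h : localField q ≤ Fermat.Agent.H97.Hasse.locFieldAt (truField ζ) (padicPlace q)) :
    IntermediateField.relfinrank (localField q)
      (Fermat.Agent.H97.Hasse.locFieldAt (truField ζ) (padicPlace q)) ∣ p - 1 := by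
  haveI := Fermat.Agent.H21.Cft.isGalois_qbar_adm
  rw [relfinrank_eq_relIndex_fixingSubgroup h]
  refine dvd_trans ?_ (relIndex_ker_cycloChar_dvd (p := p) (localField q).fixingSubgroup)
  rw [← Subgroup.inf_relIndex_right (cycloChar p).ker (localField q).fixingSubgroup]
  refine Subgroup.relIndex_dvd_of_le_left _ ?_
  intro s hs
  unfold Fermat.Agent.H97.Hasse.locFieldAt
  rw [IntermediateField.fixingSubgroup_sup]
  exact ⟨ker_cycloChar_le_truField hζ hs.1, hs.2⟩

/-- **[TR-UNR]** an `S`-level global `μ_p`-cocycle is locally trivial at every `q ∉ S`. -/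
theorem traceUnram : TraceUnramStatement := by
  intro p _ ζ hζ S _ x hx q _ hqS
  have hp : p.Prime := Fact.out
  have hq : q.Prime := Fact.out
  haveI := truField_finiteDimensional ζ
  obtain ⟨hlvl, hcoc⟩ := (Fermat.Agent.H62.Cft.traceDict p ζ hζ).1 S x
  have hcoc := hcoc hx
  have hE : IsLocalFinite q (localField q) := isLocalFinite_localField q
  have hlvlE : IsLvlFun₂ (lvlE (localField q))
      (resCochain₂ (bot_le : Q0 ≤ localField q) (zetaPow ζ (globCoch x.1))) :=
    IsLvlFun₂.res _ hlvl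
  have hcocE : IsMulCocycle₂E (localField q)
      (resCochain₂ (bot_le : Q0 ≤ localField q) (zetaPow ζ (globCoch x.1))) :=
    IsMulCocycle₂E.res _ hcoc
  have hpow : IsLvlMulCoboundary₂E (localField q)
      (fun y => resCochain₂ (bot_le : Q0 ≤ localField q) (zetaPow ζ (globCoch x.1)) y
        ^ (p ^ 1)) := by
    refine (isLvlMulCoboundary₂E_one _).congr fun y => ?_
    show (1 : Qbˣ) = (ζ ^ _) ^ (p ^ 1)
    rw [pow_one, ← pow_mul, mul_comm, pow_mul, Fermat.Agent.H62.Cft.trd_zeta_pow ζ hζ, one_pow]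
  obtain ⟨j, hj⟩ := hasInv_exists p q _ hE 1 _ hlvlE hcocE hpow
  rw [pow_one] at hj
  -- the field `E' = K_q(ζ)`
  have hEE' : localField q ≤ Fermat.Agent.H97.Hasse.locFieldAt (truField ζ) (padicPlace q) :=
    le_sup_right
  have hE' : IsLocalFinite q (Fermat.Agent.H97.Hasse.locFieldAt (truField ζ) (padicPlace q)) := by
    have h := isLocalFinite_sup (q := q) (truField ζ)
    rw [sup_comm] at h
    exact h
  -- local triviality over `ℚ(ζ)`
  have hloc := Fermat.Agent.H49.BS6.isLocTrivAt_of_unram S (truField ζ) _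
    (isCocycle₂_res_globCoch hζ S x hx) (isSLvl₂_res_globCoch ζ S x) ⟨q, hq⟩ hqS
    (padicPlace q) (padicPlace_liesOverPrime q)
  have hlocE := Fermat.Agent.H73.PairMu.locTrivAtE_of_locTrivAt hζ (zeta_mem_truField ζ) hq
    (padicPlace_liesOverPrime q) _ hloc
  have hcob : IsLvlMulCoboundary₂E
      (Fermat.Agent.H97.Hasse.locFieldAt (truField ζ) (padicPlace q))
      (resCochain₂ hEE' (resCochain₂ (bot_le : Q0 ≤ localField q)
        (zetaPow ζ (globCoch x.1)))) := hlocE
  -- the invariant over `E'`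
  have h1 := Fermat.Agent.H64.invResStatement q _ _ hEE' hE hE' p _ j hj
  have h0 := (hasInv_zero_iff hE' hp.pos _).2 hcob
  have hdvd := hasInv_unique q _ hE' p _ _ _ h1 h0
  rw [sub_zero] at hdvd
  -- the degree is prime to `p`
  have hd := relfinrank_locFieldAt_truField_dvd hζ q hEE'
  have hnd : ¬ p ∣ IntermediateField.relfinrank (localField q)
      (Fermat.Agent.H97.Hasse.locFieldAt (truField ζ) (padicPlace q)) := by
    intro h
    have h2 : p ∣ p - 1 := h.trans hd
    have h3 := Nat.le_of_dvd (Nat.sub_pos_of_lt hp.one_lt) h2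
    have h4 := hp.one_lt
    omega
  have hcop : IsCoprime (p : ℤ) ((IntermediateField.relfinrank (localField q)
      (Fermat.Agent.H97.Hasse.locFieldAt (truField ζ) (padicPlace q)) : ℕ) : ℤ) :=
    Nat.isCoprime_iff_coprime.2 ((Nat.Prime.coprime_iff_not_dvd hp).2 hnd)
  have hpj : (p : ℤ) ∣ j := hcop.dvd_of_dvd_mul_left hdvd
  have hj0 := hasInv_period q _ hE p _ j 0 hj (by rw [sub_zero]; exact hpj)
  exact (hasInv_zero_iff hE hp.pos _).1 hj0

end Main

end Fermat.Agent.H78.CFT
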