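/-
P-CFT / [TR], row 1034 TR-KUM (helper78, second seat):
`traceKummer : Fermat.Agent.H25.Recip.TraceKummerStatement`, UNCONDITIONAL.

Kummer surjectivity at the unramified class: there is a FRAME local `μ_p`-valued level
2-cocycle at `q` whose image in `ℚ̄ˣ`-cochains has canonical invariant `1 / p`.

Proof.  Let `u` be the unramified cocycle of degree `p` of a uniformizer `π` of `E = K_q`.
`u ^ p` is the unramified cocycle of `π ^ p`, hence the coboundary of a level cochain `b`
(`UnramCocycleStatement`).  With a fixed choice of `p`-th roots, `β = root ∘ b` is again a level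
cochain and `c = u / dβ` satisfies `c ^ p = 1`: `c = ζ ^ a` for a unique `a` with values in
`ZMod p`, which is a level cocycle for the twisted action since `c` is one for the Galois
action.  Finally `c / u = (dβ)⁻¹`.
-/
import Fermat.Agent.H25.Recip.TraceInterfaces
import Fermat.Agent.H62.Cft.TraceDict
import Fermat.Agent.H78.CFT.LocalUncond
import Fermat.Agent.H78.CFT.LocalH2
import Fermat.Agent.H78.CFT.TraceUnram
import Fermat.Agent.H32.CFT.BrauerDiv
import Fermat.Agent.H2.Hasse.LevelTransfer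

set_option autoImplicit false
set_option synthInstance.maxHeartbeats 400000
set_option linter.style.haveILetI false

namespace Fermat.Agent.H78.CFT

open Fermat.Agent.H13.Cft Fermat.Agent.H81.Local Fermat.Agent.H25.Recip ExtCitation
open groupCohomology

/-! ### Roots and coboundaries of level cochains -/

section General

/-- `p`-th roots in `ℚ̄ˣ`. -/
theorem exists_units_pow_eq {p : ℕ} (hp : 0 < p) (z : Qbˣ) : ∃ w : Qbˣ, w ^ p = z := by
  obtain ⟨w, hw⟩ := IsAlgClosed.exists_pow_nat_eq (z : Qb) hp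
  have hw0 : w ≠ 0 := by
    rintro rfl
    rw [zero_pow hp.ne'] at hw
    exact z.ne_zero hw.symm
  refine ⟨Units.mk0 w hw0, Units.ext ?_⟩
  rw [Units.val_pow_eq_pow_val, Units.val_mk0, hw]

variable {E : IntermediateField ℚ Qb}

/-- A level function with values in `ℚ̄ˣ` is right-invariant under a level which fixes all its
values. -/
theorem IsLvlFun₁.exists_fix {β : E.fixingSubgroup → Qbˣ} (hβ : IsLvlFun₁ (lvlE E) β) :
    ∃ N ∈ (lvlE E).sets, (∀ g, ∀ n ∈ N, β (g * n) = β g) ∧
      ∀ g, ∀ n ∈ N, actU ((n : E.fixingSubgroup) : Qb ≃ₐ[ℚ] Qb) (β g) = β g := by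
  obtain ⟨N₀, hN₀, hinv⟩ := hβ
  haveI : N₀.FiniteIndex := (lvlE E).finiteIndex N₀ hN₀
  haveI : Finite (E.fixingSubgroup ⧸ N₀) := Subgroup.finite_quotient_of_finiteIndex
  obtain ⟨N₁, hN₁, hfix⟩ := Fermat.Agent.H2.lt_level_fix E
    (fun x : E.fixingSubgroup ⧸ N₀ => ((β (Quotient.out x) : Qbˣ) : Qb))
  obtain ⟨N, hN, hle⟩ := (lvlE E).directed N₀ hN₀ N₁ hN₁
  refine ⟨N, hN, fun g n hn => hinv g n (hle hn).1, fun g n hn => ?_⟩
  have hg : g⁻¹ * Quotient.out (QuotientGroup.mk g : E.fixingSubgroup ⧸ N₀) ∈ N₀ := by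
    rw [← QuotientGroup.eq]
    exact (QuotientGroup.out_eq' _).symm
  have h1 : β (Quotient.out (QuotientGroup.mk g : E.fixingSubgroup ⧸ N₀)) = β g := by
    have := hinv g _ hg
    rwa [mul_inv_cancel_left] at this
  apply Units.ext
  rw [coe_actU, ← h1]
  exact hfix n (hle hn).2 _

/-- The coboundary of a level cochain is a level 2-cochain. -/
theorem isLvlFun₂_mulD₁E {β : E.fixingSubgroup → Qbˣ} (hβ : IsLvlFun₁ (lvlE E) β) :
    IsLvlFun₂ (lvlE E) (mulD₁E E β) := by
  obtain ⟨N, hN, hinv, hfix⟩ := hβ.exists_fix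
  haveI hNn : N.Normal := (lvlE E).normal N hN
  refine ⟨N, hN, fun g h n hn m hm => ?_⟩
  show actU ((g * n : E.fixingSubgroup) : Qb ≃ₐ[ℚ] Qb) (β (h * m)) * β (g * n)
      / β (g * n * (h * m)) = actU (g : Qb ≃ₐ[ℚ] Qb) (β h) * β g / β (g * h)
  have h1 : g * n * (h * m) = g * h * (h⁻¹ * n * h * m) := by group
  have h2 : h⁻¹ * n * h * m ∈ N := N.mul_mem (hNn.conj_mem' n hn h) hm
  have h3 : actU ((g * n : E.fixingSubgroup) : Qb ≃ₐ[ℚ] Qb) (β h) =
      actU (g : Qb ≃ₐ[ℚ] Qb) (actU ((n : E.fixingSubgroup) : Qb ≃ₐ[ℚ] Qb) (β h)) :=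
    Units.ext rfl
  rw [h1, hinv _ _ h2, hinv h m hm, hinv g n hn, h3, hfix h n hn]

theorem comm_group_cocycle_aux {M : Type*} [CommGroup M] (a b c d e f : M) :
    a * b / c * (d * e / b) = a * d / f * (f * e / c) := by
  rw [div_mul_div_comm, div_mul_div_comm, div_eq_div_iff_mul_eq_mul]
  ac_rfl

/-- Coboundaries are cocycles. -/
theorem isMulCocycle₂E_mulD₁E (β : E.fixingSubgroup → Qbˣ) :
    IsMulCocycle₂E E (mulD₁E E β) := by
  intro g h j
  show actU ((g * h : E.fixingSubgroup) : Qb ≃ₐ[ℚ] Qb) (β j) * β (g * h) / β (g * h * j)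
      * (actU (g : Qb ≃ₐ[ℚ] Qb) (β h) * β g / β (g * h))
    = actU (g : Qb ≃ₐ[ℚ] Qb) (actU (h : Qb ≃ₐ[ℚ] Qb) (β j) * β h / β (h * j))
      * (actU (g : Qb ≃ₐ[ℚ] Qb) (β (h * j)) * β g / β (g * (h * j)))
  have h3 : actU ((g * h : E.fixingSubgroup) : Qb ≃ₐ[ℚ] Qb) (β j) =
      actU (g : Qb ≃ₐ[ℚ] Qb) (actU (h : Qb ≃ₐ[ℚ] Qb) (β j)) := Units.ext rfl
  rw [h3, map_div, map_mul, mul_assoc g h j]
  exact comm_group_cocycle_aux _ _ _ _ _ _

end General

/-! ### The local side: a `μ_p`-valued cocycle with invariant `1 / p` -/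

section Local

variable {p : ℕ} [Fact p.Prime] {q : ℕ} [Fact q.Prime]

/-- **Kummer surjectivity at the unramified class**, LOCAL currency: a level function
`a : G_E × G_E → ZMod p` such that `ζ ^ a` is a cocycle with invariant `1 / p`. -/
theorem exists_mu_cocycle_inv_one {ζ : Qbˣ} (hζ : IsPrimitiveRoot (ζ : Qb) p)
    {E : IntermediateField ℚ Qb} (hE : IsLocalFinite q E) :
    ∃ a : E.fixingSubgroup × E.fixingSubgroup → ZMod p,
      IsLvlFun₂ (lvlE E) a ∧ IsMulCocycle₂E E (zetaPow ζ a) ∧ HasInv q E (zetaPow ζ a) 1 p := by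
  have hp : p.Prime := Fact.out
  haveI : NeZero p := ⟨hp.ne_zero⟩
  obtain ⟨π, hπ⟩ := exists_unif_unit hE
  obtain ⟨φ, hφ⟩ := exists_isFrobE hE hp.pos
  have hul : IsLvlFun₂ (lvlE E) (unramCocycle q E p φ π) :=
    Fermat.Agent.H32.CFT.isLvlFun₂_unramCocycle hφ π
  have huc : IsMulCocycle₂E E (unramCocycle q E p φ π) :=
    Fermat.Agent.H32.CFT.isMulCocycle₂E_unramCocycle hφ π
  -- `u ^ p` is a level coboundary
  have hup : IsLvlMulCoboundary₂E E (fun x => unramCocycle q E p φ π x ^ p) := by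
    have hval : qVal q (((π ^ (p : ℤ) : Eˣ) : E) : Qb) = qVal q ((π : E) : Qb) ^ (p : ℤ) := by
      have : (((π ^ (p : ℤ) : Eˣ) : E) : Qb) = ((π : E) : Qb) ^ (p : ℤ) := by
        rw [Units.val_zpow_eq_zpow_val]; rfl
      rw [this, map_zpow₀]
    have h := (unramCocycleU q E hE p φ hφ π (π ^ (p : ℤ)) p hπ hval).2 dvd_rfl
    refine h.congr fun x => ?_
    rw [unramCocycle_zpow, zpow_natCast]
  obtain ⟨b, hbl, hb⟩ := hup
  -- `p`-th roots
  choose root hroot using fun z : Qbˣ => exists_units_pow_eq hp.pos z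
  have hβl : IsLvlFun₁ (lvlE E) (fun g => root (b g)) := by
    obtain ⟨N, hN, hbN⟩ := hbl
    exact ⟨N, hN, fun g n hn => congrArg root (hbN g n hn)⟩
  have hβp : ∀ gh, mulD₁E E (fun g => root (b g)) gh ^ p = unramCocycle q E p φ π gh ^ p := by
    intro gh
    have hb' : mulD₁E E b gh = unramCocycle q E p φ π gh ^ p := hb gh
    rw [← hb']
    simp only [mulD₁E]
    rw [div_pow, mul_pow, ← map_pow, hroot, hroot, hroot]
  have hβcob : IsLvlMulCoboundary₂E E (mulD₁E E (fun g => root (b g))) :=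
    ⟨fun g => root (b g), hβl, fun _ => rfl⟩
  -- the cocycle `c = u / dβ`
  have hcl : IsLvlFun₂ (lvlE E)
      (fun x => unramCocycle q E p φ π x * mulD₁E E (fun g => root (b g)) x ^ (-1 : ℤ)) :=
    Fermat.Agent.H32.CFT.isLvlFun₂_mul hul
      (Fermat.Agent.H32.CFT.isLvlFun₂_zpow (isLvlFun₂_mulD₁E hβl) (-1))
  have hcc : IsMulCocycle₂E E
      (fun x => unramCocycle q E p φ π x * mulD₁E E (fun g => root (b g)) x ^ (-1 : ℤ)) :=
    Fermat.Agent.H32.CFT.isMulCocycle₂E_mul huc
      (Fermat.Agent.H32.CFT.isMulCocycle₂E_zpow (isMulCocycle₂E_mulD₁E _) (-1))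
  have hcp : ∀ x, (unramCocycle q E p φ π x * mulD₁E E (fun g => root (b g)) x ^ (-1 : ℤ)) ^ p
      = 1 := by
    intro x
    rw [mul_pow, zpow_neg_one, inv_pow, hβp, mul_inv_cancel]
  -- exponents
  have hex : ∀ x, ∃ a : ZMod p, ζ ^ a.val =
      unramCocycle q E p φ π x * mulD₁E E (fun g => root (b g)) x ^ (-1 : ℤ) := by
    intro x
    have h1 : ((unramCocycle q E p φ π x * mulD₁E E (fun g => root (b g)) x ^ (-1 : ℤ) : Qbˣ)
        : Qb) ^ p = 1 := by
      rw [← Units.val_pow_eq_pow_val, hcp, Units.val_one]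
    obtain ⟨i, hi, hi'⟩ := hζ.eq_pow_of_pow_eq_one h1
    refine ⟨(i : ZMod p), Units.ext ?_⟩
    rw [Units.val_pow_eq_pow_val, ZMod.val_natCast, Nat.mod_eq_of_lt hi, hi']
  choose a ha using hex
  have hza : zetaPow ζ a =
      fun x => unramCocycle q E p φ π x * mulD₁E E (fun g => root (b g)) x ^ (-1 : ℤ) :=
    funext ha
  refine ⟨a, ?_, ?_, ⟨π, φ, hπ, hφ, ?_⟩⟩
  · obtain ⟨N, hN, hcN⟩ := hcl
    refine ⟨N, hN, fun g h n hn m hm => zp_inj hζ ?_⟩
    rw [ha, ha]
    exact hcN g h n hn m hm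
  · rw [hza]
    exact hcc
  · refine hβcob.inv.congr fun x => ?_
    rw [hza]
    show (mulD₁E E (fun g => root (b g)) x)⁻¹ =
      unramCocycle q E p φ π x * mulD₁E E (fun g => root (b g)) x ^ (-1 : ℤ)
        / unramCocycle q E p φ π x ^ (1 : ℤ)
    rw [zpow_one, zpow_neg_one, mul_div_cancel_left]

end Local

/-! ### Transport to the FRAME -/

section Frame

variable {p : ℕ} [Fact p.Prime]

/-- The kernel of the cyclotomic character pulled back along `r` is a level. -/
theorem ker_cycloChar_mem_pullback {ζ : Qbˣ} (hζ : IsPrimitiveRoot (ζ : Qb) p) {Γ : Type}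
    [Group Γ] (r : Γ →* (Qb ≃ₐ[ℚ] Qb)) :
    ((cycloChar p).comp r).ker ∈ (pullbackLevelSys r).sets := by
  haveI := truField_finiteDimensional ζ
  refine ⟨inferInstance, inferInstance, truField ζ, inferInstance, ?_⟩
  intro γ hγ
  rw [Subgroup.mem_comap] at hγ
  rw [MonoidHom.mem_ker, MonoidHom.comp_apply]
  exact cycloChar_eq_one_of_mem_truField hζ hγ

/-- The preimage of a level of `G_{K_q}` under `locEquiv` is a level of `Γ_q`. -/
theorem comap_locEquiv_mem (q : Nat.Primes) {N : Subgroup (locField q).fixingSubgroup}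
    (hN : N ∈ (lvlE (locField q)).sets) :
    N.comap ((locEquiv q : primeLocalGaloisGroup q ≃* (locField q).fixingSubgroup) :
        primeLocalGaloisGroup q →* (locField q).fixingSubgroup) ∈
      (pullbackLevelSys (primeLocalToGlobal q)).sets := by
  obtain ⟨hN1, hN2, F, hF, hFN⟩ := hN
  haveI := hN1
  refine ⟨inferInstance, ⟨?_⟩, F, hF, ?_⟩
  · rw [Subgroup.index_comap_of_surjective N
      (f := ((locEquiv q : primeLocalGaloisGroup q ≃* (locField q).fixingSubgroup) :
        primeLocalGaloisGroup q →* (locField q).fixingSubgroup)) (locEquiv q).surjective]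
    exact hN2.index_ne_zero
  · intro γ hγ
    rw [Subgroup.mem_comap] at hγ ⊢
    apply hFN
    rw [Subgroup.mem_comap]
    exact hγ

/-- The invariant only depends on the pointwise values. -/
theorem hasInv_congr_fun {q : ℕ} [Fact q.Prime] {E : IntermediateField ℚ Qb}
    {c c' : E.fixingSubgroup × E.fixingSubgroup → Qbˣ} {j : ℤ} {m : ℕ}
    (h : HasInv q E c j m) (hcc' : ∀ x, c x = c' x) : HasInv q E c' j m := by
  have : c = c' := funext hcc'
  rwa [← this]

/-- **[TR-KUM]** Kummer surjectivity at the unramified class. -/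
theorem traceKummer : TraceKummerStatement := by
  intro p _ ζ hζ q hq
  have hp : p.Prime := Fact.out
  obtain ⟨a, hal, hac, hai⟩ := exists_mu_cocycle_inv_one (p := p) (q := (q : ℕ)) hζ
    (isLocalFinite_localField (q : ℕ))
  have hmem : (fun f : Fin 2 → primeLocalGaloisGroup q =>
        a (locEquiv q (f 0), locEquiv q (f 1))) ∈
      lvlCochains (pullbackLevelSys (primeLocalToGlobal q))
        (Rep.res (primeLocalToGlobal q) (muRep (cycloChar p))) 2 := by
    obtain ⟨N, hN, haN⟩ := hal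
    obtain ⟨N', hN', hle⟩ := (pullbackLevelSys (primeLocalToGlobal q)).directed _
      (comap_locEquiv_mem q hN) _ (ker_cycloChar_mem_pullback hζ (primeLocalToGlobal q))
    refine ⟨N', hN', fun g u hu => ?_, fun g s hs => ?_⟩
    · show a (locEquiv q ((g * u) 0), locEquiv q ((g * u) 1)) =
        a (locEquiv q (g 0), locEquiv q (g 1))
      rw [Pi.mul_apply, Pi.mul_apply, map_mul, map_mul]
      exact haN _ _ _ (hle (hu 0)).1 _ (hle (hu 1)).1
    · have h1 : cycloChar p (primeLocalToGlobal q s) = 1 := (hle hs).2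
      show ((cycloChar p (primeLocalToGlobal q s) : (ZMod p)ˣ) : ZMod p) *
          a (locEquiv q (g 0), locEquiv q (g 1)) = a (locEquiv q (g 0), locEquiv q (g 1))
      rw [h1, Units.val_one, one_mul]
  refine ⟨⟨_, hmem⟩, ?_, ?_⟩
  · -- the cocycle condition
    apply Subtype.ext
    rw [lvlD_coe]
    funext g
    rw [Fermat.Agent.H62.Cft.trd_d2_apply]
    show ((cycloChar p (primeLocalToGlobal q (g 0)) : (ZMod p)ˣ) : ZMod p) *
          a (locEquiv q (g 1), locEquiv q (g 2))
        - a (locEquiv q (g 0 * g 1), locEquiv q (g 2))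
        + a (locEquiv q (g 0), locEquiv q (g 1 * g 2))
        - a (locEquiv q (g 0), locEquiv q (g 1)) = 0
    have key := hac (locEquiv q (g 0)) (locEquiv q (g 1)) (locEquiv q (g 2))
    have key' : ζ ^ (a (locEquiv q (g 0) * locEquiv q (g 1), locEquiv q (g 2))
          + a (locEquiv q (g 0), locEquiv q (g 1))).val =
        ζ ^ (((cycloChar p (primeLocalToGlobal q (g 0)) : (ZMod p)ˣ) : ZMod p) *
            a (locEquiv q (g 1), locEquiv q (g 2))
          + a (locEquiv q (g 0), locEquiv q (g 1) * locEquiv q (g 2))).val := by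
      have e1 := Fermat.Agent.H62.Cft.trdExp_add ζ hζ
        (a (locEquiv q (g 0) * locEquiv q (g 1), locEquiv q (g 2)))
        (a (locEquiv q (g 0), locEquiv q (g 1)))
      have e2 := Fermat.Agent.H62.Cft.trdExp_add ζ hζ
        (((cycloChar p (primeLocalToGlobal q (g 0)) : (ZMod p)ˣ) : ZMod p) *
            a (locEquiv q (g 1), locEquiv q (g 2)))
        (a (locEquiv q (g 0), locEquiv q (g 1) * locEquiv q (g 2)))
      have e3 := Fermat.Agent.H62.Cft.trdExp_act ζ hζ (primeLocalToGlobal q (g 0))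
        (a (locEquiv q (g 1), locEquiv q (g 2)))
      unfold Fermat.Agent.H62.Cft.trdExp at e1 e2 e3
      rw [e1, e2, ← e3]
      exact key
    have h := zp_inj hζ key'
    rw [map_mul, map_mul]
    linear_combination -h
  · -- the invariant
    refine hasInv_congr_fun hai fun x => ?_
    obtain ⟨x1, x2⟩ := x
    show ζ ^ (a (x1, x2)).val = ζ ^ (a (locEquiv q ((locEquiv q).symm x1),
      locEquiv q ((locEquiv q).symm x2))).val
    rw [MulEquiv.apply_symm_apply, MulEquiv.apply_symm_apply]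

end Frame

end Fermat.Agent.H78.CFT
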